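/-
TW-L (S56, local computations) — INTERFACE FILE of the sub-captain (helper11).
Project TW = Taylor–Wiles primes (S56), captain helper63, plan NOTES/S56-plan.md §5; piece table
NOTES/TW-L.md.  Definitions and statements only.

Every `Stmt…` below is a `Prop`; the piece `X` is DONE when `theorem stmtX : StmtX` (or
`stmtX_of : deps → StmtX`) is landed, sorry-free, in its own file `Fermat/Agent/TW/L/<File>.lean`,
namespace `Fermat.Agent.TW.L`, private names prefixed by the piece id.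

Setting: `G_q = GQq q = Gal(ℚ̄_q/ℚ_q)` with the local tower `towerLoc q` of PT-B (levels
`r⁻¹ Gal(ℚ̄/F)`, `F/ℚ` finite, `r = localGaloisToGlobal q`), level cohomology `levH1` of PT/Plan.lean.
ONLY UPPER BOUNDS are needed by the Greenberg–Wiles inequality (NOTES/S56-plan.md (C), (D)).
-/
import Fermat.Agent.PT.Plan
import Fermat.Agent.PT.B.Towers
import Fermat.Prelude.Def_GaloisRep_Residual
import Fermat.Prelude.Def_GaloisRep_LocalConditions
import Fermat.Prelude.Def_GaloisRep_ComplexConjugation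
import Fermat.Prelude.Def_ExtCitation_KummerBridge

set_option autoImplicit false

noncomputable section

namespace Fermat.Agent.TW.L

open CategoryTheory groupCohomology Polynomial
open Fermat.Agent.PT Fermat.Agent.PT.B ExtCitation

/-! ### Definitions -/

section Defs

variable (q : ℕ) [Fact q.Prime]

/-- The inertia subgroup of `G_{ℚ_q}`: the elements whose image in `G_ℚ` lies in the inertia group
of the place `padicPlace q` of `ℚ̄`. -/
def inertiaQ : Subgroup (GQq q) :=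
  ((padicPlace q).inertiaSubgroupIn ℚ).comap (localGaloisToGlobal q)

lemma mem_inertiaQ (τ : GQq q) :
    τ ∈ inertiaQ q ↔ localGaloisToGlobal q τ ∈ (padicPlace q).inertiaSubgroupIn ℚ := Iff.rfl

/-- `φ ∈ G_{ℚ_q}` is a Frobenius element: its image in `G_ℚ` is a Frobenius at `padicPlace q`
(prelude sense: `x ↦ x ^ q` on the whole residue field). -/
def IsFrobQ (φ : GQq q) : Prop :=
  (padicPlace q).IsFrobeniusAt (localGaloisToGlobal q φ) q

variable {k : Type} [CommRing k] (M : Rep.{0} k (GQq q))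

/-- `M` is smooth: trivial on some level of the local tower. -/
def IsSmoothQ : Prop := ∃ V ∈ (towerLoc q).lev, ∀ s ∈ V, M.ρ s = 1

/-- `M` is unramified: trivial on inertia. -/
def IsUnramQ : Prop := ∀ τ ∈ inertiaQ q, M.ρ τ = 1

/-- the level cocycles which vanish on inertia -/
def unrCocycles : Submodule k (cocycles₁ M) where
  carrier := {c | IsLevel₁ (towerLoc q) (c : GQq q → M) ∧ ∀ τ ∈ inertiaQ q, (c : GQq q → M) τ = 0}
  add_mem' := by
    rintro c c' ⟨h1, h2⟩ ⟨h1', h2'⟩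
    refine ⟨h1.add h1', fun τ hτ => ?_⟩
    show (c : GQq q → M) τ + (c' : GQq q → M) τ = 0
    rw [h2 τ hτ, h2' τ hτ, add_zero]
  zero_mem' := ⟨isLevel₁_const (towerLoc q) (0 : M), fun _ _ => rfl⟩
  smul_mem' := by
    rintro a c ⟨h1, h2⟩
    refine ⟨(h1.comp (a • ·) :), fun τ hτ => ?_⟩
    show a • (c : GQq q → M) τ = 0
    rw [h2 τ hτ, smul_zero]

lemma mem_unrCocycles (c : cocycles₁ M) :
    c ∈ unrCocycles q M ↔
      IsLevel₁ (towerLoc q) (c : GQq q → M) ∧ ∀ τ ∈ inertiaQ q, (c : GQq q → M) τ = 0 :=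
  Iff.rfl

/-- **The unramified classes** `H¹_unr(G_q, M) ⊆ H¹(G_q, M)`: classes of level cocycles vanishing
on inertia (equivalently: level classes whose restriction to inertia is trivial). -/
def unrH1 : Submodule k (H1 M) := (unrCocycles q M).map (H1π M).hom

lemma mem_unrH1 (x : H1 M) :
    x ∈ unrH1 q M ↔ ∃ c : cocycles₁ M, IsLevel₁ (towerLoc q) (c : GQq q → M) ∧
      (∀ τ ∈ inertiaQ q, (c : GQq q → M) τ = 0) ∧ (H1π M).hom c = x := by
  simp only [unrH1, Submodule.mem_map, mem_unrCocycles, and_assoc]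

end Defs

/-- The image of `H¹_lev(N) → H¹(A)` for a morphism `i : N ⟶ A` (used for the ordinary local
condition: `N = Hom(V̄/L̄, L̄) ⊆ ad⁰`). -/
def imH1 {k : Type} [CommRing k] {G : Type} [Group G] (𝒯 : Tower G) {N A : Rep.{0} k G}
    (i : N ⟶ A) : Submodule k (H1 A) :=
  (levH1 𝒯 N).map (groupCohomology.map (MonoidHom.id G) i 1).hom

/-- The centraliser of `g` in the trace-zero endomorphisms. -/
def adZeroFix {k : Type} [Field k] {V : Type} [AddCommGroup V] [Module k V]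
    (g : Module.End k V) : Submodule k (Module.End k V) where
  carrier := {X | g * X = X * g ∧ LinearMap.trace k V X = 0}
  add_mem' := by
    rintro X Y ⟨h1, h2⟩ ⟨h1', h2'⟩
    exact ⟨by rw [mul_add, add_mul, h1, h1'], by rw [map_add, h2, h2', add_zero]⟩
  zero_mem' := ⟨by rw [mul_zero, zero_mul], map_zero _⟩
  smul_mem' := by
    rintro a X ⟨h1, h2⟩
    exact ⟨by rw [mul_smul_comm, smul_mul_assoc, h1], by rw [map_smul, h2, smul_zero]⟩

/-! ### Structure of `G_{ℚ_q}` -/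

/-- **L-dec**: `localGaloisToGlobal q` maps ONTO the decomposition group of `padicPlace q`.
(`σ ∈ D_P` ⇒ `1 ⊗ σ` stabilises the kernel `𝔭` of `ℚ_q ⊗ ℚ̄ → ℚ̄_q` — at every finite level by
`PT.G1.mcPhi_injective` + `PT.G3.sdTrans_mcPhi_comap`, or by `PT.B.stmtDecomp` + a compactness
argument as in `Common/FrobProfinite.lean` — and `ℚ̄_q = ℚ_q · ι(ℚ̄)` (`PT.B.stmtKrasner`).) -/
def StmtDecFull : Prop :=
  ∀ (q : ℕ) [Fact q.Prime], ∀ σ ∈ (padicPlace q).decompositionSubgroup ℚ,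
    ∃ τ : GQq q, localGaloisToGlobal q τ = σ

/-- **L-frobex**: `G_{ℚ_q}` contains a Frobenius element.
(`Common.exists_isFrobeniusAt_of_liesOverPrime` + L-dec.) -/
def StmtFrobExists : Prop :=
  ∀ (q : ℕ) [Fact q.Prime], ∃ φ : GQq q, IsFrobQ q φ

/-- **L-gen**: modulo every level, `G_{ℚ_q}` is generated by a Frobenius element and inertia.
(The image of `τ` in the automorphisms of the finite residue field of `F` is a power of
`x ↦ x ^ q`; `Common.exists_mem_inertiaSubgroupIn_of_congr` (global inertia lifting) + L-dec.) -/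
def StmtFrobGen : Prop :=
  ∀ (q : ℕ) [Fact q.Prime] (φ : GQq q), IsFrobQ q φ → ∀ V ∈ (towerLoc q).lev, ∀ τ : GQq q,
    ∃ (j : ℕ) (i v : GQq q), i ∈ inertiaQ q ∧ v ∈ V ∧ τ = φ ^ j * i * v

/-- **L-tame** (tame inertia, `q ≠ p`): modulo every level, every homomorphism from inertia to an
abelian group killed by `p` factors through a cyclic quotient generated by one element `t`, on
which Frobenius acts by `t ↦ t ^ q`.
(`E` = the finite Galois extension of `ℚ_q` cut out by `V`, `π` a uniformiser, tame character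
`θ(i) = i(π)/π mod 𝔪_E : I_E → k_Eˣ` (cyclic), `θ(φ i φ⁻¹) = θ(i)^q`; `ker θ = G_1` consists of
elements of `q`-power order: `σ ∈ G_j ⇒ σ^q ∈ G_{j+1}` (`j ≥ 1`), `G_j = 1` for `j ≫ 0`.) -/
def StmtTame : Prop :=
  ∀ (q p : ℕ) [Fact q.Prime] [Fact p.Prime], q ≠ p → ∀ V ∈ (towerLoc q).lev,
    ∃ t : ↥(inertiaQ q), ∀ (A : Type) [CommGroup A] (h : ↥(inertiaQ q) →* A),
      (∀ a : A, a ^ p = 1) → (∀ x : ↥(inertiaQ q), (x : GQq q) ∈ V → h x = 1) →
      (∀ x : ↥(inertiaQ q), ∃ n : ℕ, h x = h t ^ n) ∧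
      ∀ φ : GQq q, IsFrobQ q φ → ∀ hmem : φ * (t : GQq q) * φ⁻¹ ∈ inertiaQ q,
        h ⟨φ * (t : GQq q) * φ⁻¹, hmem⟩ = h t ^ q

/-! ### Cohomological bounds -/

/-- **L-ev** (Frobenius detects unramified classes): an unramified cocycle whose value at a
Frobenius element lies in `(φ - 1) M^I` is a coboundary.  (L-gen.) -/
def StmtUnrFrob : Prop :=
  ∀ (q : ℕ) [Fact q.Prime] (k : Type) [CommRing k] (M : Rep.{0} k (GQq q)), IsSmoothQ q M →
    ∀ φ : GQq q, IsFrobQ q φ → ∀ c ∈ unrCocycles q M,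
      (∃ m : M, (∀ τ ∈ inertiaQ q, M.ρ τ m = m) ∧ (c : GQq q → M) φ = M.ρ φ m - m) →
      (H1π M).hom c = 0

/-- **L-min**: `dim H¹_unr(G_q, M) ≤ h⁰(G_q, M)` for every finite smooth `M` (any `q`, also
`q = p`).  (finite-dimensional, and `c ↦ c(φ)` embeds `H¹_unr` into `M^I / (φ - 1) M^I` (L-ev, L-frobex), which has the
dimension of `ker (φ - 1 | M^I) = M^{G_q}` (L-gen).) -/
def StmtUnrLe : Prop :=
  ∀ (q p : ℕ) [Fact q.Prime] [Fact p.Prime] (M : Rep.{0} (ZMod p) (GQq q))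
    [FiniteDimensional (ZMod p) M], IsSmoothQ q M →
    Module.Finite (ZMod p) (unrH1 q M) ∧
      Module.finrank (ZMod p) (unrH1 q M) ≤ Module.finrank (ZMod p) M.ρ.invariants

/-- **L-tw**: for `q ≡ 1 mod p` and `M` finite, smooth and UNRAMIFIED:
`dim H¹_lev(G_q, M) ≤ 2 h⁰(G_q, M)`.
(`H¹_lev / H¹_unr ↪ {h : I → M equivariant homomorphisms}`, `h ↦ h(t) ∈ ker (φ - q) = M^{G_q}`
by L-tame; L-min.) -/
def StmtLTw : Prop :=
  ∀ (q p : ℕ) [Fact q.Prime] [Fact p.Prime], (q : ZMod p) = 1 →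
    ∀ (M : Rep.{0} (ZMod p) (GQq q)) [FiniteDimensional (ZMod p) M], IsSmoothQ q M →
      IsUnramQ q M →
      Module.Finite (ZMod p) (levH1 (towerLoc q) M) ∧
        Module.finrank (ZMod p) (levH1 (towerLoc q) M) ≤
          2 * Module.finrank (ZMod p) M.ρ.invariants

/-- **L-cnt**: `[ℚ_pˣ : (ℚ_pˣ)^p] ≤ p²` for `p` odd.
(`x = p^a u`; `u ≡ 1 mod p²` is a `p`-th power (PT-L `PowCard*.lean` has the binomial/Hensel step);
the `p`-th powers have index `p` in `(ℤ/p²)ˣ`.) -/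
def StmtPowCardQp : Prop :=
  ∀ (p : ℕ) [Fact p.Prime], p ≠ 2 →
    Finite (ℚ_[p]ˣ ⧸ (powMonoidHom p : ℚ_[p]ˣ →* ℚ_[p]ˣ).range) ∧
      Nat.card (ℚ_[p]ˣ ⧸ (powMonoidHom p : ℚ_[p]ˣ →* ℚ_[p]ˣ).range) ≤ p ^ 2

/-- **L-kum** (Kummer theory for `G_{ℚ_p}`): if `G_{ℚ_p}` acts on the finite module `M` through the
mod `p` cyclotomic character then `dim H¹_lev(G_p, M) ≤ 2 dim M`.
(Coordinates reduce to `M = μ_p`; `ℚ_pˣ/p ↠ H¹_lev(G_p, μ_p)` by Hilbert 90 (`PT.B.stmtH90Loc` or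
Mathlib's Hilbert 90 at finite levels) and `p`-divisibility of `ℚ̄_pˣ`; L-cnt.) -/
def StmtLKum : Prop :=
  ∀ (p : ℕ) [Fact p.Prime], p ≠ 2 →
    ∀ (M : Rep.{0} (ZMod p) (GQq p)) [FiniteDimensional (ZMod p) M],
      (∀ (τ : GQq p) (m : M),
        M.ρ τ m = ((cycloChar p (localGaloisToGlobal p τ) : (ZMod p)ˣ) : ZMod p) • m) →
      Module.Finite (ZMod p) (levH1 (towerLoc p) M) ∧
        Module.finrank (ZMod p) (levH1 (towerLoc p) M) ≤ 2 * Module.finrank (ZMod p) M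

/-- **L-les** (abstract; low-degree long exact sequence): for `0 → N → A → B → 0`,
`dim im(H¹_lev(N) → H¹(A)) + h⁰(B) + h⁰(N) ≤ dim H¹_lev(N) + h⁰(A)`.
(`0 → N^G → A^G → B^G → H¹(N) → H¹(A)`; the connecting cocycle `g ↦ g ã - ã` is a level cocycle
because `A` is smooth.) -/
def StmtImLe : Prop :=
  ∀ (k : Type) [Field k] (G : Type) [Group G] (𝒯 : Tower G) (N A B : Rep.{0} k G)
    [FiniteDimensional k A] (i : N ⟶ A) (π : A ⟶ B), Function.Injective i.hom →
    Function.Surjective π.hom → (∀ a : A, π.hom a = 0 ↔ ∃ n : N, i.hom n = a) →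
    (∃ U ∈ 𝒯.lev, ∀ s ∈ U, A.ρ s = 1) → Module.Finite k (levH1 𝒯 N) →
    Module.finrank k (imH1 𝒯 i) + Module.finrank k B.ρ.invariants +
        Module.finrank k N.ρ.invariants ≤
      Module.finrank k (levH1 𝒯 N) + Module.finrank k A.ρ.invariants

/-- **L-ord**: the ordinary local condition has dimension `≤ dim N + h⁰(G_p, A)`:
`N ⊆ A` with `G_p` acting on `N` through the cyclotomic character and `h⁰(A/N) ≥ dim N`
(for `A = ad⁰`, `N = Hom(V̄/L̄, L̄)`: `A/N ⊇ B⁰/N ≅ k` with trivial action).  (L-les + L-kum.) -/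
def StmtLOrd : Prop :=
  ∀ (p : ℕ) [Fact p.Prime], p ≠ 2 → ∀ (N A B : Rep.{0} (ZMod p) (GQq p))
    [FiniteDimensional (ZMod p) A] (i : N ⟶ A) (π : A ⟶ B), Function.Injective i.hom →
    Function.Surjective π.hom → (∀ a : A, π.hom a = 0 ↔ ∃ n : N, i.hom n = a) →
    IsSmoothQ p A →
    (∀ (τ : GQq p) (m : N),
      N.ρ τ m = ((cycloChar p (localGaloisToGlobal p τ) : (ZMod p)ˣ) : ZMod p) • m) →
    Module.finrank (ZMod p) N ≤ Module.finrank (ZMod p) B.ρ.invariants →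
    Module.finrank (ZMod p) (imH1 (towerLoc p) i) ≤
      Module.finrank (ZMod p) N + Module.finrank (ZMod p) A.ρ.invariants

/-! ### Linear algebra of `ad⁰` (matrix form, independent of the packaging of `ad⁰`) -/

/-- **L-sl2**: the centraliser in the trace-zero endomorphisms of a `g ∈ End(V)`, `dim V = 2`,
with two DISTINCT eigenvalues in `k` is one-dimensional.  (For `h⁰(G_q, ad⁰) = f` at
Taylor–Wiles primes and `h⁰(G_ℝ, ad⁰) = f`.) -/
def StmtCentralizer : Prop :=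
  ∀ (k : Type) [Field k] (V : Type) [AddCommGroup V] [Module k V] [Module.Finite k V],
    Module.finrank k V = 2 → ∀ (g : Module.End k V) (α β : k), α ≠ β → LinearMap.charpoly g = (X - C α) * (X - C β) →
      Module.finrank k (adZeroFix g) = 1

/-- **L-arch**: complex conjugation has characteristic polynomial `(X - 1)(X + 1)` when the
determinant is cyclotomic.  (`c² = 1`, `c ζ = ζ⁻¹ = ζ^(p-1)` on `μ_p`, so `det ρ̄(c) = -1`.) -/
def StmtArch : Prop :=
  ∀ (p : ℕ) [Fact p.Prime], p ≠ 2 → ∀ (k : Type) [Field k] (ρbar : ResidualGaloisRep k),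
    (GaloisRepAdic.ofResidualGaloisRep ρbar).DetIsCyclotomic p →
    LinearMap.charpoly (ρbar.ρ complexConjugation) = (X - C (1 : k)) * (X - C (-1 : k))

/-- **L-glob0**: `h⁰(G_ℚ, ad⁰) = 0`: a trace-zero endomorphism commuting with an absolutely
irreducible `ρ̄` is `0` (`char k ≠ 2`).  (Schur over `k̄`.) -/
def StmtGlobAd : Prop :=
  ∀ (k : Type) [Field k] (ρbar : ResidualGaloisRep k), (2 : k) ≠ 0 →
    ρbar.IsAbsolutelyIrreducible → ∀ X : Module.End k ρbar.V,
      (∀ σ, ρbar.ρ σ * X = X * ρbar.ρ σ) → LinearMap.trace k ρbar.V X = 0 → X = 0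

/-- **L-glob1**: `h⁰(G_ℚ, ad⁰(±1)) = 0`: an endomorphism `X` with
`ρ̄(σ) X = χ̄(σ)^e X ρ̄(σ)` (`e = ±1`, `χ̄` the mod `p` cyclotomic character) vanishes, if `ρ̄` is
absolutely irreducible on `G_ℚ` and on every subgroup of index `2`.
(`X ≠ 0` is invertible; `im χ̄ = 𝔽_pˣ` permutes the `≤ 2` eigenvalues of `X` freely, so `p = 3`
and the two eigenlines are stable under `ker χ̄`, of index `2`.) -/
def StmtGlobAdTwist : Prop :=
  ∀ (p : ℕ) [Fact p.Prime], p ≠ 2 → ∀ (k : Type) [Field k] [Algebra (ZMod p) k]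
    (ρbar : ResidualGaloisRep k), ρbar.IsAbsolutelyIrreducible →
    (∀ (K : Type) [Field K] [Algebra k K]
      (G : Subgroup (AlgebraicClosure ℚ ≃ₐ[ℚ] AlgebraicClosure ℚ)), G.index = 2 →
      ∀ V : Submodule K (ρbar.baseChange K).V,
        (∀ σ ∈ G, ∀ x ∈ V, (ρbar.baseChange K).ρ σ x ∈ V) → V = ⊥ ∨ V = ⊤) →
    ∀ (e : ℤ), e = 1 ∨ e = -1 → ∀ X : Module.End k ρbar.V,
      (∀ σ, ρbar.ρ σ * X =
        algebraMap (ZMod p) k (((cycloChar p σ) ^ e : (ZMod p)ˣ) : ZMod p) • (X * ρbar.ρ σ)) →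
      X = 0

end Fermat.Agent.TW.L

end
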