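/-
TW-L / L-tw (helper15): `dim H¹_lev(G_q, M) ≤ 2 h⁰(G_q, M)` for `q ≡ 1 mod p`, `M` finite, smooth and
unramified.

`stmtLTw_of : StmtTame → StmtUnrLe → StmtFrobGen → StmtFrobExists → StmtLTw`.

For a level `U` let `Z_U` be the cocycles right-invariant under `U`, `t = t_U` the tame generator of
L-tame.  Evaluation `c ↦ c t` kills coboundaries (`t` acts trivially), has values in `M^{G_q}`
(`φ (c t) = c (φ t φ⁻¹) = q • c t = c t`, L-gen) and its kernel consists of unramified cocycles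
(`c|_I` is a homomorphism into a group killed by `p`, trivial on `I ∩ U`).  So the classes of `Z_U`
have dimension `≤ h⁰ + dim H¹_unr ≤ 2 h⁰` (L-min); a level of maximal dimension gives everything.
-/
import Fermat.Agent.TW.L.Plan

set_option autoImplicit false
set_option linter.style.haveILetI false

noncomputable section

namespace Fermat.Agent.TW.L

open CategoryTheory groupCohomology
open Fermat.Agent.PT Fermat.Agent.PT.B

section ltw

variable {q : ℕ} [Fact q.Prime]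

/-- The inertia subgroup is normal in the decomposition subgroup. -/
theorem ltw_conj_mem_inertia {K L : Type*} [Field K] [Field L] [Algebra K L]
    {A : ValuationSubring L} {σ τ : L ≃ₐ[K] L}
    (hσ : σ ∈ A.decompositionSubgroup K) (hτ : τ ∈ A.inertiaSubgroupIn K) :
    σ * τ * σ⁻¹ ∈ A.inertiaSubgroupIn K := by
  obtain ⟨τ', hτ', rfl⟩ := hτ
  have hn : (A.inertiaSubgroup K).Normal := MonoidHom.normal_ker _
  have h1 := hn.conj_mem τ' hτ' ⟨σ, hσ⟩
  rw [ValuationSubring.inertiaSubgroupIn, Subgroup.mem_map]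
  exact ⟨_, h1, by simp⟩

/-- inertia is normalised by everything in `G_{ℚ_q}` -/
theorem ltw_conj_mem_inertiaQ (φ : GQq q) {t : GQq q} (ht : t ∈ inertiaQ q) :
    φ * t * φ⁻¹ ∈ inertiaQ q := by
  rw [mem_inertiaQ] at ht ⊢
  rw [map_mul, map_mul, map_inv]
  exact ltw_conj_mem_inertia (localGaloisToGlobal_mem_decompositionSubgroup q φ) ht

variable {k : Type} [CommRing k] (M : Rep.{0} k (GQq q))

/-- the cocycles which are right-invariant under `U` -/
def ltw_Z (U : Subgroup (GQq q)) : Submodule k (cocycles₁ M) where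
  carrier := {c | ∀ g s : GQq q, s ∈ U → (c : GQq q → M) (g * s) = (c : GQq q → M) g}
  add_mem' := by
    intro c c' h h' g s hs
    show (c : GQq q → M) (g * s) + (c' : GQq q → M) (g * s) = _
    rw [h g s hs, h' g s hs]
    rfl
  zero_mem' := fun _ _ _ => rfl
  smul_mem' := by
    intro a c h g s hs
    show a • (c : GQq q → M) (g * s) = _
    rw [h g s hs]
    rfl

lemma ltw_mem_Z (U : Subgroup (GQq q)) (c : cocycles₁ M) :
    c ∈ ltw_Z M U ↔ ∀ g s : GQq q, s ∈ U → (c : GQq q → M) (g * s) = (c : GQq q → M) g :=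
  Iff.rfl

lemma ltw_Z_mono {U U' : Subgroup (GQq q)} (h : U' ≤ U) : ltw_Z M U ≤ ltw_Z M U' :=
  fun _ hc g s hs => hc g s (h hs)

/-- the classes of level `U` -/
def ltw_H (U : Subgroup (GQq q)) : Submodule k (H1 M) := (ltw_Z M U).map (H1π M).hom

lemma ltw_H_mono {U U' : Subgroup (GQq q)} (h : U' ≤ U) : ltw_H M U ≤ ltw_H M U' :=
  Submodule.map_mono (ltw_Z_mono M h)

lemma ltw_H_le_levH1 {U : Subgroup (GQq q)} (hU : U ∈ (towerLoc q).lev) :
    ltw_H M U ≤ levH1 (towerLoc q) M := by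
  rintro _ ⟨c, hc, rfl⟩
  exact (mem_levH1_iff _ _ _).2 ⟨c, ⟨U, hU, hc⟩, rfl⟩

lemma ltw_levH1_le_iSup (x : H1 M) (hx : x ∈ levH1 (towerLoc q) M) :
    ∃ U ∈ (towerLoc q).lev, x ∈ ltw_H M U := by
  obtain ⟨c, ⟨U, hU, hc⟩, rfl⟩ := (mem_levH1_iff _ _ _).1 hx
  exact ⟨U, hU, c, hc, rfl⟩

/-- value of a cocycle at a conjugate, when the conjugated element acts trivially -/
lemma ltw_cocycle_conj (c : cocycles₁ M) (φ t : GQq q) (ht : M.ρ t = 1) :
    (c : GQq q → M) (φ * t * φ⁻¹) = M.ρ φ ((c : GQq q → M) t) := by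
  have hcoc := (mem_cocycles₁_iff (c : GQq q → M)).1 c.2
  have h1 : (c : GQq q → M) 1 = 0 := cocycles₁_map_one c
  have h2 : M.ρ φ ((c : GQq q → M) φ⁻¹) + (c : GQq q → M) φ = 0 := by
    rw [← hcoc φ φ⁻¹, mul_inv_cancel, h1]
  rw [hcoc (φ * t) φ⁻¹, hcoc φ t, map_mul, ht, mul_one]
  rw [← add_assoc, add_comm (M.ρ φ ((c : GQq q → M) φ⁻¹)), add_assoc, h2, add_zero]

end ltw

section core

variable {q p : ℕ} [Fact q.Prime] [Fact p.Prime] (M : Rep.{0} (ZMod p) (GQq q))

/-- for unramified `M`, a cocycle restricts to a homomorphism on inertia -/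
def ltw_hom (hun : IsUnramQ q M) (c : cocycles₁ M) : ↥(inertiaQ q) →* Multiplicative M.V where
  toFun x := Multiplicative.ofAdd ((c : GQq q → M) (x : GQq q))
  map_one' := by
    show Multiplicative.ofAdd ((c : GQq q → M) 1) = 1
    rw [cocycles₁_map_one c]
    rfl
  map_mul' x y := by
    have hcoc := (mem_cocycles₁_iff (c : GQq q → M)).1 c.2
    show Multiplicative.ofAdd ((c : GQq q → M) ((x : GQq q) * (y : GQq q))) =
      Multiplicative.ofAdd ((c : GQq q → M) (x : GQq q)) *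
        Multiplicative.ofAdd ((c : GQq q → M) (y : GQq q))
    rw [hcoc, hun _ x.2, Module.End.one_apply, ← ofAdd_add, add_comm]

lemma ltw_hom_apply (hun : IsUnramQ q M) (c : cocycles₁ M) (x : ↥(inertiaQ q)) :
    ltw_hom M hun c x = Multiplicative.ofAdd ((c : GQq q → M) (x : GQq q)) := rfl

lemma ltw_nsmul_p (m : M.V) : p • m = 0 := by
  rw [← Nat.cast_smul_eq_nsmul (ZMod p), ZMod.natCast_self, zero_smul]

lemma ltw_nsmul_q (hq1 : (q : ZMod p) = 1) (m : M.V) : q • m = m := by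
  rw [← Nat.cast_smul_eq_nsmul (ZMod p), hq1, one_smul]

/-- the tame generator controls all cocycles of level `U` on inertia -/
lemma ltw_key (htame : StmtTame) (hqp : q ≠ p) (hun : IsUnramQ q M) {U : Subgroup (GQq q)}
    (hU : U ∈ (towerLoc q).lev) :
    ∃ t : ↥(inertiaQ q), ∀ c ∈ ltw_Z M U,
      (∀ x ∈ inertiaQ q, ∃ n : ℕ, (c : GQq q → M) x = n • (c : GQq q → M) (t : GQq q)) ∧
      ∀ φ : GQq q, IsFrobQ q φ →
        (c : GQq q → M) (φ * (t : GQq q) * φ⁻¹) = q • (c : GQq q → M) (t : GQq q) := by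
  obtain ⟨t, ht⟩ := htame q p hqp U hU
  refine ⟨t, fun c hc => ?_⟩
  have hp : ∀ a : Multiplicative M.V, a ^ p = 1 := by
    intro a
    show Multiplicative.ofAdd (p • Multiplicative.toAdd a) = 1
    rw [ltw_nsmul_p]
    rfl
  have htriv : ∀ x : ↥(inertiaQ q), (x : GQq q) ∈ U → ltw_hom M hun c x = 1 := by
    intro x hx
    rw [ltw_hom_apply]
    have h1 := hc 1 (x : GQq q) hx
    rw [one_mul] at h1
    rw [h1, cocycles₁_map_one c]
    rfl
  obtain ⟨h1, h2⟩ := ht (Multiplicative M.V) (ltw_hom M hun c) hp htriv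
  refine ⟨fun x hx => ?_, fun φ hφ => ?_⟩
  · obtain ⟨n, hn⟩ := h1 ⟨x, hx⟩
    refine ⟨n, ?_⟩
    rw [ltw_hom_apply, ltw_hom_apply, ← ofAdd_nsmul] at hn
    exact Multiplicative.ofAdd.injective hn
  · have h3 := h2 φ hφ (ltw_conj_mem_inertiaQ φ t.2)
    rw [ltw_hom_apply, ltw_hom_apply, ← ofAdd_nsmul] at h3
    exact Multiplicative.ofAdd.injective h3

/-- invariants from Frobenius, inertia and a level -/
lemma ltw_mem_invariants (hgen : StmtFrobGen) (hsm : IsSmoothQ q M) (hun : IsUnramQ q M)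
    {φ : GQq q} (hφ : IsFrobQ q φ) {m : M.V} (hm : M.ρ φ m = m) : m ∈ M.ρ.invariants := by
  obtain ⟨V, hV, hρ⟩ := hsm
  intro τ
  obtain ⟨j, i, v, hi, hv, rfl⟩ := hgen q φ hφ V hV τ
  rw [map_mul, map_mul, hρ v hv, hun i hi, mul_one, mul_one, map_pow]
  induction j with
  | zero => rw [pow_zero, Module.End.one_apply]
  | succ j ih => rw [pow_succ, Module.End.mul_apply, hm, ih]

/-- the bound for the classes of a fixed level `U` -/
lemma ltw_bound_level (htame : StmtTame) (hmin : StmtUnrLe) (hgen : StmtFrobGen) (hqp : q ≠ p)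
    (hq1 : (q : ZMod p) = 1) [FiniteDimensional (ZMod p) M] (hsm : IsSmoothQ q M)
    (hun : IsUnramQ q M) {φ : GQq q} (hφ : IsFrobQ q φ) {U : Subgroup (GQq q)}
    (hU : U ∈ (towerLoc q).lev) :
    Module.Finite (ZMod p) (ltw_H M U) ∧
      Module.finrank (ZMod p) (ltw_H M U) ≤ 2 * Module.finrank (ZMod p) M.ρ.invariants := by
  classical
  obtain ⟨t, ht⟩ := ltw_key M htame hqp hun hU
  obtain ⟨hfin, hle⟩ := hmin q p M hsm
  -- the two maps out of `Z_U`
  let P : ↥(ltw_Z M U) →ₗ[ZMod p] H1 M := (H1π M).hom ∘ₗ (ltw_Z M U).subtype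
  have hP : LinearMap.range P = ltw_H M U := by
    show LinearMap.range ((H1π M).hom ∘ₗ (ltw_Z M U).subtype) = _
    rw [LinearMap.range_comp, Submodule.range_subtype]
    rfl
  let E : ↥(ltw_Z M U) →ₗ[ZMod p] M.V :=
    LinearMap.proj (t : GQq q) ∘ₗ (cocycles₁ M).subtype ∘ₗ (ltw_Z M U).subtype
  have hE : ∀ c : ↥(ltw_Z M U), E c = ((c : cocycles₁ M) : GQq q → M) (t : GQq q) :=
    fun _ => rfl
  have hPc : ∀ c : ↥(ltw_Z M U), P c = (H1π M).hom (c : cocycles₁ M) := fun _ => rfl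
  have hker : LinearMap.ker P ≤ LinearMap.ker E := by
    intro c hc
    rw [LinearMap.mem_ker, hPc] at hc
    obtain ⟨m, hm⟩ := (H1π_eq_zero_iff _).1 hc
    rw [LinearMap.mem_ker, hE, ← hm, d₀₁_hom_apply, hun _ t.2, Module.End.one_apply, sub_self]
  -- values of `E` are invariant
  have hEinv : ∀ c : ↥(ltw_Z M U), E c ∈ M.ρ.invariants := by
    intro c
    refine ltw_mem_invariants M hgen hsm hun hφ ?_
    rw [hE, ← ltw_cocycle_conj M (c : cocycles₁ M) φ (t : GQq q) (hun _ t.2),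
      (ht _ c.2).2 φ hφ, ltw_nsmul_q M hq1]
  -- the kernel of `E` consists of unramified cocycles
  have hEunr : ∀ c : ↥(ltw_Z M U), E c = 0 → P c ∈ unrH1 q M := by
    intro c hc
    rw [hE] at hc
    refine (mem_unrH1 q M _).2 ⟨(c : cocycles₁ M), ⟨U, hU, c.2⟩, fun τ hτ => ?_, rfl⟩
    obtain ⟨n, hn⟩ := (ht _ c.2).1 τ hτ
    rw [hn, hc, smul_zero]
  -- pass to the quotient by `ker P`
  let Et : (↥(ltw_Z M U) ⧸ LinearMap.ker P) →ₗ[ZMod p] M.V := (LinearMap.ker P).liftQ E hker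
  let Pt : (↥(ltw_Z M U) ⧸ LinearMap.ker P) →ₗ[ZMod p] H1 M :=
    (LinearMap.ker P).liftQ P le_rfl
  have hPt : Function.Injective Pt :=
    LinearMap.ker_eq_bot.1 (Submodule.ker_liftQ_eq_bot _ _ _ le_rfl)
  have hrange : LinearMap.range Et ≤ M.ρ.invariants := by
    rintro _ ⟨x, rfl⟩
    induction x using Submodule.Quotient.induction_on with
    | H c => exact hEinv c
  have hkerunr : ∀ x ∈ LinearMap.ker Et, Pt x ∈ unrH1 q M := by
    intro x hx
    induction x using Submodule.Quotient.induction_on with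
    | H c => exact hEunr c hx
  let j : ↥(LinearMap.ker Et) →ₗ[ZMod p] ↥(unrH1 q M) :=
    LinearMap.codRestrict (unrH1 q M) (Pt ∘ₗ (LinearMap.ker Et).subtype)
      (fun x => hkerunr x.1 x.2)
  have hj : Function.Injective j := by
    intro x y hxy
    have := congrArg Subtype.val hxy
    exact Subtype.ext (hPt this)
  haveI : Module.Finite (ZMod p) ↥(LinearMap.ker Et) := Module.Finite.of_injective j hj
  have h1 : Module.finrank (ZMod p) ↥(LinearMap.ker Et) ≤
      Module.finrank (ZMod p) M.ρ.invariants :=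
    (LinearMap.finrank_le_finrank_of_injective hj).trans hle
  have h2 : Module.finrank (ZMod p) ↥(LinearMap.range Et) ≤
      Module.finrank (ZMod p) M.ρ.invariants := Submodule.finrank_mono hrange
  haveI : Module.Finite (ZMod p)
      ((↥(ltw_Z M U) ⧸ LinearMap.ker P) ⧸ LinearMap.ker Et) :=
    Module.Finite.equiv (LinearMap.quotKerEquivRange Et).symm
  haveI : Module.Finite (ZMod p) (↥(ltw_Z M U) ⧸ LinearMap.ker P) :=
    Module.Finite.of_submodule_quotient (LinearMap.ker Et)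
  have h3 := LinearMap.finrank_range_add_finrank_ker Et
  have e : (↥(ltw_Z M U) ⧸ LinearMap.ker P) ≃ₗ[ZMod p] ↥(ltw_H M U) :=
    (LinearMap.quotKerEquivRange P).trans (LinearEquiv.ofEq _ _ hP)
  refine ⟨Module.Finite.equiv e, ?_⟩
  rw [← e.finrank_eq]
  omega

end core

/-- **L-tw** from L-tame, L-min, L-gen and L-frobex. -/
theorem stmtLTw_of (htame : StmtTame) (hmin : StmtUnrLe) (hgen : StmtFrobGen)
    (hfrob : StmtFrobExists) : StmtLTw := by
  intro q p _ _ hq1 M _ hsm hun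
  classical
  have hqp : q ≠ p := by
    rintro rfl
    rw [ZMod.natCast_self] at hq1
    exact zero_ne_one hq1
  obtain ⟨φ, hφ⟩ := hfrob q
  have hb : ∀ U ∈ (towerLoc q).lev, Module.Finite (ZMod p) (ltw_H M U) ∧
      Module.finrank (ZMod p) (ltw_H M U) ≤ 2 * Module.finrank (ZMod p) M.ρ.invariants :=
    fun U hU => ltw_bound_level M htame hmin hgen hqp hq1 hsm hun hφ hU
  -- a level of maximal dimension
  let Pr : ℕ → Prop := fun n => ∃ U ∈ (towerLoc q).lev, Module.finrank (ZMod p) (ltw_H M U) = n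
  have hP0 : Pr (Module.finrank (ZMod p) (ltw_H M (⊤ : Subgroup (GQq q)))) :=
    ⟨⊤, (towerLoc q).top_mem, rfl⟩
  obtain ⟨U₀, hU₀, hU₀max⟩ := Nat.findGreatest_spec (P := Pr)
    (hb ⊤ (towerLoc q).top_mem).2 hP0
  have hmax : ∀ U ∈ (towerLoc q).lev,
      Module.finrank (ZMod p) (ltw_H M U) ≤ Module.finrank (ZMod p) (ltw_H M U₀) := by
    intro U hU
    rw [hU₀max]
    exact Nat.le_findGreatest (hb U hU).2 ⟨U, hU, rfl⟩
  have hle : ∀ U ∈ (towerLoc q).lev, ltw_H M U ≤ ltw_H M U₀ := by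
    intro U hU
    have hUU : U ⊓ U₀ ∈ (towerLoc q).lev := (towerLoc q).inf_mem U U₀ hU hU₀
    haveI := (hb (U ⊓ U₀) hUU).1
    have h1 : ltw_H M U₀ ≤ ltw_H M (U ⊓ U₀) := ltw_H_mono M inf_le_right
    have h2 : ltw_H M U₀ = ltw_H M (U ⊓ U₀) :=
      Submodule.eq_of_le_of_finrank_le h1 (hmax _ hUU)
    rw [h2]
    exact ltw_H_mono M inf_le_left
  have heq : levH1 (towerLoc q) M = ltw_H M U₀ := by
    refine le_antisymm ?_ (ltw_H_le_levH1 M hU₀)
    intro x hx
    obtain ⟨U, hU, hxU⟩ := ltw_levH1_le_iSup M x hx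
    exact hle U hU hxU
  rw [heq]
  exact hb U₀ hU₀

end Fermat.Agent.TW.L

end
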