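/-
TW-L, piece L-dec (helper11): `localGaloisToGlobal q` maps ONTO the decomposition group of
`padicPlace q`.  `stmtDecFull : StmtDecFull`.

Proof.  For every finite Galois `F/ℚ` choose `τ_F ∈ G_{ℚ_q}` with `r τ_F = σ` on `F`
(`PT.B.stmtDecomp`).  Two such agree on `F_q = ℚ_q·ι(F)` (`PT.B.stmtLocalLevel`), and every element of
`ℚ̄_q` lies in some `F_q` (`PT.B.stmtKrasner`); so `y ↦ τ_{F_y}(y)` is a well defined `ℚ_q`-algebra
endomorphism of `ℚ̄_q`, bijective because `ℚ̄_q/ℚ_q` is algebraic.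
-/
import Fermat.Agent.TW.L.Plan
import Fermat.Agent.PT.B.Decomp
import Fermat.Agent.PT.B.Krasner
import Fermat.Agent.PT.B.LocalLevel

set_option autoImplicit false
set_option linter.style.haveILetI false
set_option linter.unusedSectionVars false

noncomputable section

namespace Fermat.Agent.TW.L

open Fermat.Agent.PT Fermat.Agent.PT.B IntermediateField

section

variable (q : ℕ) [Fact q.Prime]

/-- finite Galois subfields of `ℚ̄` -/
def ldecFG (F : QbarField) : Prop := FiniteDimensional ℚ F ∧ IsGalois ℚ F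

lemma ldecFG_sup {F F' : QbarField} (hF : ldecFG F) (hF' : ldecFG F') : ldecFG (F ⊔ F') := by
  obtain ⟨h1, h2⟩ := hF
  obtain ⟨h1', h2'⟩ := hF'
  haveI := h1; haveI := h1'; haveI := h2; haveI := h2'
  haveI hn : Normal ℚ ↥F := h2.to_normal
  haveI hn' : Normal ℚ ↥F' := h2'.to_normal
  haveI : Normal ℚ ↥(F ⊔ F') :=
    @IntermediateField.normal_sup ℚ (AlgebraicClosure ℚ) _ _ _ F F' hn hn'
  exact ⟨IntermediateField.finiteDimensional_sup F F', ⟨⟩⟩

lemma ldec_localField_mono {F F' : QbarField} (h : F ≤ F') : localField q F ≤ localField q F' :=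
  IntermediateField.adjoin.mono _ _ _ (Set.image_mono h)

lemma ldec_exists_field (y : PadicAlgCl q) : ∃ F : QbarField, ldecFG F ∧ y ∈ localField q F := by
  haveI : FiniteDimensional ℚ_[q] ℚ_[q]⟮y⟯ :=
    IntermediateField.adjoin.finiteDimensional
      ((PadicAlgCl.isAlgebraic q).isAlgebraic y).isIntegral
  obtain ⟨F, h1, h2, h3⟩ := stmtKrasner q ℚ_[q]⟮y⟯ inferInstance
  exact ⟨F, ⟨h1, h2⟩, h3 (IntermediateField.mem_adjoin_simple_self ℚ_[q] y)⟩

variable {q} {σ : GQ} (hσ : σ ∈ (padicPlace q).decompositionSubgroup ℚ)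

/-- the chosen local lift of `σ` on `F` -/
def ldecLift (F : QbarField) (hF : ldecFG F) : GQq q :=
  Classical.choose (stmtDecomp q F hF.1 hF.2 σ hσ)

lemma ldecLift_spec (F : QbarField) (hF : ldecFG F) (x : AlgebraicClosure ℚ) (hx : x ∈ F) :
    localGaloisToGlobal q (ldecLift hσ F hF) x = σ x :=
  Classical.choose_spec (stmtDecomp q F hF.1 hF.2 σ hσ) x hx

/-- two lifts which agree with `σ` on `F` agree on `F_q` -/
lemma ldec_agree (F : QbarField) (τ τ' : GQq q)
    (h : ∀ x ∈ F, localGaloisToGlobal q τ x = σ x)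
    (h' : ∀ x ∈ F, localGaloisToGlobal q τ' x = σ x)
    (y : PadicAlgCl q) (hy : y ∈ localField q F) : τ y = τ' y := by
  have hg : localGaloisToGlobal q (τ⁻¹ * τ') ∈ F.fixingSubgroup := by
    rw [IntermediateField.mem_fixingSubgroup_iff]
    intro x hx
    rw [map_mul, map_inv]
    show (localGaloisToGlobal q τ)⁻¹ (localGaloisToGlobal q τ' x) = x
    rw [h' x hx, ← h x hx]
    exact AlgEquiv.symm_apply_apply _ _
  have h2 := (stmtLocalLevel q F (τ⁻¹ * τ')).1 hg
  have h3 : (τ⁻¹ * τ') y = y := (IntermediateField.mem_fixingSubgroup_iff _ _).1 h2 y hy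
  have h4 : τ ((τ⁻¹ * τ') y) = τ y := congrArg τ h3
  have h5 : τ ((τ⁻¹ * τ') y) = τ' y := AlgEquiv.apply_symm_apply τ (τ' y)
  rw [← h4, h5]

/-- the underlying function of the lift -/
def ldecFun (y : PadicAlgCl q) : PadicAlgCl q :=
  ldecLift hσ (Classical.choose (ldec_exists_field q y))
    (Classical.choose_spec (ldec_exists_field q y)).1 y

lemma ldecFun_eq (F : QbarField) (hF : ldecFG F) (y : PadicAlgCl q) (hy : y ∈ localField q F) :
    ldecFun hσ y = ldecLift hσ F hF y := by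
  set F₀ := Classical.choose (ldec_exists_field q y) with hF₀
  have hF₀s := Classical.choose_spec (ldec_exists_field q y)
  have hsup : ldecFG (F₀ ⊔ F) := ldecFG_sup hF₀s.1 hF
  have e1 : ldecLift hσ F₀ hF₀s.1 y = ldecLift hσ (F₀ ⊔ F) hsup y :=
    ldec_agree F₀ _ _ (ldecLift_spec hσ F₀ hF₀s.1)
      (fun x hx => ldecLift_spec hσ (F₀ ⊔ F) hsup x ((le_sup_left : F₀ ≤ F₀ ⊔ F) hx)) y hF₀s.2
  have e2 : ldecLift hσ F hF y = ldecLift hσ (F₀ ⊔ F) hsup y :=
    ldec_agree F _ _ (ldecLift_spec hσ F hF)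
      (fun x hx => ldecLift_spec hσ (F₀ ⊔ F) hsup x ((le_sup_right : F ≤ F₀ ⊔ F) hx)) y hy
  show ldecLift hσ F₀ hF₀s.1 y = _
  rw [e1, e2]

lemma ldec_exists_field₂ (y y' : PadicAlgCl q) :
    ∃ F : QbarField, ldecFG F ∧ y ∈ localField q F ∧ y' ∈ localField q F := by
  obtain ⟨F, hF, hy⟩ := ldec_exists_field q y
  obtain ⟨F', hF', hy'⟩ := ldec_exists_field q y'
  exact ⟨F ⊔ F', ldecFG_sup hF hF', ldec_localField_mono q le_sup_left hy,
    ldec_localField_mono q le_sup_right hy'⟩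

/-- the lift as an algebra endomorphism -/
def ldecHom : PadicAlgCl q →ₐ[ℚ_[q]] PadicAlgCl q where
  toFun := ldecFun hσ
  map_one' := by
    obtain ⟨F, hF, -⟩ := ldec_exists_field q (1 : PadicAlgCl q)
    rw [ldecFun_eq hσ F hF 1 (one_mem _), map_one]
  map_mul' y y' := by
    obtain ⟨F, hF, hy, hy'⟩ := ldec_exists_field₂ y y'
    rw [ldecFun_eq hσ F hF _ (mul_mem hy hy'), ldecFun_eq hσ F hF _ hy,
      ldecFun_eq hσ F hF _ hy', map_mul]
  map_zero' := by
    obtain ⟨F, hF, -⟩ := ldec_exists_field q (0 : PadicAlgCl q)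
    rw [ldecFun_eq hσ F hF 0 (zero_mem _), map_zero]
  map_add' y y' := by
    obtain ⟨F, hF, hy, hy'⟩ := ldec_exists_field₂ y y'
    rw [ldecFun_eq hσ F hF _ (add_mem hy hy'), ldecFun_eq hσ F hF _ hy,
      ldecFun_eq hσ F hF _ hy', map_add]
  commutes' a := by
    obtain ⟨F, hF, -⟩ := ldec_exists_field q (algebraMap ℚ_[q] (PadicAlgCl q) a)
    rw [ldecFun_eq hσ F hF _ (_root_.algebraMap_mem _ a), AlgEquiv.commutes]

lemma ldecHom_apply (y : PadicAlgCl q) : ldecHom hσ y = ldecFun hσ y := rfl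

end

/-- **L-dec**. -/
theorem stmtDecFull : StmtDecFull := by
  intro q _ σ hσ
  haveI : Algebra.IsAlgebraic ℚ_[q] (PadicAlgCl q) := PadicAlgCl.isAlgebraic q
  have hbij : Function.Bijective (ldecHom hσ) := Algebra.IsAlgebraic.algHom_bijective _
  refine ⟨AlgEquiv.ofBijective (ldecHom hσ) hbij, ?_⟩
  apply AlgEquiv.ext
  intro x
  apply (padicEmbedding q).toRingHom.injective
  show padicEmbedding q (localGaloisToGlobal q _ x) = padicEmbedding q (σ x)
  rw [padicEmbedding_localGaloisToGlobal]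
  show ldecFun hσ (padicEmbedding q x) = _
  -- a finite Galois field containing `x`
  obtain ⟨F, hF, -⟩ := ldec_exists_field q (padicEmbedding q x)
  let Fx : QbarField := IntermediateField.normalClosure ℚ ℚ⟮x⟯ (AlgebraicClosure ℚ)
  haveI : IsAlgClosure ℚ (AlgebraicClosure ℚ) := ⟨inferInstance, AlgebraicClosure.isAlgebraic ℚ⟩
  haveI : Normal ℚ (AlgebraicClosure ℚ) := IsAlgClosure.normal ℚ (AlgebraicClosure ℚ)
  haveI : FiniteDimensional ℚ ℚ⟮x⟯ :=
    IntermediateField.adjoin.finiteDimensional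
      ((AlgebraicClosure.isAlgebraic ℚ).isAlgebraic x).isIntegral
  haveI hn : Normal ℚ Fx := normalClosure.normal ℚ ℚ⟮x⟯ (AlgebraicClosure ℚ)
  haveI hfd : FiniteDimensional ℚ Fx := normalClosure.is_finiteDimensional ℚ ℚ⟮x⟯ (AlgebraicClosure ℚ)
  have hFx : ldecFG Fx := ⟨hfd, ⟨⟩⟩
  have hx : x ∈ Fx :=
    (IntermediateField.le_normalClosure ℚ⟮x⟯) (IntermediateField.mem_adjoin_simple_self ℚ x)
  rw [ldecFun_eq hσ Fx hFx _ (loc_embedding_mem_localField q Fx hx),
    ← padicEmbedding_localGaloisToGlobal, ldecLift_spec hσ Fx hFx x hx]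

end Fermat.Agent.TW.L

end
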