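/-
TW-L / L-frobex (helper32): `G_{ℚ_q}` contains a Frobenius element.

Main result: `stmtFrobExists_of : StmtDecFull → StmtFrobExists` (statements in `TW/L/Plan.lean`).

Proof: `padicPlace q` lies over `q` (`lfrobex_liesOverPrime`), so it has a global Frobenius element
`σ` (`Common.exists_isFrobeniusAt_of_liesOverPrime`), which lies in the decomposition group and is
therefore the image of a local element (L-dec).
-/
import Mathlib
import Fermat.Agent.TW.L.Plan
import Fermat.Agent.Common.FrobExists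

set_option autoImplicit false

namespace Fermat.Agent.TW.L

open Fermat.Agent.PT Fermat.Agent.PT.B

/-- The place `padicPlace q` of `ℚ̄` lies over `q`. -/
theorem lfrobex_liesOverPrime (q : ℕ) [hq : Fact q.Prime] : (padicPlace q).LiesOverPrime q := by
  have hq0 : ((q : ℕ) : AlgebraicClosure ℚ) ≠ 0 := by exact_mod_cast hq.out.ne_zero
  have hnorm : ‖padicEmbedding q ((q : ℕ) : AlgebraicClosure ℚ)‖ = (q : ℝ)⁻¹ := by
    rw [map_natCast, ← map_natCast (algebraMap ℚ_[q] (PadicAlgCl q)), PadicAlgCl.norm_extends,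
      Padic.norm_p]
  have hq1 : (1 : ℝ) < q := by exact_mod_cast hq.out.one_lt
  change ((q : ℕ) : AlgebraicClosure ℚ) ∈ (padicPlace q).nonunits
  rw [ValuationSubring.mem_nonunits_iff]
  refine lt_of_not_ge (fun h => ?_)
  have h1 : (padicPlace q).valuation (((q : ℕ) : AlgebraicClosure ℚ))⁻¹ ≤ 1 :=
    ((padicPlace q).valuation.one_le_val_iff hq0).mp h
  rw [ValuationSubring.valuation_le_one_iff, mem_padicPlace_iff, map_inv₀] at h1
  have h2 : ‖(padicEmbedding q ((q : ℕ) : AlgebraicClosure ℚ))⁻¹‖ ≤ 1 := by exact_mod_cast h1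
  rw [norm_inv, hnorm, inv_inv] at h2
  linarith

/-- **L-frobex** from L-dec. -/
theorem stmtFrobExists_of (hdec : StmtDecFull) : StmtFrobExists := by
  intro q hq
  obtain ⟨σ, hσ⟩ := Fermat.Agent.Common.exists_isFrobeniusAt_of_liesOverPrime q hq.out
    (padicPlace q) (lfrobex_liesOverPrime q)
  obtain ⟨τ, hτ⟩ := hdec q σ hσ.mem_decompositionSubgroup
  refine ⟨τ, ?_⟩
  change (padicPlace q).IsFrobeniusAt (localGaloisToGlobal q τ) q
  rw [hτ]
  exact hσ

end Fermat.Agent.TW.L
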