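/-
TW-L (local computations for S56; sub-captain helper11) — INTERFACE 4: the LOCAL EXISTENCE
THEOREM mod `p` for the concrete datum (`LocExist D` of TW/F/Plan.lean, asked by TW-F, helper68).

Pieces (piece table: NOTES/TW-L.md):
* **L-lb**     `Fermat.Agent.PT.L.StmtLb` (PT/L/Plan.lean; = PT-L piece L8, never proved):
               `μ_p ⊂ F` local field ⇒ ∃ finite Galois `E/F` with `N_{E/F}(E) ⊆ F^p`.
               Route: `E` from `PT.L.kummerMax` (abelian of exponent `p`, degree `[Fˣ:Fˣᵖ]`);
               `PT.L.fundClass` ⇒ `IsFundClass` for `Gal(E/F)` (a `p`-group) acting on `Eˣ`;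
               `PT.X.tateExp` ⇒ `Fˣᵖ ⊆ N Eˣ`; `PT.X.tateIdx` ⇒ `[E:F] ≤ [Fˣ : N Eˣ]`;
               `PT.L.stmtPowFinite` ⇒ indices are finite ⇒ `N Eˣ = Fˣᵖ`.
* **L-exist**  `StmtLocExistQ` below, from `StmtLb`: Krasner (`PT.B.stmtKrasner`),
               `PT.B.stmtLocalLevel`, `Algebra.norm_eq_prod_embeddings`, `Algebra.norm_norm`.
* **L-exwire** `LocExist D` for every concrete datum `D` (definitional unfolding).
-/
import Fermat.Agent.TW.F.Plan
import Fermat.Agent.PT.B.Plan3
import Fermat.Agent.PT.L.Plan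

set_option autoImplicit false

noncomputable section

namespace Fermat.Agent.TW.L

open Fermat.Agent.PT Fermat.Agent.PT.B Fermat.Agent.TW.F

/-- **L-exist**: the local existence theorem mod `p` in tower form: every level of the local
tower contains normal levels `U' ≤ U₁` such that the norm `N_{U₁/U'}` of every `U'`-invariant
element of `ℚ̄_qˣ` is a `p`-th power of a `U₁`-invariant element. -/
def StmtLocExistQ : Prop :=
  ∀ (p : ℕ) [Fact p.Prime] (q : ℕ) [Fact q.Prime], HasExist p (towerLoc q) (JlocQ q)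

end Fermat.Agent.TW.L

end
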