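/-
TW-L, piece **L-exist** (helper11; asked by TW-F): the LOCAL EXISTENCE THEOREM mod `p` in tower
form, `stmtLocExistQ_of : PT.L.StmtLb → StmtLocExistQ`, and its wiring
`locExist_concreteDatum_of : PT.L.StmtLb → LocExist (concreteDatum …)`.

Proof.  `U = G_K`, `K = ℚ_q·ι(F)`.  Krasner gives `F₁/ℚ` finite Galois with
`K₁ := ℚ_q·ι(F₁) ⊇ K(ζ_p)`; (Lb) gives a finite `E/K₁` (a type) all of whose norms are `p`-th
powers; embed `E` into `ℚ̄_q` over `K₁`; Krasner again gives `F'/ℚ` finite Galois with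
`K' := ℚ_q·ι(F') ⊇ E`.  For `x ∈ K'`: the product of `t x` over the cosets `t ∈ G_{K₁}/G_{K'}` is
`N_{K'/K₁}(x)` (`lex_prod_eq_norm`: cosets ↔ `K₁`-embeddings `K' → ℚ̄_q`, injective + equal
cardinalities; `Algebra.norm_eq_prod_embeddings`), and `N_{K'/K₁} = N_{E/K₁} ∘ N_{K'/E}`
(`Algebra.norm_norm`) is a `p`-th power.
-/
import Fermat.Agent.TW.L.Plan4
import Fermat.Agent.PT.B.LocalLevel
import Fermat.Agent.PT.B.Krasner
import Fermat.Agent.PT.B.Instance

set_option autoImplicit false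
set_option linter.style.haveILetI false
set_option linter.unusedSectionVars false

noncomputable section

namespace Fermat.Agent.TW.L

open Module Fermat.Agent.PT Fermat.Agent.PT.B Fermat.Agent.TW.F ExtCitation
open scoped IntermediateField

section Generic

variable {k Ω : Type} [Field k] [Field Ω] [Algebra k Ω] [IsGalois k Ω] [IsAlgClosed Ω]

/-- restriction of `σ ∈ G_{K₁}` to `K'`, as a `K₁`-embedding of `K'` into `Ω` -/
def lexRes {K₁ K' : IntermediateField k Ω} (h : K₁ ≤ K') (σ : Ω ≃ₐ[k] Ω)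
    (hσ : σ ∈ K₁.fixingSubgroup) : ↥(IntermediateField.extendScalars h) →ₐ[↥K₁] Ω where
  toFun x := σ (x : Ω)
  map_one' := by simp
  map_mul' x y := by simp
  map_zero' := by simp
  map_add' x y := by simp
  commutes' a := by
    show σ ((algebraMap ↥K₁ ↥(IntermediateField.extendScalars h) a : Ω)) = (a : Ω)
    exact (IntermediateField.mem_fixingSubgroup_iff K₁ σ).1 hσ a a.2

@[simp] theorem lexRes_apply {K₁ K' : IntermediateField k Ω} (h : K₁ ≤ K') (σ : Ω ≃ₐ[k] Ω)
    (hσ : σ ∈ K₁.fixingSubgroup) (x : ↥(IntermediateField.extendScalars h)) :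
    lexRes h σ hσ x = σ (x : Ω) := rfl

/-- the map from cosets to embeddings -/
def lexEmb {K₁ K' : IntermediateField k Ω} (h : K₁ ≤ K')
    (t : ↥K₁.fixingSubgroup ⧸ K'.fixingSubgroup.subgroupOf K₁.fixingSubgroup) :
    ↥(IntermediateField.extendScalars h) →ₐ[↥K₁] Ω :=
  lexRes h ((Quotient.out t : ↥K₁.fixingSubgroup) : Ω ≃ₐ[k] Ω)
    (Quotient.out t : ↥K₁.fixingSubgroup).2

theorem lexEmb_injective {K₁ K' : IntermediateField k Ω} (h : K₁ ≤ K') :
    Function.Injective (lexEmb h) := by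
  intro t t' htt
  have h2 : ((Quotient.out t : ↥K₁.fixingSubgroup) : Ω ≃ₐ[k] Ω)⁻¹ *
      ((Quotient.out t' : ↥K₁.fixingSubgroup) : Ω ≃ₐ[k] Ω) ∈ K'.fixingSubgroup := by
    rw [IntermediateField.mem_fixingSubgroup_iff]
    intro x hx
    have h3 := DFunLike.congr_fun htt (⟨x, hx⟩ : ↥(IntermediateField.extendScalars h))
    simp only [lexEmb, lexRes_apply] at h3
    rw [AlgEquiv.mul_apply, ← h3]
    exact AlgEquiv.symm_apply_apply _ x
  rw [← QuotientGroup.out_eq' t, ← QuotientGroup.out_eq' t']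
  exact QuotientGroup.eq.2 (Subgroup.mem_subgroupOf.2 h2)

theorem lex_card {K₁ K' : IntermediateField k Ω} (h : K₁ ≤ K') [FiniteDimensional k K₁]
    [FiniteDimensional k K'] :
    Nat.card (↥K₁.fixingSubgroup ⧸ K'.fixingSubgroup.subgroupOf K₁.fixingSubgroup) =
      finrank ↥K₁ ↥(IntermediateField.extendScalars h) := by
  have h1 := Subgroup.relIndex_mul_index
    (IntermediateField.fixingSubgroup_antitone h :
      K'.fixingSubgroup ≤ K₁.fixingSubgroup)
  rw [← IntermediateField.finrank_eq_fixingSubgroup_index,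
    ← IntermediateField.finrank_eq_fixingSubgroup_index] at h1
  have h2 : finrank k ↥K₁ * finrank ↥K₁ ↥(IntermediateField.extendScalars h) =
      finrank k ↥K' := by
    have := Module.finrank_mul_finrank k ↥K₁ ↥(IntermediateField.extendScalars h)
    rw [this]
    rfl
  have hpos : 0 < finrank k ↥K₁ := Module.finrank_pos
  show (K'.fixingSubgroup.subgroupOf K₁.fixingSubgroup).index = _
  have h3 : K'.fixingSubgroup.relIndex K₁.fixingSubgroup * finrank k ↥K₁ =
      finrank ↥K₁ ↥(IntermediateField.extendScalars h) * finrank k ↥K₁ := by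
    rw [h1, ← h2, mul_comm]
  exact Nat.eq_of_mul_eq_mul_right hpos h3

theorem lexEmb_bijective {K₁ K' : IntermediateField k Ω} (h : K₁ ≤ K') [FiniteDimensional k K₁]
    [FiniteDimensional k K'] : Function.Bijective (lexEmb h) := by
  haveI : Module.Finite k ↥(IntermediateField.extendScalars h) :=
    (inferInstance : Module.Finite k ↥K')
  haveI : FiniteDimensional ↥K₁ ↥(IntermediateField.extendScalars h) :=
    Module.Finite.of_restrictScalars_finite k ↥K₁ ↥(IntermediateField.extendScalars h)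
  haveI : Finite (↥(IntermediateField.extendScalars h) →ₐ[↥K₁] Ω) := inferInstance
  refine Function.Injective.bijective_of_nat_card_le (lexEmb_injective h) ?_
  rw [lex_card h]
  classical
  rw [Nat.card_eq_fintype_card, AlgHom.card]

/-- the product over the cosets `G_{K₁}/G_{K'}` is the norm `N_{K'/K₁}` -/
theorem lex_prod_eq_norm {K₁ K' : IntermediateField k Ω} (h : K₁ ≤ K') [FiniteDimensional k K₁]
    [FiniteDimensional k K'] (x : ↥(IntermediateField.extendScalars h)) :
    ∏ᶠ t : ↥K₁.fixingSubgroup ⧸ K'.fixingSubgroup.subgroupOf K₁.fixingSubgroup,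
        ((Quotient.out t : ↥K₁.fixingSubgroup) : Ω ≃ₐ[k] Ω) (x : Ω) =
      algebraMap ↥K₁ Ω (Algebra.norm ↥K₁ x) := by
  haveI : Module.Finite k ↥(IntermediateField.extendScalars h) :=
    (inferInstance : Module.Finite k ↥K')
  haveI : FiniteDimensional ↥K₁ ↥(IntermediateField.extendScalars h) :=
    Module.Finite.of_restrictScalars_finite k ↥K₁ ↥(IntermediateField.extendScalars h)
  classical
  rw [Algebra.norm_eq_prod_embeddings ↥K₁ Ω x, ← finprod_eq_prod_of_fintype]
  exact finprod_eq_of_bijective (lexEmb h) (lexEmb_bijective h) (fun t => rfl)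

end Generic

section Norm

/-- if `E/K` has all its norms in `K^p` and `E` embeds into `L` over `K`, then all norms from
`L` are `p`-th powers -/
theorem lex_norm_pow {K : Type} [Field K] (E L : Type) [Field E] [Field L] [Algebra K E]
    [Algebra K L] (ψ : E →ₐ[K] L) (p : ℕ)
    (hE : ∀ y : E, ∃ x : K, Algebra.norm K y = x ^ p) (x : L) :
    ∃ x₁ : K, Algebra.norm K x = x₁ ^ p := by
  letI : Algebra E L := ψ.toRingHom.toAlgebra
  haveI : IsScalarTower K E L := IsScalarTower.of_algebraMap_eq' ψ.comp_algebraMap.symm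
  rw [← Algebra.norm_norm (S := E)]
  exact hE _

end Norm

section Core

variable (q : ℕ) [Fact q.Prime]

theorem lex_ρ_apply (s : GQq q) (c : (JlocQ q).V) :
    (JlocQ q).ρ s c = Additive.ofMul (Units.map (s : PadicAlgCl q →* PadicAlgCl q)
      (Additive.toMul c)) := rfl

theorem lex_core (p : ℕ) (hp : p ≠ 0) (K₁ K' : IntermediateField ℚ_[q] (PadicAlgCl q))
    [FiniteDimensional ℚ_[q] K₁] [FiniteDimensional ℚ_[q] K'] (h : K₁ ≤ K')
    (hnorm : ∀ x : ↥(IntermediateField.extendScalars h),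
      ∃ x₁ : ↥K₁, Algebra.norm ↥K₁ x = x₁ ^ p)
    (c : (JlocQ q).V) (hc : ∀ s ∈ K'.fixingSubgroup, (JlocQ q).ρ s c = c) :
    ∃ c' : (JlocQ q).V, (∀ s ∈ K₁.fixingSubgroup, (JlocQ q).ρ s c' = c') ∧
      p • c' = ∑ᶠ t : ↥K₁.fixingSubgroup ⧸ K'.fixingSubgroup.subgroupOf K₁.fixingSubgroup,
        (JlocQ q).ρ ((Quotient.out t : ↥K₁.fixingSubgroup) : GQq q) c := by
  classical
  haveI : Module.Finite ℚ_[q] ↥(IntermediateField.extendScalars h) :=
    (inferInstance : Module.Finite ℚ_[q] ↥K')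
  haveI : FiniteDimensional ↥K₁ ↥(IntermediateField.extendScalars h) :=
    Module.Finite.of_restrictScalars_finite ℚ_[q] ↥K₁ ↥(IntermediateField.extendScalars h)
  set u : (PadicAlgCl q)ˣ := Additive.toMul c with hu
  have hmem : (u : PadicAlgCl q) ∈ K' := by
    rw [← InfiniteGalois.fixedField_fixingSubgroup K', IntermediateField.mem_fixedField_iff]
    intro s hs
    have := congrArg (fun z : (JlocQ q).V => ((Additive.toMul z : (PadicAlgCl q)ˣ) :
      PadicAlgCl q)) (hc s hs)
    exact this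
  obtain ⟨x₁, hx₁⟩ := hnorm ⟨(u : PadicAlgCl q), hmem⟩
  have hprod := lex_prod_eq_norm h (⟨(u : PadicAlgCl q), hmem⟩ :
    ↥(IntermediateField.extendScalars h))
  rw [hx₁, map_pow] at hprod
  haveI : Finite (↥K₁.fixingSubgroup ⧸ K'.fixingSubgroup.subgroupOf K₁.fixingSubgroup) :=
    Nat.finite_of_card_ne_zero (by
      rw [lex_card h]
      exact Module.finrank_pos.ne')
  -- the norm as a unit
  set N : (PadicAlgCl q)ˣ :=
    ∏ᶠ t : ↥K₁.fixingSubgroup ⧸ K'.fixingSubgroup.subgroupOf K₁.fixingSubgroup,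
      Units.map (((Quotient.out t : ↥K₁.fixingSubgroup) : GQq q) :
        PadicAlgCl q →* PadicAlgCl q) u with hN
  have hNval : (N : PadicAlgCl q) = (algebraMap ↥K₁ (PadicAlgCl q) x₁) ^ p := by
    rw [← hprod, hN]
    exact MonoidHom.map_finprod (Units.coeHom (PadicAlgCl q)) (Set.toFinite _)
  have hx₁ne : (algebraMap ↥K₁ (PadicAlgCl q) x₁) ≠ 0 := by
    intro h0
    rw [h0, zero_pow hp] at hNval
    exact N.ne_zero hNval
  refine ⟨Additive.ofMul (Units.mk0 _ hx₁ne), fun s hs => ?_, ?_⟩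
  · refine (lex_ρ_apply q s _).trans ?_
    apply congrArg Additive.ofMul
    apply Units.ext
    show s (algebraMap ↥K₁ (PadicAlgCl q) x₁) = algebraMap ↥K₁ (PadicAlgCl q) x₁
    exact (IntermediateField.mem_fixingSubgroup_iff K₁ s).1 hs _ x₁.2
  · have hR : ∑ᶠ t : ↥K₁.fixingSubgroup ⧸ K'.fixingSubgroup.subgroupOf K₁.fixingSubgroup,
        (JlocQ q).ρ ((Quotient.out t : ↥K₁.fixingSubgroup) : GQq q) c = Additive.ofMul N := by
      letI : Fintype (↥K₁.fixingSubgroup ⧸ K'.fixingSubgroup.subgroupOf K₁.fixingSubgroup) :=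
        Fintype.ofFinite _
      rw [hN, finsum_eq_sum_of_fintype, finprod_eq_prod_of_fintype, ofMul_prod]
      rfl
    have key : N = (Units.mk0 _ hx₁ne) ^ p :=
      Units.ext (by rw [hNval, Units.val_pow_eq_pow_val, Units.val_mk0])
    rw [hR, key]
    exact (ofMul_pow p (Units.mk0 _ hx₁ne)).symm

/-- a level of the local tower attached to a Galois number field is normal -/
theorem lex_level (F : QbarField) (hF : FiniteDimensional ℚ F) :
    (localField q F).fixingSubgroup ∈ (towerLoc q).lev := by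
  refine ⟨F, hF, ?_⟩
  ext τ
  rw [Subgroup.mem_comap]
  exact (stmtLocalLevel q F τ).symm

theorem lex_normal (F : QbarField) (hgal : IsGalois ℚ F) :
    (localField q F).fixingSubgroup.Normal := by
  have h1 : (localField q F).fixingSubgroup =
      F.fixingSubgroup.comap (localGaloisToGlobal q) := by
    ext τ
    rw [Subgroup.mem_comap]
    exact (stmtLocalLevel q F τ).symm
  rw [h1]
  haveI : IsAlgClosure ℚ (AlgebraicClosure ℚ) :=
    ⟨inferInstance, AlgebraicClosure.isAlgebraic ℚ⟩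
  haveI : IsGalois ℚ (AlgebraicClosure ℚ) := inferInstance
  haveI : F.fixingSubgroup.Normal := (InfiniteGalois.normal_iff_isGalois F).2 hgal
  exact Subgroup.Normal.comap inferInstance _

end Core

/-- **L-exist**: the local existence theorem mod `p` in tower form, from (Lb). -/
theorem stmtLocExistQ_of (hLb : Fermat.Agent.PT.L.StmtLb) : StmtLocExistQ := by
  intro p _ q _ U hU
  obtain ⟨F, hF, rfl⟩ := hU
  have hp0 : p ≠ 0 := (Fact.out : p.Prime).ne_zero
  have hUK : F.fixingSubgroup.comap (localGaloisToGlobal q) =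
      (localField q F).fixingSubgroup := by
    ext τ
    rw [Subgroup.mem_comap]
    exact stmtLocalLevel q F τ
  -- a primitive `p`-th root of unity
  haveI : NeZero (p : PadicAlgCl q) := ⟨by exact_mod_cast hp0⟩
  obtain ⟨ζ, hζ⟩ : ∃ ζ : PadicAlgCl q, IsPrimitiveRoot ζ p := by
    obtain ⟨ζ, hζ⟩ := IsAlgClosed.exists_root (Polynomial.cyclotomic p (PadicAlgCl q))
      (by
        rw [Polynomial.degree_cyclotomic]
        exact_mod_cast (Nat.totient_pos.2 (Fact.out : p.Prime).pos).ne')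
    exact ⟨ζ, Polynomial.isRoot_cyclotomic_iff.1 hζ⟩
  haveI hfinK : FiniteDimensional ℚ_[q] (localField q F) := stmtLocalFinite q F hF
  have hζint : IsIntegral ℚ_[q] ζ := Algebra.IsIntegral.isIntegral ζ
  haveI : FiniteDimensional ℚ_[q] ↥(ℚ_[q]⟮ζ⟯) := IntermediateField.adjoin.finiteDimensional hζint
  haveI : FiniteDimensional ℚ_[q] ↥(localField q F ⊔ ℚ_[q]⟮ζ⟯) :=
    IntermediateField.finiteDimensional_sup _ _
  obtain ⟨F₁, hF₁, hF₁gal, hle₁⟩ := stmtKrasner q (localField q F ⊔ ℚ_[q]⟮ζ⟯) inferInstance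
  haveI hfinK₁ : FiniteDimensional ℚ_[q] (localField q F₁) := stmtLocalFinite q F₁ hF₁
  have hζK₁ : ζ ∈ localField q F₁ :=
    hle₁ ((le_sup_right : ℚ_[q]⟮ζ⟯ ≤ _) (IntermediateField.mem_adjoin_simple_self ℚ_[q] ζ))
  have hζ' : IsPrimitiveRoot (⟨ζ, hζK₁⟩ : ↥(localField q F₁)) p :=
    IsPrimitiveRoot.of_map_of_injective (f := algebraMap ↥(localField q F₁) (PadicAlgCl q))
      hζ (algebraMap ↥(localField q F₁) (PadicAlgCl q)).injective
  -- the type-level extension
  obtain ⟨E, hEf, hEa, hEfin, -, hEnorm⟩ := hLb q p ↥(localField q F₁) ⟨ζ, hζK₁⟩ hζ'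
  letI := hEf
  letI := hEa
  haveI := hEfin
  haveI : Algebra.IsAlgebraic ↥(localField q F₁) E := Algebra.IsAlgebraic.of_finite _ E
  let φ : E →ₐ[↥(localField q F₁)] PadicAlgCl q := IsAlgClosed.lift
  let E₂ : IntermediateField ↥(localField q F₁) (PadicAlgCl q) := φ.fieldRange
  haveI hE₂fin : Module.Finite ↥(localField q F₁) ↥E₂ :=
    Module.Finite.equiv (AlgEquiv.ofInjectiveField φ).toLinearEquiv
  haveI hE₂fin' : Module.Finite ℚ_[q] ↥E₂ := Module.Finite.trans ↥(localField q F₁) ↥E₂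
  haveI : FiniteDimensional ℚ_[q] ↥(E₂.restrictScalars ℚ_[q]) := hE₂fin'
  obtain ⟨F', hF', hF'gal, hle'⟩ := stmtKrasner q (E₂.restrictScalars ℚ_[q]) inferInstance
  haveI hfinK' : FiniteDimensional ℚ_[q] (localField q F') := stmtLocalFinite q F' hF'
  have hK₁K' : localField q F₁ ≤ localField q F' := fun x hx =>
    hle' (E₂.algebraMap_mem ⟨x, hx⟩)
  have hφmem : ∀ y : E, φ y ∈ IntermediateField.extendScalars hK₁K' := fun y =>
    hle' (AlgHom.mem_fieldRange.2 ⟨y, rfl⟩)
  let ψ : E →ₐ[↥(localField q F₁)] ↥(IntermediateField.extendScalars hK₁K') :=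
    AlgHom.codRestrict φ (IntermediateField.extendScalars hK₁K').toSubalgebra hφmem
  haveI := lex_normal q F₁ hF₁gal
  haveI := lex_normal q F' hF'gal
  refine ⟨(localField q F₁).fixingSubgroup, lex_level q F₁ hF₁,
    (localField q F').fixingSubgroup, lex_level q F' hF', ?_, ?_, inferInstance, inferInstance,
    fun c hc => ?_⟩
  · rw [hUK]
    exact IntermediateField.fixingSubgroup_antitone ((le_sup_left).trans hle₁)
  · exact IntermediateField.fixingSubgroup_antitone hK₁K'
  · exact lex_core q p hp0 (localField q F₁) (localField q F') hK₁K'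
      (fun x => lex_norm_pow E _ ψ p hEnorm x) c hc

/-- **L-exwire**: `LocExist` for the concrete datum. -/
theorem locExist_concreteDatum_of (hLb : Fermat.Agent.PT.L.StmtLb) (p : ℕ) [Fact p.Prime]
    (hp2 : p ≠ 2) (S : Finset Nat.Primes) (hpS : pPrime p ∈ S) (hcg : StmtCmGlob)
    (hcl : StmtCmLoc) (hh : StmtH90Loc) (hex : StmtExistC) (hsv : StmtSurvC) :
    LocExist (concreteDatum p hp2 S hpS hcg hcl hh hex hsv) := fun v =>
  @stmtLocExistQ_of hLb p _ ((v : Nat.Primes) : ℕ) ⟨(v : Nat.Primes).2⟩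

end Fermat.Agent.TW.L
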