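/-
TW-L piece L-glob1 (helper87): `h⁰(G_ℚ, ad⁰(±1)) = 0`.

`stmtGlobAdTwist : StmtGlobAdTwist`: an endomorphism `X` of `ρ̄` with
`ρ̄(σ) X = χ̄(σ)^e X ρ̄(σ)` (`e = ±1`) vanishes, if `ρ̄` is absolutely irreducible on `G_ℚ` and on
every subgroup of index `2`.

Proof.  Over `K = k̄`: `ker X_K` is `G_ℚ`-stable, so `X_K` is injective if `X ≠ 0`; determinants give
`χ̄(σ)^2 = 1` for all `σ`; there is `σ₂` with `χ̄(σ₂) = 2` (irreducibility of the cyclotomic
polynomial), so `4 = 1` in `𝔽_p`, `p = 3`.  For `p = 3` the kernel of `χ̄` has index `2` and `X_K`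
commutes with it; an eigenspace of `X_K` is stable, so `X_K = λ` is scalar, and the relation at
`σ₂` (`χ̄(σ₂) = -1`) gives `2 λ = 0`.
-/
import Fermat.Agent.TW.L.Plan

set_option autoImplicit false
set_option linter.style.haveILetI false

noncomputable section

namespace Fermat.Agent.TW.L

open Polynomial ExtCitation

/-- `ℚ̄ / ℚ` is normal (for the instance of `Algebra ℚ ℚ̄` found by unification). -/
theorem lglob1_qbar_normal : Normal ℚ (AlgebraicClosure ℚ) := by
  have h1 : @Normal ℚ (AlgebraicClosure ℚ) _ _ (AlgebraicClosure.instAlgebra ℚ) := inferInstance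
  convert h1
  exact Subsingleton.elim _ _

/-- There is `σ ∈ G_ℚ` with `χ̄(σ) = 2` (for odd `p`). -/
theorem lglob1_exists_cycloChar_eq_two (p : ℕ) [Fact p.Prime] (hp2 : p ≠ 2) :
    ∃ σ : AlgebraicClosure ℚ ≃ₐ[ℚ] AlgebraicClosure ℚ,
      ((cycloChar p σ : (ZMod p)ˣ) : ZMod p) = 2 := by
  have hp : p.Prime := Fact.out
  haveI : NeZero p := ⟨hp.ne_zero⟩
  haveI : NeZero (p : AlgebraicClosure ℚ) := ⟨Nat.cast_ne_zero.mpr hp.ne_zero⟩
  obtain ⟨ζ, hζ⟩ := HasEnoughRootsOfUnity.exists_primitiveRoot (AlgebraicClosure ℚ) p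
  have h2p : 2 < p := lt_of_le_of_ne hp.two_le (Ne.symm hp2)
  have hcop : Nat.Coprime 2 p := by
    rw [Nat.coprime_comm]
    exact (Nat.coprime_primes hp Nat.prime_two).mpr hp2
  have hζ2 : IsPrimitiveRoot (ζ ^ 2) p := hζ.pow_of_coprime 2 hcop
  have hmin : minpoly ℚ ζ = cyclotomic p ℚ := (cyclotomic_eq_minpoly_rat hζ hp.pos).symm
  have hroot : Polynomial.aeval (ζ ^ 2) (minpoly ℚ ζ) = 0 := by
    rw [hmin]
    have := hζ2.isRoot_cyclotomic hp.pos
    rw [← map_cyclotomic p (algebraMap ℚ (AlgebraicClosure ℚ))] at this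
    simpa [aeval_def, eval₂_eq_eval_map, IsRoot.def] using this
  haveI := lglob1_qbar_normal
  have halg : IsAlgebraic ℚ ζ := (lglob1_qbar_normal.isAlgebraic ζ)
  obtain ⟨σ, hσ⟩ := minpoly.exists_algEquiv_of_root' halg hroot
  refine ⟨σ, ?_⟩
  have hspec := modularCyclotomicCharacter.spec (AlgebraicClosure ℚ) (card_rootsOfUnity_eq_self p)
    (σ : AlgebraicClosure ℚ ≃+* AlgebraicClosure ℚ)
    (t := hζ.toRootsOfUnity) (SetLike.coe_mem hζ.toRootsOfUnity)
  have hspec' : σ ζ = ζ ^ ((cycloChar p σ : (ZMod p)ˣ) : ZMod p).val := by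
    simpa [cycloChar] using hspec
  rw [hσ] at hspec'
  have hv := hζ.pow_inj h2p (ZMod.val_lt _) hspec'
  have e : ((cycloChar p σ : (ZMod p)ˣ) : ZMod p)
      = ((((cycloChar p σ : (ZMod p)ˣ) : ZMod p).val : ℕ) : ZMod p) :=
    (ZMod.natCast_zmod_val _).symm
  rw [e, ← hv]
  simp

/-- Base change of endomorphisms to a field extension is injective. -/
theorem lglob1_eq_zero_of_baseChange {k : Type} [Field k] (K : Type) [Field K] [Algebra k K]
    {V : Type} [AddCommGroup V] [Module k V] (X : Module.End k V)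
    (h : X.baseChange K = 0) : X = 0 := by
  have hinj := LinearMap.baseChangeHom_injective (R := k) (S := K) (M := V) (N := V)
  apply hinj
  rw [map_zero]
  exact h

/-- The abstract core: `K` algebraically closed, `dim V = 2`, `ρ : G → End V` a monoid
homomorphism from a group, `c : G → K` with `ρ σ X = c σ • X ρ σ`; if `ρ` is irreducible and
`X ≠ 0` then `c σ ^ 2 = 1` for all `σ`. -/
theorem lglob1_sq_eq_one {K : Type} [Field K] {V : Type} [AddCommGroup V] [Module K V]
    [Module.Finite K V] (hV : Module.finrank K V = 2) {G : Type} [Group G]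
    (ρ : G →* Module.End K V) (c : G → K) (hc : ∀ σ, c σ ≠ 0) (X : Module.End K V)
    (hrel : ∀ σ, ρ σ * X = c σ • (X * ρ σ))
    (hirr : ∀ W : Submodule K V, (∀ σ, ∀ x ∈ W, ρ σ x ∈ W) → W = ⊥ ∨ W = ⊤)
    (hX : X ≠ 0) (σ : G) : c σ ^ 2 = 1 := by
  -- the kernel of `X` is stable
  have hker : ∀ τ, ∀ x ∈ LinearMap.ker X, ρ τ x ∈ LinearMap.ker X := by
    intro τ x hx
    rw [LinearMap.mem_ker] at hx ⊢
    have h1 := LinearMap.congr_fun (hrel τ) x
    simp only [Module.End.mul_apply, LinearMap.smul_apply] at h1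
    rw [hx, map_zero] at h1
    rcases smul_eq_zero.mp h1.symm with h2 | h2
    · exact absurd h2 (hc τ)
    · exact h2
  have hbot : LinearMap.ker X = ⊥ := by
    rcases hirr _ hker with h | h
    · exact h
    · exact absurd (LinearMap.ker_eq_top.mp h) hX
  have hdetX : LinearMap.det X ≠ 0 := by
    intro h0
    have := LinearMap.bot_lt_ker_of_det_eq_zero h0
    rw [hbot] at this
    exact lt_irrefl _ this
  have hdetρ : LinearMap.det (ρ σ) ≠ 0 := by
    intro h0
    have h1 : ρ σ * ρ σ⁻¹ = 1 := by rw [← map_mul, mul_inv_cancel, map_one]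
    have h2 := congrArg LinearMap.det h1
    rw [map_mul, h0, zero_mul, map_one] at h2
    exact zero_ne_one h2
  have h3 := congrArg LinearMap.det (hrel σ)
  rw [LinearMap.det_smul, map_mul, map_mul, hV] at h3
  have h4 : LinearMap.det (ρ σ) * LinearMap.det X * 1
      = LinearMap.det (ρ σ) * LinearMap.det X * c σ ^ 2 := by
    rw [mul_one]
    calc LinearMap.det (ρ σ) * LinearMap.det X
        = c σ ^ 2 * (LinearMap.det X * LinearMap.det (ρ σ)) := h3
      _ = LinearMap.det (ρ σ) * LinearMap.det X * c σ ^ 2 := by ring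
  exact (mul_left_cancel₀ (mul_ne_zero hdetρ hdetX) h4).symm

/-- The abstract core for the index-two step: `X` commutes with `ρ` on `H`, every `H`-stable
subspace is trivial, and `ρ σ₀ X = - X ρ σ₀` for some `σ₀`; then `X = 0` (`2 ≠ 0`). -/
theorem lglob1_eq_zero_of_commute {K : Type} [Field K] [IsAlgClosed K] {V : Type}
    [AddCommGroup V] [Module K V] [Module.Finite K V] (hV : Module.finrank K V = 2)
    {G : Type} [Group G] (ρ : G →* Module.End K V) (H : Subgroup G) (X : Module.End K V)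
    (hcomm : ∀ σ ∈ H, ρ σ * X = X * ρ σ)
    (hirr : ∀ W : Submodule K V, (∀ σ ∈ H, ∀ x ∈ W, ρ σ x ∈ W) → W = ⊥ ∨ W = ⊤)
    (h2 : (2 : K) ≠ 0) (σ₀ : G) (hanti : ρ σ₀ * X = (-1 : K) • (X * ρ σ₀)) : X = 0 := by
  haveI : Nontrivial V := Module.nontrivial_of_finrank_pos (R := K) (by rw [hV]; norm_num)
  obtain ⟨μ, hμ⟩ := Module.End.exists_eigenvalue X
  have hstab : ∀ σ ∈ H, ∀ x ∈ Module.End.eigenspace X μ, ρ σ x ∈ Module.End.eigenspace X μ := by
    intro σ hσ x hx
    rw [Module.End.mem_eigenspace_iff] at hx ⊢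
    have h1 := LinearMap.congr_fun (hcomm σ hσ) x
    simp only [Module.End.mul_apply] at h1
    rw [← h1, hx, map_smul]
  have htop : Module.End.eigenspace X μ = ⊤ := by
    rcases hirr _ hstab with h | h
    · exact absurd h hμ
    · exact h
  have hXμ : ∀ x, X x = μ • x := fun x =>
    Module.End.mem_eigenspace_iff.mp (htop ▸ Submodule.mem_top)
  obtain ⟨x, hx⟩ := exists_ne (0 : V)
  have hρx : ρ σ₀ x ≠ 0 := by
    intro h0
    have h1 : ρ σ₀⁻¹ * ρ σ₀ = 1 := by rw [← map_mul, inv_mul_cancel, map_one]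
    have h2 := LinearMap.congr_fun h1 x
    simp only [Module.End.mul_apply, Module.End.one_apply] at h2
    rw [h0, map_zero] at h2
    exact hx h2.symm
  have h1 := LinearMap.congr_fun hanti x
  simp only [Module.End.mul_apply, LinearMap.smul_apply] at h1
  rw [hXμ, hXμ, map_smul] at h1
  have h3 : (2 * μ) • ρ σ₀ x = 0 := by
    have : (2 * μ) • ρ σ₀ x = μ • ρ σ₀ x - (-1 : K) • μ • ρ σ₀ x := by
      rw [neg_one_smul, sub_neg_eq_add, two_mul, add_smul]
    rw [this, ← h1, sub_self]
  have hμ0 : μ = 0 := by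
    rcases smul_eq_zero.mp h3 with h | h
    · rcases mul_eq_zero.mp h with h | h
      · exact absurd h h2
      · exact h
    · exact absurd h hρx
  ext y
  rw [hXμ, hμ0, zero_smul, LinearMap.zero_apply]

/-- For `p = 3` the kernel of the mod `p` cyclotomic character has index `2`. -/
theorem lglob1_index_ker (p : ℕ) [Fact p.Prime] (hp3 : p = 3) :
    (cycloChar p).ker.index = 2 := by
  have hp2 : p ≠ 2 := by omega
  obtain ⟨σ₂, hσ₂⟩ := lglob1_exists_cycloChar_eq_two p hp2
  rw [Subgroup.index_ker]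
  have hcard : Nat.card (ZMod p)ˣ = 2 := by
    rw [Nat.card_eq_fintype_card, ZMod.card_units p, hp3]
  have hdvd : Nat.card (cycloChar p).range ∣ 2 := by
    rw [← hcard]
    exact Subgroup.card_subgroup_dvd_card _
  have hne : Nat.card (cycloChar p).range ≠ 1 := by
    intro h1
    have hbot : (cycloChar p).range = ⊥ := Subgroup.card_eq_one.mp h1
    have hmem : cycloChar p σ₂ ∈ (cycloChar p).range := ⟨σ₂, rfl⟩
    rw [hbot, Subgroup.mem_bot] at hmem
    rw [hmem, Units.val_one] at hσ₂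
    -- `1 = 2` in `ZMod p`
    have h3 : ((1 : ℕ) : ZMod p) = 0 := by
      have : (2 : ZMod p) - 1 = 0 := by rw [← hσ₂]; ring
      have h4 : (2 : ZMod p) - 1 = ((1 : ℕ) : ZMod p) := by push_cast; ring
      rw [← h4, this]
    rw [ZMod.natCast_eq_zero_iff] at h3
    have := Nat.le_of_dvd Nat.one_pos h3
    omega
  rcases (Nat.dvd_prime Nat.prime_two).mp hdvd with h | h
  · exact absurd h hne
  · exact h

/-- **L-glob1**. -/
theorem stmtGlobAdTwist : StmtGlobAdTwist := by
  intro p _ hp2 k _ _ ρbar habs hTW e he X hX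
  by_contra hX0
  have hp : p.Prime := Fact.out
  -- the twisting scalars
  have hinj : Function.Injective
      (fun a : ZMod p => algebraMap k (AlgebraicClosure k) (algebraMap (ZMod p) k a)) :=
    (algebraMap k (AlgebraicClosure k)).injective.comp (algebraMap (ZMod p) k).injective
  have hrel : ∀ σ, (ρbar.baseChange (AlgebraicClosure k)).ρ σ * X.baseChange (AlgebraicClosure k)
      = algebraMap k (AlgebraicClosure k)
          (algebraMap (ZMod p) k (((cycloChar p σ) ^ e : (ZMod p)ˣ) : ZMod p)) •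
        (X.baseChange (AlgebraicClosure k) * (ρbar.baseChange (AlgebraicClosure k)).ρ σ) := by
    intro σ
    have h1 := congrArg (LinearMap.baseChange (AlgebraicClosure k)) (hX σ)
    rw [LinearMap.baseChange_mul, LinearMap.baseChange_smul, LinearMap.baseChange_mul] at h1
    rw [algebraMap_smul]
    exact h1
  have hc : ∀ σ, algebraMap k (AlgebraicClosure k)
      (algebraMap (ZMod p) k (((cycloChar p σ) ^ e : (ZMod p)ˣ) : ZMod p)) ≠ 0 := by
    intro σ h0
    have h1 : (((cycloChar p σ) ^ e : (ZMod p)ˣ) : ZMod p) = 0 := by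
      apply hinj
      simpa using h0
    exact (Units.ne_zero _) h1
  have hXK : X.baseChange (AlgebraicClosure k) ≠ 0 :=
    fun h => hX0 (lglob1_eq_zero_of_baseChange (AlgebraicClosure k) X h)
  have hsq := lglob1_sq_eq_one (ρbar.baseChange (AlgebraicClosure k)).finrank_eq
    (ρbar.baseChange (AlgebraicClosure k)).ρ _ hc _ hrel habs hXK
  -- an element with `χ̄ = 2`
  obtain ⟨σ₂, hσ₂⟩ := lglob1_exists_cycloChar_eq_two p hp2
  have hu : ((cycloChar p σ₂) ^ e) ^ 2 = 1 := by
    apply Units.ext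
    apply hinj
    have := hsq σ₂
    simpa using this
  have hu' : (cycloChar p σ₂) ^ 2 = 1 := by
    rcases he with rfl | rfl
    · simpa using hu
    · have h1 : ((cycloChar p σ₂) ^ 2)⁻¹ = 1 := by
        rw [← hu, zpow_neg_one, inv_pow]
      exact inv_eq_one.mp h1
  have h4 : (2 : ZMod p) ^ 2 = 1 := by
    have := congrArg (fun u : (ZMod p)ˣ => (u : ZMod p)) hu'
    simpa [hσ₂] using this
  have h3 : ((3 : ℕ) : ZMod p) = 0 := by
    have : ((3 : ℕ) : ZMod p) = 2 ^ 2 - 1 := by push_cast; ring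
    rw [this, h4, sub_self]
  have hp3 : p = 3 := by
    rw [ZMod.natCast_eq_zero_iff] at h3
    exact (Nat.prime_dvd_prime_iff_eq hp Nat.prime_three).mp h3
  -- the index-two step
  have hidx := lglob1_index_ker p hp3
  have hneg : cycloChar p σ₂ = -1 := by
    apply Units.ext
    rw [hσ₂, Units.val_neg, Units.val_one]
    have : (2 : ZMod p) - (-1) = ((3 : ℕ) : ZMod p) := by push_cast; ring
    rw [h3] at this
    exact sub_eq_zero.mp this
  have hneg' : (cycloChar p σ₂) ^ e = -1 := by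
    rw [hneg]
    rcases he with rfl | rfl
    · simp
    · simp
  have h2K : (2 : AlgebraicClosure k) ≠ 0 := by
    intro h0
    have h1 : (2 : ZMod p) = 0 := by
      apply hinj
      show algebraMap k (AlgebraicClosure k) (algebraMap (ZMod p) k 2)
        = algebraMap k (AlgebraicClosure k) (algebraMap (ZMod p) k 0)
      rw [map_ofNat, map_ofNat, map_zero, map_zero]
      exact h0
    have h5 : ((2 : ℕ) : ZMod p) = 0 := by exact_mod_cast h1
    rw [ZMod.natCast_eq_zero_iff, hp3] at h5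
    omega
  apply hXK
  refine lglob1_eq_zero_of_commute (ρbar.baseChange (AlgebraicClosure k)).finrank_eq
    (ρbar.baseChange (AlgebraicClosure k)).ρ (cycloChar p).ker _ ?_
    (hTW (AlgebraicClosure k) (cycloChar p).ker hidx) h2K σ₂ ?_
  · intro σ hσ
    have h1 := hrel σ
    rw [MonoidHom.mem_ker] at hσ
    rw [hσ] at h1
    simpa using h1
  · have h1 := hrel σ₂
    rw [hneg', Units.val_neg, Units.val_one, map_neg, map_neg, map_one, map_one] at h1
    exact h1

end Fermat.Agent.TW.L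

end
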