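/-
TW-L (S56, local computations) — INTERFACE FILE 2 (helper11): variants requested by the consumers.
-/
import Fermat.Agent.TW.L.Plan

set_option autoImplicit false

namespace Fermat.Agent.TW.L

open Fermat.Agent.PT Fermat.Agent.PT.B

/-- **L-tame, group form** (requested by TW-S, helper54, for `h = ρ_ε|_{I_v} → GL₂(k[ε])`):
modulo every level, every homomorphism from inertia to a (not necessarily commutative) group of
exponent `p ≠ q` has cyclic image, generated by the image of one element `t` (depending only on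
the level).
(Elements of `q`-power order modulo the level die in a group of exponent `p`; the quotient of
inertia by them is cyclic: tame character.) -/
def StmtTameGrp : Prop :=
  ∀ (q p : ℕ) [Fact q.Prime] [Fact p.Prime], q ≠ p → ∀ V ∈ (towerLoc q).lev,
    ∃ t : ↥(inertiaQ q), ∀ (A : Type) [Group A] (h : ↥(inertiaQ q) →* A),
      (∀ a : A, a ^ p = 1) → (∀ x : ↥(inertiaQ q), (x : GQq q) ∈ V → h x = 1) →
      (∀ x : ↥(inertiaQ q), ∃ n : ℕ, h x = h t ^ n) ∧
      ∀ φ : GQq q, IsFrobQ q φ → ∀ hmem : φ * (t : GQq q) * φ⁻¹ ∈ inertiaQ q,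
        h ⟨φ * (t : GQq q) * φ⁻¹, hmem⟩ = h t ^ q

/-- `StmtTame` is the commutative case of `StmtTameGrp`. -/
theorem stmtTame_of_grp (h : StmtTameGrp) : StmtTame := by
  intro q p _ _ hqp V hV
  obtain ⟨t, ht⟩ := h q p hqp V hV
  exact ⟨t, fun A _ f hA hf => ht A f hA hf⟩

end Fermat.Agent.TW.L
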