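/-
TW-L (S56, local computations) — INTERFACE FILE 3 (helper11): the GLUE layer.
The local terms of the Greenberg–Wiles inequality for `A = ad⁰ ρ̄` in the packaging of TW-S
(`TW/S/Ad.lean`, `TW/S/Defs.lean`: `ad0Rep p ρbar`, `locRep q A`, `ordH1 p ρbar Lbar`).

Every `Stmt…` is a `Prop`; piece `X` is DONE when `theorem stmtX_of : deps → StmtX` is landed in its
own file `Fermat/Agent/TW/L/<File>.lean` (deps = statements of TW/L/Plan.lean as hypotheses).
`f = [k : 𝔽_p] = Module.finrank (ZMod p) k`.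
-/
import Fermat.Agent.TW.S.Defs
import Fermat.Agent.TW.L.Plan2

set_option autoImplicit false

noncomputable section

namespace Fermat.Agent.TW.L

open CategoryTheory groupCohomology Polynomial
open Fermat.Agent.PT Fermat.Agent.PT.B Fermat.Agent.TW.S ExtCitation

/-- The Frobenius elements at `q` have two distinct eigenvalues in `k` (as in S56). -/
def FrobDistinct {k : Type} [Field k] (ρbar : ResidualGaloisRep k) (q : ℕ) : Prop :=
  ∀ P : ValuationSubring (AlgebraicClosure ℚ), P.LiesOverPrime q →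
    ∀ φ : AlgebraicClosure ℚ ≃ₐ[ℚ] AlgebraicClosure ℚ, P.IsFrobeniusAt φ q →
      ∃ α β : k, α ≠ β ∧ LinearMap.charpoly (ρbar.ρ φ) = (X - C α) * (X - C β)

/-- `Lbar` is a STRICTLY ordinary line of `ρ̄` at `padicPlace p`: an ordinary line such that the
decomposition group acts on `L̄` by `χ̄` times its character on `V̄/L̄`. -/
def IsStrictOrdLine {k : Type} [Field k] (p : ℕ) [Fact p.Prime] [CharP k p]
    [Algebra (ZMod p) k] (ρbar : ResidualGaloisRep k) (Lbar : Submodule k ρbar.V) : Prop :=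
  IsOrdLine p ρbar Lbar ∧
    ∀ σ ∈ (padicPlace p).decompositionSubgroup ℚ, ∃ x z : k,
      (∀ w ∈ Lbar, ρbar.ρ σ w = x • w) ∧ (∀ v : ρbar.V, ρbar.ρ σ v - z • v ∈ Lbar) ∧
        x = algebraMap (ZMod p) k ((cycloChar p σ : (ZMod p)ˣ) : ZMod p) * z

/-- **G-smooth**: `ad⁰ ρ̄` restricted to `G_{ℚ_q}` is smooth.
(`ρbar.factorsThroughFiniteLevel`.) -/
def StmtAdSmooth : Prop :=
  ∀ (p : ℕ) [Fact p.Prime] (k : Type) [Field k] [CharP k p] (ρbar : ResidualGaloisRep k)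
    (q : ℕ) [Fact q.Prime], IsSmoothQ q (locRep q (ad0Rep p ρbar))

/-- **G-unr**: `ad⁰ ρ̄` is unramified at `q` if `ρ̄` is. -/
def StmtAdUnram : Prop :=
  ∀ (p : ℕ) [Fact p.Prime] (k : Type) [Field k] [CharP k p] (ρbar : ResidualGaloisRep k)
    (q : ℕ) [Fact q.Prime], ρbar.IsUnramifiedAt q → IsUnramQ q (locRep q (ad0Rep p ρbar))

/-- **G-h0**: `h⁰(G_q, ad⁰) ≤ f` if the Frobenius elements at `q` have distinct eigenvalues.
(L-frobex, L-sl2: the invariants lie in `adZeroFix (ρ̄ (r φ))`, a `k`-line.) -/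
def StmtAdInvLe : Prop :=
  ∀ (p : ℕ) [Fact p.Prime] (k : Type) [Field k] [CharP k p] [Algebra (ZMod p) k] [Finite k]
    (ρbar : ResidualGaloisRep k) (q : ℕ) [Fact q.Prime], FrobDistinct ρbar q →
    Module.finrank (ZMod p) (locRep q (ad0Rep p ρbar)).ρ.invariants ≤ Module.finrank (ZMod p) k

/-- **G-tw** (the local term at a Taylor–Wiles prime): `q ≡ 1 mod p`, `ρ̄` unramified at `q`,
Frobenius with distinct eigenvalues ⇒ `dim H¹_lev(G_q, ad⁰) ≤ h⁰(G_q, ad⁰) + f`.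
(L-tw + G-smooth + G-unr + G-h0.) -/
def StmtAdTw : Prop :=
  ∀ (p : ℕ) [Fact p.Prime] (k : Type) [Field k] [CharP k p] [Algebra (ZMod p) k] [Finite k]
    (ρbar : ResidualGaloisRep k) (q : ℕ) [Fact q.Prime], (q : ZMod p) = 1 →
    ρbar.IsUnramifiedAt q → FrobDistinct ρbar q →
    Module.Finite (ZMod p) (levH1 (towerLoc q) (locRep q (ad0Rep p ρbar))) ∧
      Module.finrank (ZMod p) (levH1 (towerLoc q) (locRep q (ad0Rep p ρbar))) ≤
        Module.finrank (ZMod p) (locRep q (ad0Rep p ρbar)).ρ.invariants +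
          Module.finrank (ZMod p) k

/-- **G-min** (the local term at `v ∈ Smin ∖ p`): `dim H¹_unr(G_v, ad⁰) ≤ h⁰(G_v, ad⁰)`.
(L-min + G-smooth.) -/
def StmtAdMin : Prop :=
  ∀ (p : ℕ) [Fact p.Prime] (k : Type) [Field k] [CharP k p] [Finite k]
    (ρbar : ResidualGaloisRep k) (q : ℕ) [Fact q.Prime],
    Module.Finite (ZMod p) (unrH1 q (locRep q (ad0Rep p ρbar))) ∧
      Module.finrank (ZMod p) (unrH1 q (locRep q (ad0Rep p ρbar))) ≤
        Module.finrank (ZMod p) (locRep q (ad0Rep p ρbar)).ρ.invariants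

/-- **G-ord** (the local term at `p`, ordinary case): `dim L_p^{ord} ≤ f + h⁰(G_p, ad⁰)`.
(L-ord for `N = ordSub ⊆ ad⁰`: `G_p` acts on `N` through `χ̄` (strictness), and
`(ad⁰/N)^{G_p} ⊇ B⁰/N ≅ k`, `B⁰` = the trace-zero endomorphisms preserving `L̄`.) -/
def StmtAdOrd : Prop :=
  ∀ (p : ℕ) [Fact p.Prime], p ≠ 2 → ∀ (k : Type) [Field k] [CharP k p] [Algebra (ZMod p) k]
    [Finite k] (ρbar : ResidualGaloisRep k) (Lbar : Submodule k ρbar.V),
    IsStrictOrdLine p ρbar Lbar →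
    Module.Finite (ZMod p) (ordH1 p ρbar Lbar p) ∧
      Module.finrank (ZMod p) (ordH1 p ρbar Lbar p) ≤
        Module.finrank (ZMod p) k +
          Module.finrank (ZMod p) (locRep p (ad0Rep p ρbar)).ρ.invariants

/-- **G-arch**: `h⁰(G_ℝ, ad⁰) = f`.  (L-arch + L-sl2.) -/
def StmtAdArch : Prop :=
  ∀ (p : ℕ) [Fact p.Prime], p ≠ 2 → ∀ (k : Type) [Field k] [CharP k p] [Algebra (ZMod p) k]
    [Finite k] (ρbar : ResidualGaloisRep k),
    (GaloisRepAdic.ofResidualGaloisRep ρbar).DetIsCyclotomic p →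
    Module.finrank (ZMod p) (Rep.res archimedeanLoc (ad0Rep p ρbar)).ρ.invariants =
      Module.finrank (ZMod p) k

/-- **G-glob0**: `H⁰(G_ℚ, ad⁰) = 0`.  (L-glob0.) -/
def StmtAdGlob0 : Prop :=
  ∀ (p : ℕ) [Fact p.Prime], p ≠ 2 → ∀ (k : Type) [Field k] [CharP k p]
    (ρbar : ResidualGaloisRep k), ρbar.IsAbsolutelyIrreducible →
    (ad0Rep p ρbar).ρ.invariants = ⊥

/-- **G-glob1**: `H⁰(G_ℚ, ad⁰(1)) = 0` for `ad⁰(1) = (ad⁰).dualTwist χ̄`.
(Trace form: an invariant functional is `a ↦ Tr_{k/𝔽_p} tr(X a)` with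
`ρ̄(σ) X = χ̄(σ)^{±1} X ρ̄(σ)`; L-glob1.) -/
def StmtAdGlob1 : Prop :=
  ∀ (p : ℕ) [Fact p.Prime], p ≠ 2 → ∀ (k : Type) [Field k] [CharP k p] [Algebra (ZMod p) k]
    [Finite k] (ρbar : ResidualGaloisRep k), ρbar.IsAbsolutelyIrreducible →
    (∀ (K : Type) [Field K] [Algebra k K]
      (G : Subgroup (AlgebraicClosure ℚ ≃ₐ[ℚ] AlgebraicClosure ℚ)), G.index = 2 →
      ∀ V : Submodule K (ρbar.baseChange K).V,
        (∀ σ ∈ G, ∀ x ∈ V, (ρbar.baseChange K).ρ σ x ∈ V) → V = ⊥ ∨ V = ⊤) →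
    ((ad0Rep p ρbar).dualTwist (cycloChar p)).ρ.invariants = ⊥

end Fermat.Agent.TW.L

end
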