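/-
TW-L / L-frobex, unconditional form (helper32): `stmtFrobExists : StmtFrobExists`
(`stmtFrobExists_of` of `FrobExists.lean` + `stmtDecFull` of `DecFull.lean`).
-/
import Fermat.Agent.TW.L.FrobExists
import Fermat.Agent.TW.L.DecFull

set_option autoImplicit false

namespace Fermat.Agent.TW.L

/-- **L-frobex**: `G_{ℚ_q}` contains a Frobenius element. -/
theorem stmtFrobExists : StmtFrobExists := stmtFrobExists_of stmtDecFull

end Fermat.Agent.TW.L
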