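/-
TW-L, piece `L-arch` (helper1): complex conjugation has characteristic polynomial
`(X - 1)(X + 1)` in a residual representation with cyclotomic determinant.

`c² = 1`; `c μ = μ⁻¹ = μ^(p-1)` on `μ_p`, so `det ρ̄(c) = p - 1 = -1` in `k` (`p = 0` in `k`);
Cayley–Hamilton for `2 × 2` matrices gives `tr ρ̄(c) = 0`.
-/
import Fermat.Agent.TW.L.Plan

set_option autoImplicit false

namespace Fermat.Agent.TW.L

open Polynomial

/-- complex conjugation inverts the `n`-th roots of unity of `ℚ̄`. -/
theorem larch_conj_root (n : ℕ) (hn : 0 < n) (μ : AlgebraicClosure ℚ) (hμ : μ ^ n = 1) :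
    complexConjugation μ = μ ^ (n - 1) := by
  apply complexEmbedding.toRingHom.injective
  show complexEmbedding (complexConjugation μ) = complexEmbedding (μ ^ (n - 1))
  rw [complexEmbedding_complexConjugation, map_pow]
  have hz : complexEmbedding μ ^ n = 1 := by rw [← map_pow, hμ, map_one]
  have hnorm : ‖complexEmbedding μ‖ = 1 := Complex.norm_eq_one_of_pow_eq_one hz hn.ne'
  have hz0 : complexEmbedding μ ≠ 0 := by
    intro h0
    rw [h0, norm_zero] at hnorm
    exact zero_ne_one hnorm
  rw [← Complex.inv_eq_conj hnorm]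
  apply mul_left_cancel₀ hz0
  rw [mul_inv_cancel₀ hz0, ← pow_succ', Nat.sub_add_cancel hn, hz]

/-- a `2 × 2` matrix with `M * M = 1` and `det M = -1` has trace `0`. -/
theorem larch_trace_eq_zero {k : Type} [Field k] (M : Matrix (Fin 2) (Fin 2) k)
    (hM : M * M = 1) (hdet : M.det = -1) : M.trace = 0 := by
  have hCH := Matrix.aeval_self_charpoly M
  rw [Matrix.charpoly_fin_two] at hCH
  simp only [map_sub, map_add, map_mul, map_pow, aeval_X, aeval_C, Algebra.algebraMap_eq_smul_one,
    smul_mul_assoc, one_mul] at hCH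
  rw [sq, hM, hdet] at hCH
  -- `1 - tr • M + (-1) • 1 = 0`
  have h1 : M.trace • M = 0 := by
    have h2 : (1 : Matrix (Fin 2) (Fin 2) k) - M.trace • M + (-1 : k) • (1 : Matrix (Fin 2) (Fin 2) k) = 0 := hCH
    have h3 : (1 : Matrix (Fin 2) (Fin 2) k) - M.trace • M + (-1 : k) • (1 : Matrix (Fin 2) (Fin 2) k)
        = -(M.trace • M) := by
      rw [neg_one_smul]; abel
    rw [h3, neg_eq_zero] at h2
    exact h2
  rcases smul_eq_zero.1 h1 with h | h
  · exact h
  · exfalso
    rw [h, mul_zero] at hM
    exact zero_ne_one hM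

/-- **L-arch**. -/
theorem stmtArch : StmtArch := by
  intro p hp hp2 k _ ρbar hdet
  obtain ⟨hpk, hdet⟩ := hdet
  have hp0 : (p : k) = 0 := by
    rw [IsLocalRing.maximalIdeal_eq_bot] at hpk
    exact hpk
  -- the determinant
  have hdetg : LinearMap.det (ρbar.ρ complexConjugation) = -1 := by
    have h := hdet 1 complexConjugation (p - 1)
      (fun μ hμ => larch_conj_root p hp.out.pos μ (by rw [pow_one] at hμ; exact hμ))
    have hspan : Ideal.span {(((p ^ 1 : ℕ)) : k)} = ⊥ := by
      rw [pow_one, hp0]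
      exact Ideal.span_singleton_eq_bot.2 rfl
    rw [hspan, Ideal.mem_bot, sub_eq_zero] at h
    have hcast : ((p - 1 : ℕ) : k) = -1 := by
      rw [Nat.cast_sub hp.out.one_le, hp0, Nat.cast_one, zero_sub]
    rw [← hcast]
    exact h
  -- the square
  have hsq : ρbar.ρ complexConjugation * ρbar.ρ complexConjugation = 1 := by
    rw [← map_mul, complexConjugation_mul_self, map_one]
  -- matrices
  have hfin : Module.finrank k ρbar.V = 2 := ρbar.finrank_eq
  let b : Module.Basis (Fin 2) k ρbar.V := Module.finBasisOfFinrankEq k ρbar.V hfin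
  set M : Matrix (Fin 2) (Fin 2) k := LinearMap.toMatrix b b (ρbar.ρ complexConjugation) with hMdef
  have hM2 : M * M = 1 := by
    rw [hMdef, ← LinearMap.toMatrix_mul, hsq, LinearMap.toMatrix_one]
  have hMdet : M.det = -1 := by
    rw [hMdef, LinearMap.det_toMatrix, hdetg]
  have htr : M.trace = 0 := larch_trace_eq_zero M hM2 hMdet
  have hchar : LinearMap.charpoly (ρbar.ρ complexConjugation) = M.charpoly :=
    (LinearMap.charpoly_toMatrix (ρbar.ρ complexConjugation) b).symm
  rw [hchar, Matrix.charpoly_fin_two, htr, hMdet]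
  simp only [map_zero, zero_mul, sub_zero, map_neg, map_one]
  ring

end Fermat.Agent.TW.L
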