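/-
TW-Core / C-archdual (helper30): complex conjugation `c` acts on `μ_p` by `-1`, so
`h⁰(c, A*(1)) + h⁰(c, A) = dim A` for `p` odd.

`A*(1)^c = {f | -(f ∘ c) = f}` is the annihilator of `A⁺ = ker (c - 1)`
(`lad_dual_iff`), and `dim A⁺ + dim (A⁺)^⊥ = dim A`.

  `stmtArchDual : Core.StmtArchDual`, `lad_cycloChar_conj : χ_p(c) = -1`,
  `lad_mem_invariants`, `lad_dual_iff`.
-/
import Fermat.Agent.TW.Core.Plan
import Fermat.Agent.TW.L.Arch

set_option autoImplicit false

noncomputable section

namespace Fermat.Agent.TW.L

open CategoryTheory Module ExtCitation Fermat.Agent.PT.B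

/-- complex conjugation acts on `μ_p` by `-1`. -/
theorem lad_cycloChar_conj (p : ℕ) [Fact p.Prime] :
    ((cycloChar p complexConjugation : (ZMod p)ˣ) : ZMod p) = -1 := by
  have hp : p.Prime := Fact.out
  have : NeZero p := ⟨hp.ne_zero⟩
  have : NeZero (p : AlgebraicClosure ℚ) := ⟨Nat.cast_ne_zero.mpr hp.ne_zero⟩
  obtain ⟨ζ, hζ⟩ := HasEnoughRootsOfUnity.exists_primitiveRoot (AlgebraicClosure ℚ) p
  have h1 := larch_conj_root p hp.pos ζ hζ.pow_eq_one
  have hspec := modularCyclotomicCharacter.spec (AlgebraicClosure ℚ) (card_rootsOfUnity_eq_self p)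
    (complexConjugation : AlgebraicClosure ℚ ≃+* AlgebraicClosure ℚ)
    (t := hζ.toRootsOfUnity) (SetLike.coe_mem hζ.toRootsOfUnity)
  have hspec' : complexConjugation ζ = ζ ^ ((cycloChar p complexConjugation : (ZMod p)ˣ) : ZMod p).val := by
    simpa [cycloChar] using hspec
  rw [h1] at hspec'
  have h3 := hζ.pow_inj (Nat.sub_lt hp.pos Nat.one_pos) (ZMod.val_lt _) hspec'
  have h4 : ((cycloChar p complexConjugation : (ZMod p)ˣ) : ZMod p)
      = ((p - 1 : ℕ) : ZMod p) := by
    rw [h3, ZMod.natCast_zmod_val]
  rw [h4, Nat.cast_sub hp.one_le, ZMod.natCast_self, Nat.cast_one, zero_sub]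

/-- Linear algebra: for an involution `T` (`2 ≠ 0` not even needed for this half) the
`(-1)`-eigenspace of the transpose is the annihilator of the `(+1)`-eigenspace. -/
theorem lad_dual_iff {k V : Type} [Field k] [AddCommGroup V] [Module k V] (h2 : (2 : k) ≠ 0)
    (T : V →ₗ[k] V) (hT : ∀ v, T (T v) = v) (f : Module.Dual k V) :
    (-1 : k) • (f ∘ₗ T) = f ↔ f ∈ (LinearMap.ker (T - 1)).dualAnnihilator := by
  rw [Submodule.mem_dualAnnihilator]
  constructor
  · intro h a ha
    have ha' : T a = a := by
      have := LinearMap.mem_ker.1 ha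
      rwa [LinearMap.sub_apply, Module.End.one_apply, sub_eq_zero] at this
    have h1 := LinearMap.congr_fun h a
    rw [LinearMap.smul_apply, LinearMap.comp_apply, ha', neg_one_smul] at h1
    have h3 : (2 : k) * f a = 0 := by
      rw [two_mul]
      nth_rewrite 1 [← h1]
      exact neg_add_cancel _
    rcases mul_eq_zero.1 h3 with h | h
    · exact absurd h h2
    · exact h
  · intro h
    ext a
    have hmem : a + T a ∈ LinearMap.ker (T - 1) := by
      rw [LinearMap.mem_ker, LinearMap.sub_apply, Module.End.one_apply, map_add, hT]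
      abel
    have h1 := h _ hmem
    rw [map_add] at h1
    rw [LinearMap.smul_apply, LinearMap.comp_apply, neg_one_smul]
    exact (neg_eq_of_add_eq_zero_right h1).symm ▸ (by rw [neg_neg])

/-- invariants under the decomposition group at `∞` = fixed vectors of complex conjugation -/
theorem lad_mem_invariants (p : ℕ) [Fact p.Prime] (B : Rep.{0} (ZMod p) GQ) (v : B.V) :
    v ∈ (Rep.res archimedeanLoc B).ρ.invariants ↔ B.ρ complexConjugation v = v := by
  constructor
  · intro h
    exact h archimedeanGen
  · intro h g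
    let S : Subgroup GQ :=
      { carrier := {g | B.ρ g v = v}
        one_mem' := by simp
        mul_mem' := fun {a b} ha hb => by
          show B.ρ (a * b) v = v
          rw [map_mul, Module.End.mul_apply, hb, ha]
        inv_mem' := fun {a} ha => by
          show B.ρ a⁻¹ v = v
          have ha' : B.ρ a v = v := ha
          nth_rewrite 1 [← ha']
          rw [← Module.End.mul_apply, ← map_mul, inv_mul_cancel, map_one, Module.End.one_apply] }
    have hle : archimedeanDecomposition ≤ S := by
      rw [archimedeanDecomposition, Subgroup.zpowers_le]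
      exact h
    exact hle g.2

/-- **C-archdual**. -/
theorem stmtArchDual : Core.StmtArchDual := by
  intro p _ hp2 A _
  have hpp : p.Prime := Fact.out
  have h2 : (2 : ZMod p) ≠ 0 := by
    intro h
    have h' : ((2 : ℕ) : ZMod p) = 0 := by exact_mod_cast h
    rw [ZMod.natCast_eq_zero_iff] at h'
    exact hp2 ((Nat.prime_dvd_prime_iff_eq hpp Nat.prime_two).1 h')
  set T : A.V →ₗ[ZMod p] A.V := A.ρ complexConjugation with hT
  have hTT : ∀ v, T (T v) = v := by
    intro v
    rw [hT, ← Module.End.mul_apply, ← map_mul, complexConjugation_mul_self, map_one,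
      Module.End.one_apply]
  set W : Submodule (ZMod p) A.V := LinearMap.ker (T - 1) with hW
  -- the invariants of `A`
  have e1 : finrank (ZMod p) ↥((Rep.res archimedeanLoc A).ρ.invariants) = finrank (ZMod p) ↥W := by
    refine LinearEquiv.finrank_eq
      { toFun := fun x => ⟨x.1, ?_⟩
        invFun := fun x => ⟨x.1, ?_⟩
        map_add' := fun _ _ => rfl
        map_smul' := fun _ _ => rfl
        left_inv := fun _ => rfl
        right_inv := fun _ => rfl }
    · rw [hW, LinearMap.mem_ker, LinearMap.sub_apply, Module.End.one_apply, sub_eq_zero]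
      exact (lad_mem_invariants p A x.1).1 x.2
    · apply (lad_mem_invariants p A x.1).2
      have := LinearMap.mem_ker.1 x.2
      rwa [LinearMap.sub_apply, Module.End.one_apply, sub_eq_zero] at this
  -- the invariants of `A*(1)`
  have e2 : finrank (ZMod p) ↥((Rep.res archimedeanLoc (A.dualTwist (cycloChar p))).ρ.invariants)
      = finrank (ZMod p) ↥W.dualAnnihilator := by
    have key : ∀ f : Module.Dual (ZMod p) A.V,
        (A.dualTwist (cycloChar p)).ρ complexConjugation f = f ↔ f ∈ W.dualAnnihilator := by
      intro f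
      rw [Rep.dualTwist_ρ_apply, lad_cycloChar_conj, complexConjugation_inv]
      exact lad_dual_iff h2 T hTT f
    refine LinearEquiv.finrank_eq
      { toFun := fun x => ⟨x.1, ?_⟩
        invFun := fun x => ⟨x.1, ?_⟩
        map_add' := fun _ _ => rfl
        map_smul' := fun _ _ => rfl
        left_inv := fun _ => rfl
        right_inv := fun _ => rfl }
    · exact (key x.1).1 ((lad_mem_invariants p (A.dualTwist (cycloChar p)) x.1).1 x.2)
    · exact (lad_mem_invariants p (A.dualTwist (cycloChar p)) x.1).2 ((key x.1).2 x.2)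
  rw [e1, e2, add_comm]
  exact Subspace.finrank_add_finrank_dualAnnihilator_eq W

end Fermat.Agent.TW.L

end
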