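import Fermat.Agent.TW.L.Plan

/-!
# TW-L / L-sl2: the trace-zero centraliser of a regular semisimple element

`stmtCentralizer : StmtCentralizer`: for `g ∈ End(V)`, `dim V = 2`, with characteristic polynomial
`(X - α)(X - β)`, `α ≠ β`, the space `{X | g X = X g, tr X = 0}` is one-dimensional
(all characteristics).
-/

set_option autoImplicit false
set_option linter.unusedSectionVars false

noncomputable section

namespace Fermat.Agent.TW.L

open Polynomial Module

section

variable {k : Type} [Field k] {V : Type} [AddCommGroup V] [Module k V] [Module.Finite k V]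

/-- eigenvectors for the two roots of the characteristic polynomial -/
theorem lsl2_exists_eigen (g : Module.End k V) (α β : k)
    (hχ : LinearMap.charpoly g = (X - C α) * (X - C β)) :
    (∃ v : V, v ≠ 0 ∧ g v = α • v) ∧ ∃ v : V, v ≠ 0 ∧ g v = β • v := by
  have hα : g.HasEigenvalue α := by
    rw [Module.End.hasEigenvalue_iff_isRoot_charpoly, hχ]
    simp
  have hβ : g.HasEigenvalue β := by
    rw [Module.End.hasEigenvalue_iff_isRoot_charpoly, hχ]
    simp
  obtain ⟨v, hv⟩ := hα.exists_hasEigenvector
  obtain ⟨w, hw⟩ := hβ.exists_hasEigenvector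
  exact ⟨⟨v, hv.2, hv.apply_eq_smul⟩, ⟨w, hw.2, hw.apply_eq_smul⟩⟩

/-- an eigenbasis -/
theorem lsl2_exists_basis (hV : Module.finrank k V = 2) (g : Module.End k V) (α β : k)
    (hαβ : α ≠ β) (hχ : LinearMap.charpoly g = (X - C α) * (X - C β)) :
    ∃ b : Basis (Fin 2) k V, g (b 0) = α • b 0 ∧ g (b 1) = β • b 1 := by
  obtain ⟨⟨v, hv0, hv⟩, ⟨w, hw0, hw⟩⟩ := lsl2_exists_eigen g α β hχ
  have hli : LinearIndependent k ![v, w] := by
    rw [LinearIndependent.pair_iff]
    intro s t hst
    have h1 := congrArg g hst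
    rw [map_add, map_smul, map_smul, hv, hw, map_zero] at h1
    -- `s α v + t β w = 0` and `s v + t w = 0`
    have h2 : (t * (β - α)) • w = 0 := by
      have h3 : s • α • v + t • β • w - α • (s • v + t • w) = 0 := by rw [h1, hst, smul_zero, sub_zero]
      have h4 : s • α • v + t • β • w - α • (s • v + t • w) = (t * (β - α)) • w := by
        simp only [smul_add, smul_smul, sub_smul, mul_sub]
        rw [mul_comm s α, mul_comm α t]
        abel
      rw [← h4, h3]
    have ht : t = 0 := by
      rcases smul_eq_zero.mp h2 with h | h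
      · rcases mul_eq_zero.mp h with h | h
        · exact h
        · exact absurd (sub_eq_zero.mp h).symm hαβ
      · exact absurd h hw0
    rw [ht, zero_smul, add_zero] at hst
    rcases smul_eq_zero.mp hst with h | h
    · exact ⟨h, ht⟩
    · exact absurd h hv0
  have hcard : Fintype.card (Fin 2) = Module.finrank k V := by rw [hV]; rfl
  refine ⟨basisOfLinearIndependentOfCardEqFinrank hli hcard, ?_, ?_⟩
  · rw [coe_basisOfLinearIndependentOfCardEqFinrank]
    exact hv
  · rw [coe_basisOfLinearIndependentOfCardEqFinrank]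
    exact hw

/-- the `α`-eigenspace is the line of `b 0` -/
theorem lsl2_eigen_zero (b : Basis (Fin 2) k V) (g : Module.End k V) {α β : k} (hαβ : α ≠ β)
    (h0 : g (b 0) = α • b 0) (h1 : g (b 1) = β • b 1) {z : V} (hz : g z = α • z) :
    z = b.repr z 0 • b 0 := by
  have hsum : z = b.repr z 0 • b 0 + b.repr z 1 • b 1 := by
    conv_lhs => rw [← b.sum_repr z, Fin.sum_univ_two]
  have h2 : (b.repr z 1 * (β - α)) • b 1 = 0 := by
    have h3 : g z - α • z = 0 := by rw [hz, sub_self]
    have h4 : g z - α • z = (b.repr z 1 * (β - α)) • b 1 := by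
      conv_lhs => rw [hsum]
      rw [map_add, map_smul, map_smul, h0, h1]
      simp only [smul_add, smul_smul, sub_smul, mul_sub]
      rw [mul_comm (b.repr z 0) α, mul_comm α (b.repr z 1)]
      abel
    rw [← h4, h3]
  have hy : b.repr z 1 = 0 := by
    rcases smul_eq_zero.mp h2 with h | h
    · rcases mul_eq_zero.mp h with h | h
      · exact h
      · exact absurd (sub_eq_zero.mp h).symm hαβ
    · exact absurd h (b.ne_zero 1)
  rw [hy, zero_smul, add_zero] at hsum
  exact hsum

/-- the `β`-eigenspace is the line of `b 1` -/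
theorem lsl2_eigen_one (b : Basis (Fin 2) k V) (g : Module.End k V) {α β : k} (hαβ : α ≠ β)
    (h0 : g (b 0) = α • b 0) (h1 : g (b 1) = β • b 1) {z : V} (hz : g z = β • z) :
    z = b.repr z 1 • b 1 := by
  have hsum : z = b.repr z 0 • b 0 + b.repr z 1 • b 1 := by
    conv_lhs => rw [← b.sum_repr z, Fin.sum_univ_two]
  have h2 : (b.repr z 0 * (α - β)) • b 0 = 0 := by
    have h3 : g z - β • z = 0 := by rw [hz, sub_self]
    have h4 : g z - β • z = (b.repr z 0 * (α - β)) • b 0 := by
      conv_lhs => rw [hsum]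
      rw [map_add, map_smul, map_smul, h0, h1]
      simp only [smul_add, smul_smul, sub_smul, mul_sub]
      rw [mul_comm (b.repr z 1) β, mul_comm β (b.repr z 0)]
      abel
    rw [← h4, h3]
  have hy : b.repr z 0 = 0 := by
    rcases smul_eq_zero.mp h2 with h | h
    · rcases mul_eq_zero.mp h with h | h
      · exact h
      · exact absurd (sub_eq_zero.mp h) hαβ
    · exact absurd h (b.ne_zero 0)
  rw [hy, zero_smul, zero_add] at hsum
  exact hsum

/-- trace in a basis of `Fin 2` -/
theorem lsl2_trace (b : Basis (Fin 2) k V) (X : Module.End k V) :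
    LinearMap.trace k V X = b.repr (X (b 0)) 0 + b.repr (X (b 1)) 1 := by
  rw [LinearMap.trace_eq_matrix_trace k b X, Matrix.trace_fin_two, LinearMap.toMatrix_apply,
    LinearMap.toMatrix_apply]

end

/-- **L-sl2.** -/
theorem stmtCentralizer : StmtCentralizer := by
  intro k _ V _ _ _ hV g α β hαβ hχ
  obtain ⟨b, h0, h1⟩ := lsl2_exists_basis hV g α β hαβ hχ
  -- the generator
  set D : Module.End k V := b.constr k ![b 0, - b 1] with hD
  have hD0 : D (b 0) = b 0 := by rw [hD, Basis.constr_basis]; rfl
  have hD1 : D (b 1) = - b 1 := by rw [hD, Basis.constr_basis]; rfl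
  have hDmem : D ∈ adZeroFix g := by
    refine ⟨?_, ?_⟩
    · refine b.ext fun i => ?_
      fin_cases i
      · show g (D (b 0)) = D (g (b 0))
        rw [hD0, h0, map_smul, hD0]
      · show g (D (b 1)) = D (g (b 1))
        rw [hD1, map_neg, h1, map_smul, hD1, smul_neg]
    · rw [lsl2_trace b D, hD0, hD1, map_neg]
      simp
  have hDne : (⟨D, hDmem⟩ : adZeroFix g) ≠ 0 := by
    intro h
    have h' : D = 0 := congrArg Subtype.val h
    have := hD0
    rw [h', LinearMap.zero_apply] at this
    exact b.ne_zero 0 this.symm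
  rw [finrank_eq_one_iff']
  refine ⟨⟨D, hDmem⟩, hDne, ?_⟩
  rintro ⟨X, hXc, hXt⟩
  have hX0 : g (X (b 0)) = α • X (b 0) := by
    have := congrArg (fun Y : Module.End k V => Y (b 0)) hXc
    simp only [Module.End.mul_apply] at this
    rw [this, h0, map_smul]
  have hX1 : g (X (b 1)) = β • X (b 1) := by
    have := congrArg (fun Y : Module.End k V => Y (b 1)) hXc
    simp only [Module.End.mul_apply] at this
    rw [this, h1, map_smul]
  have e0 := lsl2_eigen_zero b g hαβ h0 h1 hX0
  have e1 := lsl2_eigen_one b g hαβ h0 h1 hX1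
  rw [lsl2_trace b X] at hXt
  refine ⟨b.repr (X (b 0)) 0, ?_⟩
  apply Subtype.ext
  show b.repr (X (b 0)) 0 • D = X
  refine b.ext fun i => ?_
  fin_cases i
  · show (b.repr (X (b 0)) 0 • D) (b 0) = X (b 0)
    rw [LinearMap.smul_apply, hD0]
    exact e0.symm
  · show (b.repr (X (b 0)) 0 • D) (b 1) = X (b 1)
    rw [LinearMap.smul_apply, hD1]
    have : b.repr (X (b 0)) 0 = - b.repr (X (b 1)) 1 := eq_neg_of_add_eq_zero_left hXt
    rw [this, neg_smul, smul_neg, neg_neg]
    exact e1.symm

end Fermat.Agent.TW.L
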