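/-
TW-L / G-arch (helper1): `h⁰(G_ℝ, ad⁰ ρ̄) = f = [k : 𝔽_p]` for `p ≠ 2` and cyclotomic determinant.

Main results: `stmtAdArch_of : StmtArch → StmtCentralizer → StmtAdArch` and the unconditional
`stmtAdArch : StmtAdArch` (statements in `TW/L/Plan.lean`, `TW/L/Plan3.lean`).

Proof: the invariants of `⟨c⟩` on `ad⁰` are in bijection with the trace-zero centraliser
`adZeroFix (ρ̄ c)`, a `k`-line by L-sl2 (eigenvalues `1 ≠ -1` by L-arch); compare cardinalities.
-/
import Mathlib
import Fermat.Agent.TW.L.Plan3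
import Fermat.Agent.TW.L.Arch
import Fermat.Agent.TW.L.Centralizer

set_option autoImplicit false

namespace Fermat.Agent.TW.L

open CategoryTheory
open Fermat.Agent.PT Fermat.Agent.PT.B Fermat.Agent.TW.S ExtCitation

/-- The elements of `G_ℚ` whose image commutes with `X`. -/
def garchComm {k : Type} [Field k] (ρbar : ResidualGaloisRep k) (X : Module.End k ρbar.V) :
    Subgroup (AlgebraicClosure ℚ ≃ₐ[ℚ] AlgebraicClosure ℚ) where
  carrier := {g | ρbar.ρ g * X = X * ρbar.ρ g}
  mul_mem' := by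
    intro a b ha hb
    show ρbar.ρ (a * b) * X = X * ρbar.ρ (a * b)
    have ha' : ρbar.ρ a * X = X * ρbar.ρ a := ha
    have hb' : ρbar.ρ b * X = X * ρbar.ρ b := hb
    rw [map_mul, mul_assoc, hb', ← mul_assoc, ha', mul_assoc]
  one_mem' := by
    show ρbar.ρ 1 * X = X * ρbar.ρ 1
    rw [map_one, one_mul, mul_one]
  inv_mem' := by
    intro a ha
    show ρbar.ρ a⁻¹ * X = X * ρbar.ρ a⁻¹
    have ha' : ρbar.ρ a * X = X * ρbar.ρ a := ha
    calc ρbar.ρ a⁻¹ * X = ρbar.ρ a⁻¹ * X * (ρbar.ρ a * ρbar.ρ a⁻¹) := by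
          rw [rho_mul_inv, mul_one]
      _ = ρbar.ρ a⁻¹ * (X * ρbar.ρ a) * ρbar.ρ a⁻¹ := by simp only [mul_assoc]
      _ = ρbar.ρ a⁻¹ * (ρbar.ρ a * X) * ρbar.ρ a⁻¹ := by rw [ha']
      _ = (ρbar.ρ a⁻¹ * ρbar.ρ a) * X * ρbar.ρ a⁻¹ := by simp only [mul_assoc]
      _ = X * ρbar.ρ a⁻¹ := by rw [rho_inv_mul, one_mul]

/-- An endomorphism commuting with `ρ̄(c)` commutes with `ρ̄(g)` for every `g ∈ ⟨c⟩`. -/
lemma garch_comm_of_mem {k : Type} [Field k] (ρbar : ResidualGaloisRep k)
    (X : Module.End k ρbar.V)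
    (hX : ρbar.ρ complexConjugation * X = X * ρbar.ρ complexConjugation)
    (g : archimedeanDecomposition) :
    ρbar.ρ (archimedeanLoc g) * X = X * ρbar.ρ (archimedeanLoc g) := by
  have hle : Subgroup.zpowers complexConjugation ≤ garchComm ρbar X :=
    (Subgroup.zpowers_le).2 hX
  exact hle g.2

/-- The invariants of `⟨c⟩` on `ad⁰ ρ̄` are in bijection with the trace-zero centraliser of
`ρ̄(c)`. -/
lemma garch_exists_bij (p : ℕ) [Fact p.Prime] {k : Type} [Field k] [CharP k p]
    (ρbar : ResidualGaloisRep k) :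
    ∃ f : (Rep.res archimedeanLoc (ad0Rep p ρbar)).ρ.invariants →
        adZeroFix (ρbar.ρ complexConjugation), Function.Bijective f := by
  have key : ∀ x : (Rep.res archimedeanLoc (ad0Rep p ρbar)).ρ.invariants,
      ρbar.ρ complexConjugation * ad0Val p ρbar x.1 =
        ad0Val p ρbar x.1 * ρbar.ρ complexConjugation := by
    intro x
    have hx : (ad0Rep p ρbar).ρ complexConjugation x.1 = x.1 := x.2 archimedeanGen
    have h1 := congrArg (ad0Val p ρbar) hx
    rw [ad0Val_ρ] at h1
    calc ρbar.ρ complexConjugation * ad0Val p ρbar x.1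
        = ρbar.ρ complexConjugation * ad0Val p ρbar x.1 *
            (ρbar.ρ complexConjugation⁻¹ * ρbar.ρ complexConjugation) := by
          rw [rho_inv_mul, mul_one]
      _ = (ρbar.ρ complexConjugation * ad0Val p ρbar x.1 *
            ρbar.ρ complexConjugation⁻¹) * ρbar.ρ complexConjugation := by
          simp only [mul_assoc]
      _ = ad0Val p ρbar x.1 * ρbar.ρ complexConjugation := by rw [h1]
  refine ⟨fun x => ⟨ad0Val p ρbar x.1, key x, trace_ad0Val p ρbar x.1⟩, fun x y h => ?_,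
    fun Y => ?_⟩
  · apply Subtype.ext
    apply ad0Val_injective p ρbar
    exact congrArg (fun z : adZeroFix (ρbar.ρ complexConjugation) =>
      (z : Module.End k ρbar.V)) h
  · obtain ⟨x, hx⟩ := exists_ad0Val_eq p ρbar (Y : Module.End k ρbar.V) Y.2.2
    have hinv : x ∈ (Rep.res archimedeanLoc (ad0Rep p ρbar)).ρ.invariants := by
      intro g
      show (ad0Rep p ρbar).ρ (archimedeanLoc g) x = x
      apply ad0Val_injective p ρbar
      rw [ad0Val_ρ, hx, garch_comm_of_mem ρbar (Y : Module.End k ρbar.V) Y.2.1 g, mul_assoc,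
        rho_mul_inv, mul_one]
    refine ⟨⟨x, hinv⟩, ?_⟩
    apply Subtype.ext
    exact hx

/-- **G-arch** from L-arch and L-sl2. -/
theorem stmtAdArch_of (hA : StmtArch) (hC : StmtCentralizer) : StmtAdArch := by
  intro p hp hp2 k _ _ _ _ ρbar hdet
  have hχ := hA p hp2 k ρbar hdet
  have h2 : (2 : k) ≠ 0 := by
    intro h
    have h2' : ((2 : ℕ) : k) = 0 := by exact_mod_cast h
    have hdvd : p ∣ 2 := (CharP.cast_eq_zero_iff k p 2).1 h2'
    exact hp2 ((Nat.prime_dvd_prime_iff_eq hp.out Nat.prime_two).1 hdvd)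
  have hne : (1 : k) ≠ -1 := by
    intro h
    apply h2
    have : (1 : k) + 1 = 0 := by nth_rewrite 2 [h]; exact add_neg_cancel 1
    rw [← this]; norm_num
  have h1 : Module.finrank k (adZeroFix (ρbar.ρ complexConjugation)) = 1 :=
    hC k ρbar.V ρbar.finrank_eq (ρbar.ρ complexConjugation) 1 (-1) hne hχ
  obtain ⟨f, hf⟩ := garch_exists_bij p ρbar
  have hfinV : Finite ρbar.V := Module.finite_of_finite k
  have hfinE : Finite (Module.End k ρbar.V) := Module.finite_of_finite k
  have hfinZ : Finite (adZeroFix (ρbar.ρ complexConjugation)) := inferInstance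
  have hfinI : Finite (Rep.res archimedeanLoc (ad0Rep p ρbar)).ρ.invariants :=
    Finite.of_injective f hf.1
  have heq : Nat.card (Rep.res archimedeanLoc (ad0Rep p ρbar)).ρ.invariants =
      Nat.card (adZeroFix (ρbar.ρ complexConjugation)) :=
    Nat.card_eq_of_bijective f hf
  have hfinMI : Module.Finite (ZMod p)
      (Rep.res archimedeanLoc (ad0Rep p ρbar)).ρ.invariants := Module.Finite.of_finite
  have hfinMk : Module.Finite (ZMod p) k := Module.Finite.of_finite
  rw [Module.natCard_eq_pow_finrank (K := ZMod p), Module.natCard_eq_pow_finrank (K := k)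
    (V := adZeroFix (ρbar.ρ complexConjugation)), h1, pow_one,
    Module.natCard_eq_pow_finrank (K := ZMod p) (V := k), Nat.card_zmod] at heq
  exact Nat.pow_right_injective hp.out.two_le heq

/-- **G-arch**: `StmtAdArch`, unconditional. -/
theorem stmtAdArch : StmtAdArch := stmtAdArch_of stmtArch stmtCentralizer

end Fermat.Agent.TW.L
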