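import Fermat.Agent.TW.L.Plan3

/-!
# TW-L / G-glob0: `H⁰(G_ℚ, ad⁰ ρ̄) = 0`

`stmtAdGlob0_of : StmtGlobAd → StmtAdGlob0`.
-/

set_option autoImplicit false

noncomputable section

namespace Fermat.Agent.TW.L

open CategoryTheory Fermat.Agent.TW.S

/-- `2 ≠ 0` in a field of odd characteristic -/
theorem gglob0_two_ne_zero (p : ℕ) [Fact p.Prime] (hp : p ≠ 2) (k : Type) [Field k] [CharP k p] :
    (2 : k) ≠ 0 := by
  intro h
  have h2 : ((2 : ℕ) : k) = 0 := by exact_mod_cast h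
  rw [CharP.cast_eq_zero_iff k p] at h2
  exact hp ((Nat.prime_dvd_prime_iff_eq (Fact.out : p.Prime) Nat.prime_two).1 h2)

/-- an invariant of `ad⁰ ρ̄` commutes with `ρ̄` -/
theorem gglob0_comm (p : ℕ) [Fact p.Prime] {k : Type} [Field k] [CharP k p]
    (ρbar : ResidualGaloisRep k) (x : (ad0Rep p ρbar).V) (σ : GQ')
    (hx : (ad0Rep p ρbar).ρ σ x = x) :
    ρbar.ρ σ * ad0Val p ρbar x = ad0Val p ρbar x * ρbar.ρ σ := by
  have h := congrArg (ad0Val p ρbar) hx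
  rw [ad0Val_ρ] at h
  calc ρbar.ρ σ * ad0Val p ρbar x
      = ρbar.ρ σ * ad0Val p ρbar x * (ρbar.ρ σ⁻¹ * ρbar.ρ σ) := by
        rw [rho_inv_mul, mul_one]
    _ = (ρbar.ρ σ * ad0Val p ρbar x * ρbar.ρ σ⁻¹) * ρbar.ρ σ := by
        simp only [mul_assoc]
    _ = ad0Val p ρbar x * ρbar.ρ σ := by rw [h]

/-- **G-glob0** from **L-glob0**. -/
theorem stmtAdGlob0_of (h0 : StmtGlobAd) : StmtAdGlob0 := by
  intro p _ hp k _ _ ρbar hirr
  rw [eq_bot_iff]
  intro x hx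
  rw [Representation.mem_invariants] at hx
  rw [Submodule.mem_bot]
  apply ad0Val_injective p ρbar
  rw [map_zero]
  exact h0 k ρbar (gglob0_two_ne_zero p hp k) hirr (ad0Val p ρbar x)
    (fun σ => gglob0_comm p ρbar x σ (hx σ)) (trace_ad0Val p ρbar x)

end Fermat.Agent.TW.L
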