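/-
TW-L / G-h0 (helper32): `h⁰(G_q, ad⁰ ρ̄) ≤ f = [k : 𝔽_p]` if the Frobenius elements at `q` have
distinct eigenvalues.

Main results: `stmtAdInvLe_of : StmtFrobExists → StmtCentralizer → StmtAdInvLe` and the
unconditional `stmtAdInvLe : StmtAdInvLe` (statements in `TW/L/Plan.lean`, `TW/L/Plan3.lean`).

Proof: for a Frobenius element `φ ∈ G_{ℚ_q}` (L-frobex) the invariants embed into the trace-zero
centraliser `adZeroFix (ρ̄ (r φ))`, a `k`-line (L-sl2); compare cardinalities.
-/
import Mathlib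
import Fermat.Agent.TW.L.Plan3
import Fermat.Agent.TW.L.FrobExistsFinal
import Fermat.Agent.TW.L.Centralizer

set_option autoImplicit false

namespace Fermat.Agent.TW.L

open CategoryTheory
open Fermat.Agent.PT Fermat.Agent.PT.B Fermat.Agent.TW.S

/-- The invariants of `ad⁰ ρ̄` under `G_{ℚ_q}` embed into the trace-zero centraliser of the image
of any element. -/
lemma gh0_exists_inj (p : ℕ) [Fact p.Prime] {k : Type} [Field k] [CharP k p]
    (ρbar : ResidualGaloisRep k) (q : ℕ) [Fact q.Prime] (φ : GQq q) :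
    ∃ f : (locRep q (ad0Rep p ρbar)).ρ.invariants →
        adZeroFix (ρbar.ρ (localGaloisToGlobal q φ)), Function.Injective f := by
  have key : ∀ x : (locRep q (ad0Rep p ρbar)).ρ.invariants,
      ρbar.ρ (localGaloisToGlobal q φ) * ad0Val p ρbar x.1 =
        ad0Val p ρbar x.1 * ρbar.ρ (localGaloisToGlobal q φ) := by
    intro x
    have hx : (ad0Rep p ρbar).ρ (localGaloisToGlobal q φ) x.1 = x.1 := x.2 φ
    have h1 := congrArg (ad0Val p ρbar) hx
    rw [ad0Val_ρ] at h1
    calc ρbar.ρ (localGaloisToGlobal q φ) * ad0Val p ρbar x.1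
        = ρbar.ρ (localGaloisToGlobal q φ) * ad0Val p ρbar x.1 *
            (ρbar.ρ (localGaloisToGlobal q φ)⁻¹ * ρbar.ρ (localGaloisToGlobal q φ)) := by
          rw [rho_inv_mul, mul_one]
      _ = (ρbar.ρ (localGaloisToGlobal q φ) * ad0Val p ρbar x.1 *
            ρbar.ρ (localGaloisToGlobal q φ)⁻¹) * ρbar.ρ (localGaloisToGlobal q φ) := by
          simp only [mul_assoc]
      _ = ad0Val p ρbar x.1 * ρbar.ρ (localGaloisToGlobal q φ) := by rw [h1]
  refine ⟨fun x => ⟨ad0Val p ρbar x.1, key x, trace_ad0Val p ρbar x.1⟩, fun x y h => ?_⟩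
  apply Subtype.ext
  apply ad0Val_injective p ρbar
  exact congrArg (fun z : adZeroFix (ρbar.ρ (localGaloisToGlobal q φ)) =>
    (z : Module.End k ρbar.V)) h

/-- **G-h0** from L-frobex and L-sl2. -/
theorem stmtAdInvLe_of (hF : StmtFrobExists) (hC : StmtCentralizer) : StmtAdInvLe := by
  intro p hp k _ _ _ _ ρbar q _ hdist
  obtain ⟨φ, hφ⟩ := hF q
  obtain ⟨α, β, hαβ, hχ⟩ := hdist (padicPlace q) (lfrobex_liesOverPrime q)
    (localGaloisToGlobal q φ) hφ
  have h1 : Module.finrank k (adZeroFix (ρbar.ρ (localGaloisToGlobal q φ))) = 1 :=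
    hC k ρbar.V ρbar.finrank_eq (ρbar.ρ (localGaloisToGlobal q φ)) α β hαβ hχ
  obtain ⟨f, hf⟩ := gh0_exists_inj p ρbar q φ
  have hfinV : Finite ρbar.V := Module.finite_of_finite k
  have hfinE : Finite (Module.End k ρbar.V) := Module.finite_of_finite k
  have hfinZ : Finite (adZeroFix (ρbar.ρ (localGaloisToGlobal q φ))) := inferInstance
  have hfinI : Finite (locRep q (ad0Rep p ρbar)).ρ.invariants := Finite.of_injective f hf
  have hle : Nat.card (locRep q (ad0Rep p ρbar)).ρ.invariants ≤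
      Nat.card (adZeroFix (ρbar.ρ (localGaloisToGlobal q φ))) :=
    Nat.card_le_card_of_injective f hf
  have hfinMI : Module.Finite (ZMod p) (locRep q (ad0Rep p ρbar)).ρ.invariants :=
    Module.Finite.of_finite
  have hfinMk : Module.Finite (ZMod p) k := Module.Finite.of_finite
  rw [Module.natCard_eq_pow_finrank (K := ZMod p), Module.natCard_eq_pow_finrank (K := k)
    (V := adZeroFix (ρbar.ρ (localGaloisToGlobal q φ))), h1, pow_one,
    Module.natCard_eq_pow_finrank (K := ZMod p) (V := k), Nat.card_zmod] at hle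
  exact (Nat.pow_le_pow_iff_right hp.out.one_lt).mp hle

/-- **G-h0**: `StmtAdInvLe`, unconditional. -/
theorem stmtAdInvLe : StmtAdInvLe := stmtAdInvLe_of stmtFrobExists stmtCentralizer

end Fermat.Agent.TW.L
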