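/-
TW-L / G-smooth (helper32): `ad⁰ ρ̄` restricted to `G_{ℚ_q}` is smooth.

Main result: `stmtAdSmooth : StmtAdSmooth` (statement in `TW/L/Plan3.lean`), unconditional.

Proof: `ρ̄` is trivial on `Gal(ℚ̄/L)` for a finite `L/ℚ` (`ρbar.factorsThroughFiniteLevel`); the
level `r⁻¹ Gal(ℚ̄/L)` of `towerLoc q` acts trivially by conjugation.
-/
import Mathlib
import Fermat.Agent.TW.L.Plan3

set_option autoImplicit false

namespace Fermat.Agent.TW.L

open CategoryTheory
open Fermat.Agent.PT Fermat.Agent.PT.B Fermat.Agent.TW.S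

/-- **G-smooth**: `StmtAdSmooth`. -/
theorem stmtAdSmooth : StmtAdSmooth := by
  intro p _ k _ _ ρbar q _
  obtain ⟨L, hL, hρ⟩ := ρbar.factorsThroughFiniteLevel
  refine ⟨L.fixingSubgroup.comap (localGaloisToGlobal q), ⟨L, hL, rfl⟩, fun s hs => ?_⟩
  have key : ∀ t : GQq q, t ∈ L.fixingSubgroup.comap (localGaloisToGlobal q) →
      ρbar.ρ (localGaloisToGlobal q t) = 1 := by
    intro t ht
    refine hρ _ (fun x hx => ?_)
    have h1 : localGaloisToGlobal q t ∈ L.fixingSubgroup := ht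
    rw [IntermediateField.mem_fixingSubgroup_iff] at h1
    exact h1 x hx
  have h1 : ρbar.ρ (localGaloisToGlobal q s) = 1 := key s hs
  have h2 : ρbar.ρ (localGaloisToGlobal q s)⁻¹ = 1 := by
    rw [← map_inv]
    exact key s⁻¹ (inv_mem hs)
  apply LinearMap.ext
  intro x
  apply ad0Val_injective p ρbar
  change ad0Val p ρbar ((ad0Rep p ρbar).ρ (localGaloisToGlobal q s) x) = ad0Val p ρbar x
  rw [ad0Val_ρ, h1, h2, one_mul, mul_one]

end Fermat.Agent.TW.L
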