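/-
TW-L, piece `L-gen` (helper1): modulo every level of the local tower, `G_{ℚ_q}` is generated by a
Frobenius element and inertia:  `τ = φ ^ j * i * v`, `i ∈ inertiaQ q`, `v ∈ V`.

Proof.  `V = r⁻¹ Gal(ℚ̄/F)`; `L` = normal closure of `F`; `P = padicPlace q`, `κ` its residue field.
The residues of the integers of `L` form a finite subring `T ⊆ κ`, stable under `σ = r τ ∈ D_P`;
a ring endomorphism of a field of characteristic `q` acts on a stable finite subring as a power
of Frobenius (`lgen_frob_pow_on_finite_subring`), so `σ ≡ Φ ^ j` on the integers of `L`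
(`Φ = r φ`).  Inertia lifting (`Common.exists_mem_inertiaSubgroupIn_of_congr`) gives `i' ∈ I_P`
with `i' = Φ⁻ʲ σ` on `L`, and L-dec lifts `i'` to `G_{ℚ_q}`.
-/
import Fermat.Agent.TW.L.DecFull
import Fermat.Agent.TW.L.FrobExists
import Fermat.Agent.Common.InertiaLift

set_option autoImplicit false
set_option linter.style.haveILetI false

namespace Fermat.Agent.TW.L

open Fermat.Agent.PT Fermat.Agent.PT.B NumberField ExtCitation

/-- A ring endomorphism of a field of characteristic `q` which maps a finite subring `T` into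
itself acts on `T` as a power of the Frobenius `t ↦ t ^ q`. -/
theorem lgen_frob_pow_on_finite_subring {κ : Type*} [Field κ] (q : ℕ) [hq : Fact q.Prime]
    [CharP κ q] (T : Subring κ) [Finite T] (s : κ →+* κ) (hs : ∀ t ∈ T, s t ∈ T) :
    ∃ j : ℕ, ∀ t ∈ T, s t = t ^ (q ^ j) := by
  classical
  haveI : Fintype T := Fintype.ofFinite T
  letI : Field T := Fintype.fieldOfDomain T
  haveI : CharP T q := (RingHom.charP_iff T.subtype Subtype.val_injective q).2 inferInstance
  letI : Algebra (ZMod q) T := ZMod.algebra T q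
  -- the restriction of `s`
  let sT : T →+* T := (s.comp T.subtype).codRestrict T (fun t => hs t t.2)
  have hsT_inj : Function.Injective sT := by
    intro a b hab
    have h1 : s a = s b := congrArg Subtype.val hab
    exact Subtype.ext (s.injective h1)
  have hsT_bij : Function.Bijective sT := Finite.injective_iff_bijective.1 hsT_inj
  let eR : T ≃+* T := RingEquiv.ofBijective sT hsT_bij
  let e : T ≃ₐ[ZMod q] T := AlgEquiv.ofRingEquiv (f := eR) (fun x => by
    have h1 : (eR : T →+* T).comp (algebraMap (ZMod q) T) = algebraMap (ZMod q) T :=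
      Subsingleton.elim _ _
    exact RingHom.congr_fun h1 x)
  obtain ⟨⟨j, hj⟩, hje⟩ := (FiniteField.bijective_frobeniusAlgEquivOfAlgebraic_pow (ZMod q) T).2 e
  refine ⟨j, fun t ht => ?_⟩
  have h2 : e ⟨t, ht⟩ = (⟨t, ht⟩ : T) ^ (q ^ j) := by
    rw [← hje]
    show (FiniteField.frobeniusAlgEquivOfAlgebraic (ZMod q) T ^ j) ⟨t, ht⟩ = _
    rw [AlgEquiv.coe_pow, FiniteField.coe_frobeniusAlgEquivOfAlgebraic_iterate, ZMod.card]
  have h3 := congrArg Subtype.val h2
  exact h3

section Emb

variable (L : IntermediateField ℚ (AlgebraicClosure ℚ))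
  (A : ValuationSubring (AlgebraicClosure ℚ))

/-- `𝓞 L → ℚ̄`. -/
noncomputable def lgenEmb : 𝓞 L →+* AlgebraicClosure ℚ :=
  (algebraMap L (AlgebraicClosure ℚ)).comp (algebraMap (𝓞 L) L)

theorem lgenEmb_isIntegral (x : 𝓞 L) : IsIntegral ℤ (lgenEmb L x) :=
  (RingOfIntegers.isIntegral x).map ((lgenEmb L).toIntAlgHom)

theorem lgenEmb_mem_field (x : 𝓞 L) : lgenEmb L x ∈ L := ((x : L)).2

theorem lgenEmb_mem (x : 𝓞 L) : lgenEmb L x ∈ A := by
  have hint : IsIntegral A (lgenEmb L x) := (lgenEmb_isIntegral L x).tower_top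
  obtain ⟨y, hy⟩ := (IsIntegrallyClosed.isIntegral_iff (R := A) (K := AlgebraicClosure ℚ)).mp hint
  exact hy ▸ y.2

/-- `𝓞 L → A`. -/
noncomputable def lgenEmbA : 𝓞 L →+* A :=
  (lgenEmb L).codRestrict A.toSubring (lgenEmb_mem L A)

theorem lgenEmbA_coe (x : 𝓞 L) : ((lgenEmbA L A x : A) : AlgebraicClosure ℚ) = lgenEmb L x := rfl

/-- the residue map `𝓞 L → κ(A)`. -/
noncomputable def lgenRes : 𝓞 L →+* IsLocalRing.ResidueField A :=
  (IsLocalRing.residue A).comp (lgenEmbA L A)

/-- every integral element of `L` comes from `𝓞 L`. -/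
theorem lgen_exists_of_isIntegral (x : AlgebraicClosure ℚ) (hx : x ∈ L) (hint : IsIntegral ℤ x) :
    ∃ y : 𝓞 L, lgenEmb L y = x := by
  have h1 : IsIntegral ℤ (⟨x, hx⟩ : L) :=
    (isIntegral_algebraMap_iff (algebraMap L (AlgebraicClosure ℚ)).injective).1 hint
  exact ⟨⟨⟨x, hx⟩, h1⟩, rfl⟩

theorem lgen_natCast_eq_zero (q : ℕ) (hA : A.LiesOverPrime q) :
    ((q : ℕ) : IsLocalRing.ResidueField A) = 0 := by
  have h : ((q : ℕ) : A) ∈ IsLocalRing.maximalIdeal A := by
    rw [← ValuationSubring.coe_mem_nonunits_iff]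
    exact hA
  have h2 := (IsLocalRing.residue_eq_zero_iff ((q : ℕ) : A)).2 h
  rwa [map_natCast] at h2

theorem lgen_finite_range [NumberField L] (q : ℕ) (hq : q.Prime) (hA : A.LiesOverPrime q) :
    Finite (lgenRes L A).range := by
  let I : Ideal (𝓞 L) := Ideal.span {((q : ℕ) : 𝓞 L)}
  have hI : I ≠ ⊥ := by
    rw [Ne, Ideal.span_singleton_eq_bot]
    exact_mod_cast hq.ne_zero
  haveI : Finite (𝓞 L ⧸ I) := Ideal.finiteQuotientOfFreeOfNeBot I hI
  have hker : ∀ a ∈ I, lgenRes L A a = 0 := by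
    intro a ha
    obtain ⟨b, rfl⟩ := Ideal.mem_span_singleton'.1 ha
    rw [map_mul, map_natCast, lgen_natCast_eq_zero A q hA, mul_zero]
  let f : 𝓞 L ⧸ I →+* IsLocalRing.ResidueField A := Ideal.Quotient.lift I (lgenRes L A) hker
  have hrange : (lgenRes L A).range = f.range := by
    ext t
    constructor
    · rintro ⟨x, rfl⟩
      exact ⟨Ideal.Quotient.mk I x, rfl⟩
    · rintro ⟨y, rfl⟩
      obtain ⟨x, rfl⟩ := Ideal.Quotient.mk_surjective y
      exact ⟨x, rfl⟩
  rw [hrange]
  exact Finite.of_surjective f.rangeRestrict f.rangeRestrict_surjective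

end Emb

/-- powers of a Frobenius element act on the residue field as powers of `t ↦ t ^ q`. -/
theorem lgen_frob_pow_smul (A : ValuationSubring (AlgebraicClosure ℚ))
    (Φ : AlgebraicClosure ℚ ≃ₐ[ℚ] AlgebraicClosure ℚ) (q : ℕ) (h : A.IsFrobeniusAt Φ q)
    (n : ℕ) (t : IsLocalRing.ResidueField A) :
    ((⟨Φ, h.mem_decompositionSubgroup⟩ : A.decompositionSubgroup ℚ) ^ n) • t = t ^ (q ^ n) := by
  induction n generalizing t with
  | zero => rw [pow_zero, one_smul, pow_zero, pow_one]
  | succ n ih =>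
    rw [pow_succ, mul_smul, h.smul_residue_eq t, ih, ← pow_mul, pow_succ, mul_comm]

/-- **L-gen** from L-dec. -/
theorem stmtFrobGen_of (hdec : StmtDecFull) : StmtFrobGen := by
  classical
  intro q hq φ hφ V hV τ
  obtain ⟨F, hFfin, rfl⟩ := hV
  haveI := hFfin
  haveI : IsAlgClosure ℚ (AlgebraicClosure ℚ) :=
    ⟨inferInstance, AlgebraicClosure.isAlgebraic ℚ⟩
  haveI : Normal ℚ (AlgebraicClosure ℚ) := IsAlgClosure.normal ℚ (AlgebraicClosure ℚ)
  let L : QbarField := IntermediateField.normalClosure ℚ F (AlgebraicClosure ℚ)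
  haveI hLn : Normal ℚ L := normalClosure.normal ℚ F (AlgebraicClosure ℚ)
  haveI hLf : FiniteDimensional ℚ L :=
    normalClosure.is_finiteDimensional ℚ F (AlgebraicClosure ℚ)
  haveI : NumberField L := ⟨⟩
  have hFL : F ≤ L := IntermediateField.le_normalClosure F
  have hP : (padicPlace q).LiesOverPrime q := lfrobex_liesOverPrime q
  have hσ : localGaloisToGlobal q τ ∈ (padicPlace q).decompositionSubgroup ℚ :=
    localGaloisToGlobal_mem_decompositionSubgroup q τ
  have hΦfrob : (padicPlace q).IsFrobeniusAt (localGaloisToGlobal q φ) q := hφ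
  have hΦ : localGaloisToGlobal q φ ∈ (padicPlace q).decompositionSubgroup ℚ :=
    hΦfrob.mem_decompositionSubgroup
  -- the residue field
  haveI : CharP (IsLocalRing.ResidueField (padicPlace q)) q :=
    (CharP.charP_iff_prime_eq_zero hq.out).2 (lgen_natCast_eq_zero (padicPlace q) q hP)
  haveI : Finite (lgenRes L (padicPlace q)).range := lgen_finite_range L (padicPlace q) q hq.out hP
  let gσ : (padicPlace q).decompositionSubgroup ℚ := ⟨localGaloisToGlobal q τ, hσ⟩
  let gΦ : (padicPlace q).decompositionSubgroup ℚ := ⟨localGaloisToGlobal q φ, hΦ⟩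
  let s : IsLocalRing.ResidueField (padicPlace q) →+* IsLocalRing.ResidueField (padicPlace q) :=
    MulSemiringAction.toRingHom ((padicPlace q).decompositionSubgroup ℚ)
      (IsLocalRing.ResidueField (padicPlace q)) gσ
  have hs : ∀ t ∈ (lgenRes L (padicPlace q)).range, s t ∈ (lgenRes L (padicPlace q)).range := by
    rintro _ ⟨x, rfl⟩
    obtain ⟨y, hy⟩ := lgen_exists_of_isIntegral L (localGaloisToGlobal q τ (lgenEmb L x))
      (Fermat.Agent.Common.apply_mem_of_normal L _ (lgenEmb_mem_field L x))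
      ((lgenEmb_isIntegral L x).map (localGaloisToGlobal q τ).toAlgHom.toRingHom.toIntAlgHom)
    refine ⟨y, ?_⟩
    show IsLocalRing.residue (padicPlace q) (lgenEmbA L (padicPlace q) y) =
      gσ • IsLocalRing.residue (padicPlace q) (lgenEmbA L (padicPlace q) x)
    rw [← IsLocalRing.ResidueField.residue_smul]
    congr 1
    apply Subtype.ext
    exact hy
  obtain ⟨j, hj⟩ := lgen_frob_pow_on_finite_subring q (lgenRes L (padicPlace q)).range s hs
  -- `σ'' = Φ⁻ʲ σ` is congruent to the identity on the integers of `L`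
  have hcongr : ∀ x ∈ L, IsIntegral ℤ x →
      ((localGaloisToGlobal q φ ^ j)⁻¹ * localGaloisToGlobal q τ) x - x ∈
        (padicPlace q).nonunits := by
    intro x hx hint
    obtain ⟨y, rfl⟩ := lgen_exists_of_isIntegral L x hx hint
    have h1 : ((gΦ ^ j)⁻¹ * gσ) • lgenRes L (padicPlace q) y = lgenRes L (padicPlace q) y := by
      have h2 : gσ • lgenRes L (padicPlace q) y = lgenRes L (padicPlace q) y ^ (q ^ j) :=
        hj _ ⟨y, rfl⟩
      rw [mul_smul, h2, ← lgen_frob_pow_smul (padicPlace q) _ q hΦfrob j, inv_smul_smul]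
    have h3 : IsLocalRing.residue (padicPlace q)
        (((gΦ ^ j)⁻¹ * gσ) • lgenEmbA L (padicPlace q) y - lgenEmbA L (padicPlace q) y) = 0 := by
      rw [map_sub, IsLocalRing.ResidueField.residue_smul, sub_eq_zero]
      exact h1
    rw [IsLocalRing.residue_eq_zero_iff, ← ValuationSubring.coe_mem_nonunits_iff] at h3
    exact h3
  obtain ⟨i', hi'I, hi'⟩ := Fermat.Agent.Common.exists_mem_inertiaSubgroupIn_of_congr L q hq.out
    (padicPlace q) hP ((localGaloisToGlobal q φ ^ j)⁻¹ * localGaloisToGlobal q τ) hcongr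
  have hi'D : i' ∈ (padicPlace q).decompositionSubgroup ℚ := by
    obtain ⟨d, -, rfl⟩ := hi'I
    exact d.2
  obtain ⟨i, hi⟩ := hdec q i' hi'D
  refine ⟨j, i, (φ ^ j * i)⁻¹ * τ, ?_, ?_, ?_⟩
  · rw [mem_inertiaQ, hi]
    exact hi'I
  · rw [Subgroup.mem_comap, IntermediateField.mem_fixingSubgroup_iff]
    intro x hx
    have hxL : x ∈ L := hFL hx
    have h4 : localGaloisToGlobal q ((φ ^ j * i)⁻¹ * τ) =
        i'⁻¹ * ((localGaloisToGlobal q φ ^ j)⁻¹ * localGaloisToGlobal q τ) := by
      rw [map_mul, map_inv, map_mul, map_pow, hi, mul_inv_rev, mul_assoc]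
    rw [h4]
    show i'⁻¹ (((localGaloisToGlobal q φ ^ j)⁻¹ * localGaloisToGlobal q τ) x) = x
    rw [← hi' x hxL]
    exact i'.symm_apply_apply x
  · rw [mul_inv_cancel_left]

/-- **L-gen**. -/
theorem stmtFrobGen : StmtFrobGen := stmtFrobGen_of stmtDecFull

end Fermat.Agent.TW.L
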