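/-
TW-L / G-min (helper32): the local term at `v ∈ Smin ∖ p`:
`dim H¹_unr(G_v, ad⁰ ρ̄) ≤ h⁰(G_v, ad⁰ ρ̄)`.

Main results: `stmtAdMin_of : StmtUnrLe → StmtAdMin` and the unconditional
`stmtAdMin : StmtAdMin` (statements in `TW/L/Plan.lean`, `TW/L/Plan3.lean`).

Proof: L-min applied to `M = locRep q (ad0Rep p ρbar)`, which is finite (`gmin_finite`) and smooth
(G-smooth).
-/
import Mathlib
import Fermat.Agent.TW.L.Plan3
import Fermat.Agent.TW.L.AdSmooth
import Fermat.Agent.TW.L.FrobExistsFinal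
import Fermat.Agent.TW.L.FrobGen
import Fermat.Agent.TW.L.UnrFrob
import Fermat.Agent.TW.L.UnrLe

set_option autoImplicit false

namespace Fermat.Agent.TW.L

open CategoryTheory
open Fermat.Agent.PT Fermat.Agent.PT.B Fermat.Agent.TW.S

/-- `ad⁰ ρ̄` is a finite set when `k` is finite. -/
lemma gmin_finite (p : ℕ) [Fact p.Prime] {k : Type} [Field k] [CharP k p] [Finite k]
    (ρbar : ResidualGaloisRep k) : Finite (ad0Rep p ρbar).V := by
  have hfinE : Finite (Module.End k ρbar.V) := Module.finite_of_finite k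
  exact Finite.of_injective (ad0Val p ρbar) (ad0Val_injective p ρbar)

/-- `ad⁰ ρ̄` restricted to `G_{ℚ_q}` is finite-dimensional over `𝔽_p` when `k` is finite. -/
lemma gmin_finiteDimensional (p : ℕ) [Fact p.Prime] {k : Type} [Field k] [CharP k p] [Finite k]
    (ρbar : ResidualGaloisRep k) (q : ℕ) [Fact q.Prime] :
    FiniteDimensional (ZMod p) (locRep q (ad0Rep p ρbar)) := by
  have h : Finite (locRep q (ad0Rep p ρbar)).V := gmin_finite p ρbar
  exact Module.Finite.of_finite

/-- **G-min** from L-min. -/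
theorem stmtAdMin_of (hmin : StmtUnrLe) : StmtAdMin := by
  intro p _ k _ _ _ ρbar q _
  have := gmin_finiteDimensional p ρbar q
  exact hmin q p (locRep q (ad0Rep p ρbar)) (stmtAdSmooth p k ρbar q)

/-- **G-min**: `StmtAdMin`, unconditional. -/
theorem stmtAdMin : StmtAdMin :=
  stmtAdMin_of (stmtUnrLe_of stmtFrobExists stmtFrobGen (stmtUnrFrob_of stmtFrobGen))

end Fermat.Agent.TW.L
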