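/-
TW-L / G-ord (helper48): the local term at `p` in the ordinary case,
`dim L_p^{ord} ≤ f + h⁰(G_p, ad⁰)`.

`stmtAdOrd_of : StmtLOrd → StmtLKum → StmtAdSmooth → StmtAdOrd`.

Proof.  `N = ordSub = Hom(V̄/L̄, L̄) ⊆ A = ad⁰` is stable under `G_p`, which acts on it through the
cyclotomic character (strictness); `N ↪ k` (`x ↦` the coefficient of `x e₂` along `e₁`) and
`k ↪ (A/N)^{G_p}` (`a ↦ a·diag(1, -1)`), in a basis `e₁ ∈ L̄, e₂`.  Then `L-ord` applies, and
`ordH1 ⊆ imH1`.
-/
import Fermat.Agent.TW.L.Plan3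

set_option autoImplicit false
set_option linter.style.haveILetI false
set_option linter.unusedSectionVars false

noncomputable section

namespace Fermat.Agent.TW.L

open CategoryTheory groupCohomology Polynomial
open Fermat.Agent.PT Fermat.Agent.PT.B Fermat.Agent.TW.S ExtCitation

section gordLA

variable {k : Type} [Field k] {V : Type} [AddCommGroup V] [Module k V]

/-- a basis of a plane adapted to a line -/
theorem gord_exists_basis (hV : Module.finrank k V = 2) (L : Submodule k V)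
    (hL : Module.finrank k L = 1) :
    ∃ b : Module.Basis (Fin 2) k V, ∀ v : V, v ∈ L ↔ b.repr v 1 = 0 := by
  haveI : Module.Finite k V := Module.finite_of_finrank_eq_succ hV
  obtain ⟨w₀, hw₀, hspan⟩ := finrank_eq_one_iff'.mp hL
  have hw : (w₀ : V) ≠ 0 := fun h => hw₀ (Subtype.ext h)
  have hLtop : L ≠ ⊤ := by
    intro h
    rw [h, finrank_top, hV] at hL
    omega
  obtain ⟨e, he⟩ : ∃ e : V, e ∉ L := by
    by_contra hcon
    simp only [not_exists, not_not] at hcon
    exact hLtop (Submodule.eq_top_iff'.mpr hcon)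
  have hli : LinearIndependent k ![(w₀ : V), e] := by
    rw [LinearIndependent.pair_iff]
    intro s t hst
    have ht : t = 0 := by
      by_contra ht
      apply he
      have h1 : e = (-(t⁻¹ * s)) • (w₀ : V) := by
        have h2 : t • e = -(s • (w₀ : V)) := by
          rw [eq_neg_iff_add_eq_zero, add_comm]; exact hst
        have h3 : e = t⁻¹ • (t • e) := by rw [smul_smul, inv_mul_cancel₀ ht, one_smul]
        rw [h3, h2, smul_neg, smul_smul, neg_smul]
      rw [h1]
      exact L.smul_mem _ w₀.2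
    refine ⟨?_, ht⟩
    rw [ht, zero_smul, add_zero] at hst
    exact (smul_eq_zero.mp hst).resolve_right hw
  let b : Module.Basis (Fin 2) k V :=
    basisOfLinearIndependentOfCardEqFinrank hli (by simp [hV])
  have hb : ⇑b = ![(w₀ : V), e] := coe_basisOfLinearIndependentOfCardEqFinrank hli _
  have hb0 : b 0 = (w₀ : V) := by rw [hb]; rfl
  have hb1 : b 1 = e := by rw [hb]; rfl
  refine ⟨b, fun v => ⟨fun hv => ?_, fun hv => ?_⟩⟩
  · obtain ⟨c, hc⟩ := hspan ⟨v, hv⟩
    have h1 : v = c • b 0 := by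
      rw [hb0]
      exact (congrArg Subtype.val hc).symm
    rw [h1, map_smul, Module.Basis.repr_self]
    simp
  · have h1 := b.sum_repr v
    rw [Fin.sum_univ_two, hv, zero_smul, add_zero, hb0] at h1
    rw [← h1]
    exact L.smul_mem _ w₀.2

variable (b : Module.Basis (Fin 2) k V)

/-- `diag(1, -1)` -/
def gordH : Module.End k V := b.constr k ![b 0, -b 1]

lemma gordH_apply_zero : gordH b (b 0) = b 0 := by
  unfold gordH
  rw [Module.Basis.constr_basis]
  rfl

lemma gordH_apply_one : gordH b (b 1) = -b 1 := by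
  unfold gordH
  rw [Module.Basis.constr_basis]
  rfl

lemma gordH_repr_zero (v : V) : b.repr (gordH b v) 0 = b.repr v 0 := by
  conv_lhs => rw [← b.sum_repr v]
  rw [Fin.sum_univ_two, map_add, map_smul, map_smul, gordH_apply_zero, gordH_apply_one]
  simp

lemma gordH_repr_one (v : V) : b.repr (gordH b v) 1 = -b.repr v 1 := by
  conv_lhs => rw [← b.sum_repr v]
  rw [Fin.sum_univ_two, map_add, map_smul, map_smul, gordH_apply_zero, gordH_apply_one]
  simp

lemma gordH_trace : LinearMap.trace k V (gordH b) = 0 := by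
  rw [LinearMap.trace_eq_matrix_trace k b, Matrix.trace_fin_two, LinearMap.toMatrix_apply,
    LinearMap.toMatrix_apply, gordH_repr_zero, gordH_repr_one]
  simp

lemma gordH_eq_self {v : V} (hv : b.repr v 1 = 0) : gordH b v = v := by
  apply b.repr.injective
  ext i
  fin_cases i
  · exact gordH_repr_zero b v
  · show b.repr (gordH b v) 1 = b.repr v 1
    rw [gordH_repr_one, hv, neg_zero]

lemma gordH_add_self (v : V) : b.repr (gordH b v + v) 1 = 0 := by
  rw [map_add, Finsupp.add_apply, gordH_repr_one, neg_add_cancel]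

/-- an endomorphism with image in the line, killing the line, is determined by one coefficient -/
lemma gord_eq_zero_of_coeff (X : Module.End k V) (h1 : ∀ v, b.repr (X v) 1 = 0)
    (h2 : ∀ v, b.repr v 1 = 0 → X v = 0) (h3 : b.repr (X (b 1)) 0 = 0) : X = 0 := by
  apply b.ext
  intro i
  fin_cases i
  · show X (b 0) = (0 : Module.End k V) (b 0)
    rw [LinearMap.zero_apply]
    apply h2
    rw [Module.Basis.repr_self]
    simp
  · show X (b 1) = (0 : Module.End k V) (b 1)
    rw [LinearMap.zero_apply]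
    apply b.repr.injective
    ext i
    fin_cases i
    · simpa using h3
    · simpa using h1 (b 1)

end gordLA

section gordRep

variable (p : ℕ) [Fact p.Prime] {k : Type} [Field k] [CharP k p] (ρbar : ResidualGaloisRep k)
  (Lbar : Submodule k ρbar.V)

lemma gord_ad0Val_smul [Algebra (ZMod p) k] (a : ZMod p) (x : (ad0Rep p ρbar).V) :
    ad0Val p ρbar (a • x) = algebraMap (ZMod p) k a • ad0Val p ρbar x := by
  have ha : a • x = a.val • x := by
    conv_lhs => rw [← ZMod.natCast_zmod_val a]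
    exact Nat.cast_smul_eq_nsmul (ZMod p) a.val x
  have hb : algebraMap (ZMod p) k a = ((a.val : ℕ) : k) := by
    conv_lhs => rw [← ZMod.natCast_zmod_val a]
    rw [map_natCast]
  rw [ha, hb, map_nsmul, Nat.cast_smul_eq_nsmul]

lemma gord_loc_mem (τ : GQq p) :
    localGaloisToGlobal p τ ∈ (padicPlace p).decompositionSubgroup ℚ :=
  localGaloisToGlobal_mem_decompositionSubgroup p τ

lemma gord_val_locρ (τ : GQq p) (x : (ad0Rep p ρbar).V) (v : ρbar.V) :
    ad0Val p ρbar ((locRep p (ad0Rep p ρbar)).ρ τ x) v =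
      ρbar.ρ (localGaloisToGlobal p τ)
        (ad0Val p ρbar x (ρbar.ρ (localGaloisToGlobal p τ)⁻¹ v)) := rfl

lemma gord_rho_rho_inv (σ : GQ) (v : ρbar.V) : ρbar.ρ σ (ρbar.ρ σ⁻¹ v) = v := by
  show (ρbar.ρ σ * ρbar.ρ σ⁻¹) v = v
  rw [rho_mul_inv]
  rfl

/-- `N = ordSub` is stable under `G_p` -/
lemma gord_le_comap
    (hD : ∀ σ ∈ (padicPlace p).decompositionSubgroup ℚ, ∀ v ∈ Lbar, ρbar.ρ σ v ∈ Lbar)
    (τ : GQq p) :
    ordSub p ρbar Lbar ≤ (ordSub p ρbar Lbar).comap ((locRep p (ad0Rep p ρbar)).ρ τ) := by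
  intro x hx
  rw [Submodule.mem_comap, mem_ordSub]
  obtain ⟨h1, h2⟩ := (mem_ordSub p ρbar Lbar x).1 hx
  have hσ := gord_loc_mem p τ
  have hσ' : (localGaloisToGlobal p τ)⁻¹ ∈ (padicPlace p).decompositionSubgroup ℚ :=
    Subgroup.inv_mem _ hσ
  refine ⟨fun v => ?_, fun v hv => ?_⟩
  · rw [gord_val_locρ]
    exact hD _ hσ _ (h1 _)
  · rw [gord_val_locρ, h2 _ (hD _ hσ' v hv), map_zero]

/-- `G_p` acts on `N` through the cyclotomic character -/
lemma gord_cyc [Algebra (ZMod p) k] (hS : IsStrictOrdLine p ρbar Lbar) (τ : GQq p)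
    (x : (ad0Rep p ρbar).V) (hx : x ∈ ordSub p ρbar Lbar) :
    (locRep p (ad0Rep p ρbar)).ρ τ x =
      ((cycloChar p (localGaloisToGlobal p τ) : (ZMod p)ˣ) : ZMod p) • x := by
  apply ad0Val_injective p ρbar
  rw [gord_ad0Val_smul]
  obtain ⟨h1, h2⟩ := (mem_ordSub p ρbar Lbar x).1 hx
  obtain ⟨a, z, ha, hz, haz⟩ := hS.2 _ (gord_loc_mem p τ)
  ext v
  rw [gord_val_locρ, LinearMap.smul_apply]
  have h3 : ad0Val p ρbar x v =
      z • ad0Val p ρbar x (ρbar.ρ (localGaloisToGlobal p τ)⁻¹ v) := by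
    have h4 := h2 _ (hz (ρbar.ρ (localGaloisToGlobal p τ)⁻¹ v))
    rw [gord_rho_rho_inv, map_sub, map_smul, sub_eq_zero] at h4
    exact h4
  rw [ha _ (h1 _), h3, haz, smul_smul]

variable (b : Module.Basis (Fin 2) k ρbar.V)

/-- the coefficient map `N → k` -/
def gordC : ↥(ordSub p ρbar Lbar) →+ k :=
  AddMonoidHom.mk' (fun x => b.repr (ad0Val p ρbar (x : (ad0Rep p ρbar).V) (b 1)) 0) (by
    intro x y
    simp only [Submodule.coe_add, map_add, LinearMap.add_apply, Finsupp.add_apply])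

lemma gordC_injective (hbL : ∀ v, v ∈ Lbar ↔ b.repr v 1 = 0) :
    Function.Injective (gordC p ρbar Lbar b) := by
  rw [injective_iff_map_eq_zero]
  intro x hx
  apply Subtype.ext
  apply ad0Val_injective p ρbar
  obtain ⟨h1, h2⟩ := (mem_ordSub p ρbar Lbar x).1 x.2
  have := gord_eq_zero_of_coeff b _ (fun v => (hbL _).1 (h1 v))
    (fun v hv => h2 v ((hbL v).2 hv)) hx
  rw [this]
  exact (map_zero (ad0Val p ρbar)).symm

/-- `a ↦ a · diag(1, -1)` -/
def gordT : k →+ (ad0Rep p ρbar).V :=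
  AddMonoidHom.mk' (fun a => (Ad0.mk p ρbar (a • gordH b)
      (by rw [map_smul, gordH_trace, smul_zero]) : (ad0Rep p ρbar).V)) (by
    intro a a'
    apply ad0Val_injective p ρbar
    refine Eq.trans ?_ (map_add (ad0Val p ρbar) _ _).symm
    exact add_smul a a' (gordH b))

lemma ad0Val_gordT (a : k) : ad0Val p ρbar (gordT p ρbar b a) = a • gordH b := rfl

lemma gordT_sub_mem
    (hD : ∀ σ ∈ (padicPlace p).decompositionSubgroup ℚ, ∀ v ∈ Lbar, ρbar.ρ σ v ∈ Lbar)
    (hbL : ∀ v, v ∈ Lbar ↔ b.repr v 1 = 0) (a : k) (τ : GQq p) :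
    (locRep p (ad0Rep p ρbar)).ρ τ (gordT p ρbar b a) - gordT p ρbar b a ∈
      ordSub p ρbar Lbar := by
  rw [mem_ordSub]
  have hσ := gord_loc_mem p τ
  have hσ' : (localGaloisToGlobal p τ)⁻¹ ∈ (padicPlace p).decompositionSubgroup ℚ :=
    Subgroup.inv_mem _ hσ
  refine ⟨fun v => ?_, fun v hv => ?_⟩
  · rw [map_sub, LinearMap.sub_apply, gord_val_locρ, ad0Val_gordT, LinearMap.smul_apply,
      LinearMap.smul_apply, map_smul, ← smul_sub]
    apply Lbar.smul_mem
    have e : ρbar.ρ (localGaloisToGlobal p τ)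
          (gordH b (ρbar.ρ (localGaloisToGlobal p τ)⁻¹ v)) - gordH b v =
        ρbar.ρ (localGaloisToGlobal p τ) (gordH b (ρbar.ρ (localGaloisToGlobal p τ)⁻¹ v) +
          ρbar.ρ (localGaloisToGlobal p τ)⁻¹ v) - (gordH b v + v) := by
      rw [map_add, gord_rho_rho_inv]
      abel
    rw [e]
    exact Lbar.sub_mem (hD _ hσ _ ((hbL _).2 (gordH_add_self b _)))
      ((hbL _).2 (gordH_add_self b v))
  · rw [map_sub, LinearMap.sub_apply, gord_val_locρ, ad0Val_gordT, LinearMap.smul_apply,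
      LinearMap.smul_apply, map_smul, ← smul_sub]
    have hu' : ρbar.ρ (localGaloisToGlobal p τ)⁻¹ v ∈ Lbar := hD _ hσ' v hv
    rw [gordH_eq_self b ((hbL _).1 hu'), gord_rho_rho_inv, gordH_eq_self b ((hbL _).1 hv),
      sub_self, smul_zero]

lemma gordT_mem_iff (hbL : ∀ v, v ∈ Lbar ↔ b.repr v 1 = 0) (a : k)
    (h : gordT p ρbar b a ∈ ordSub p ρbar Lbar) : a = 0 := by
  obtain ⟨-, h2⟩ := (mem_ordSub p ρbar Lbar _).1 h
  have h3 := h2 (b 0) ((hbL _).2 (by rw [Module.Basis.repr_self]; simp))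
  rw [ad0Val_gordT, LinearMap.smul_apply, gordH_apply_zero] at h3
  exact (smul_eq_zero.mp h3).resolve_right (b.ne_zero 0)

end gordRep

section gordGen

variable {k : Type} [CommRing k] {G : Type} [Group G] (𝒯 : Tower G) (A : Rep.{0} k G)
  (W : Submodule k A.V) (hstab : ∀ g, W ≤ W.comap (A.ρ g))

/-- the class of a level cocycle with values in a subrepresentation comes from its `H¹_lev` -/
lemma gord_im_of_values (c : cocycles₁ A) (hlev : IsLevel₁ 𝒯 (c : G → A.V))
    (hval : ∀ g, (c : G → A.V) g ∈ W) :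
    (H1π A).hom c ∈ imH1 𝒯 (Rep.subtype A W hstab) := by
  let c' : G → (Rep.subrepresentation A W hstab).V := fun τ => ⟨(c : G → _) τ, hval τ⟩
  have hc' : c' ∈ cocycles₁ (Rep.subrepresentation A W hstab) := by
    rw [mem_cocycles₁_iff]
    intro g h
    apply Subtype.ext
    exact (mem_cocycles₁_iff (c : G → _)).1 c.2 g h
  have hlev' : IsLevel₁ 𝒯 c' := by
    obtain ⟨U, hU, h⟩ := hlev
    exact ⟨U, hU, fun g s hs => Subtype.ext (h g s hs)⟩
  unfold imH1
  rw [Submodule.mem_map]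
  refine ⟨(H1π _).hom ⟨c', hc'⟩, (mem_levH1_iff _ _ _).2 ⟨⟨c', hc'⟩, hlev', rfl⟩, ?_⟩
  have h1 := H1π_comp_map_apply (A := Rep.subrepresentation A W hstab) (B := A)
    (MonoidHom.id G) (Rep.subtype A W hstab) ⟨c', hc'⟩
  refine h1.trans ?_
  congr 1

end gordGen

section gordFinal

variable (p : ℕ) [Fact p.Prime] {k : Type} [Field k] [CharP k p] (ρbar : ResidualGaloisRep k)
  (Lbar : Submodule k ρbar.V)

lemma gord_finite_ad0 [Finite k] : Finite (ad0Rep p ρbar).V := by
  haveI : Finite ρbar.V := Module.finite_of_finite k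
  haveI : Finite (Module.End k ρbar.V) := DFunLike.finite _
  exact inferInstanceAs (Finite ↥(ad0Sub ρbar))

lemma gord_ordH1_le
    (hstab : ∀ τ : GQq p,
      ordSub p ρbar Lbar ≤ (ordSub p ρbar Lbar).comap ((locRep p (ad0Rep p ρbar)).ρ τ)) :
    ordH1 p ρbar Lbar p ≤ imH1 (towerLoc p)
      (Rep.subtype (locRep p (ad0Rep p ρbar)) (ordSub p ρbar Lbar) hstab) := by
  intro x hx
  obtain ⟨c, hlev, hval, rfl⟩ := (mem_ordH1 p ρbar Lbar p x).1 hx
  exact gord_im_of_values (towerLoc p) (locRep p (ad0Rep p ρbar)) (ordSub p ρbar Lbar) hstab c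
    hlev hval

end gordFinal

/-- **G-ord** from `L-ord`, `L-kum` and `G-smooth`. -/
theorem stmtAdOrd_of (hord : StmtLOrd) (hkum : StmtLKum) (hsm : StmtAdSmooth) : StmtAdOrd := by
  intro p _ hp2 k _ _ _ _ ρbar Lbar hS
  obtain ⟨b, hbL⟩ := gord_exists_basis ρbar.finrank_eq Lbar hS.1.1
  have hD := hS.1.2.1
  have hstab := gord_le_comap p ρbar Lbar hD
  haveI : Finite (ad0Rep p ρbar).V := gord_finite_ad0 p ρbar
  haveI : Module.Finite (ZMod p) (locRep p (ad0Rep p ρbar)).V :=
    inferInstanceAs (Module.Finite (ZMod p) (ad0Rep p ρbar).V)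
  haveI : Module.Finite (ZMod p)
      (Rep.subrepresentation (locRep p (ad0Rep p ρbar)) (ordSub p ρbar Lbar) hstab).V :=
    inferInstanceAs (Module.Finite (ZMod p) ↥(ordSub p ρbar Lbar))
  haveI : Module.Finite (ZMod p) k := Module.Finite.of_finite
  have hi : Function.Injective
      (Rep.subtype (locRep p (ad0Rep p ρbar)) (ordSub p ρbar Lbar) hstab).hom :=
    Subtype.val_injective
  have hπ : Function.Surjective
      (Rep.mkQ (locRep p (ad0Rep p ρbar)) (ordSub p ρbar Lbar) hstab).hom :=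
    (ordSub p ρbar Lbar).mkQ_surjective
  have hex : ∀ a : (locRep p (ad0Rep p ρbar)).V,
      (Rep.mkQ (locRep p (ad0Rep p ρbar)) (ordSub p ρbar Lbar) hstab).hom a = 0 ↔
        ∃ n : (Rep.subrepresentation (locRep p (ad0Rep p ρbar)) (ordSub p ρbar Lbar) hstab).V,
          (Rep.subtype (locRep p (ad0Rep p ρbar)) (ordSub p ρbar Lbar) hstab).hom n = a := by
    intro a
    show (ordSub p ρbar Lbar).mkQ a = 0 ↔ _
    rw [Submodule.mkQ_apply, Submodule.Quotient.mk_eq_zero]
    exact ⟨fun h => ⟨⟨a, h⟩, rfl⟩, fun ⟨n, hn⟩ => hn ▸ n.2⟩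
  have hcyc : ∀ (τ : GQq p)
      (m : (Rep.subrepresentation (locRep p (ad0Rep p ρbar)) (ordSub p ρbar Lbar) hstab).V),
      (Rep.subrepresentation (locRep p (ad0Rep p ρbar)) (ordSub p ρbar Lbar) hstab).ρ τ m =
        ((cycloChar p (localGaloisToGlobal p τ) : (ZMod p)ˣ) : ZMod p) • m := by
    intro τ m
    apply Subtype.ext
    exact gord_cyc p ρbar Lbar hS τ m.1 m.2
  have hNk : Module.finrank (ZMod p)
      (Rep.subrepresentation (locRep p (ad0Rep p ρbar)) (ordSub p ρbar Lbar) hstab).V ≤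
        Module.finrank (ZMod p) k :=
    LinearMap.finrank_le_finrank_of_injective
      (f := AddMonoidHom.toZModLinearMap p (gordC p ρbar Lbar b))
      (gordC_injective p ρbar Lbar b hbL)
  have hinv : ∀ a : k, (ordSub p ρbar Lbar).mkQ (gordT p ρbar b a) ∈
      (Rep.quotient (locRep p (ad0Rep p ρbar)) (ordSub p ρbar Lbar) hstab).ρ.invariants := by
    intro a τ
    show (ordSub p ρbar Lbar).mkQ ((locRep p (ad0Rep p ρbar)).ρ τ (gordT p ρbar b a)) =
      (ordSub p ρbar Lbar).mkQ (gordT p ρbar b a)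
    rw [Submodule.mkQ_apply, Submodule.mkQ_apply, Submodule.Quotient.eq]
    exact gordT_sub_mem p ρbar Lbar b hD hbL a τ
  have hkB : Module.finrank (ZMod p) k ≤ Module.finrank (ZMod p)
      (Rep.quotient (locRep p (ad0Rep p ρbar)) (ordSub p ρbar Lbar) hstab).ρ.invariants := by
    let T : k →+ ↥((Rep.quotient (locRep p (ad0Rep p ρbar))
        (ordSub p ρbar Lbar) hstab).ρ.invariants) :=
      AddMonoidHom.mk' (fun a => ⟨(ordSub p ρbar Lbar).mkQ (gordT p ρbar b a), hinv a⟩) (by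
        intro a a'
        apply Subtype.ext
        show (ordSub p ρbar Lbar).mkQ (gordT p ρbar b (a + a')) =
          (ordSub p ρbar Lbar).mkQ (gordT p ρbar b a) +
            (ordSub p ρbar Lbar).mkQ (gordT p ρbar b a')
        rw [map_add, map_add])
    have hT : Function.Injective T := by
      rw [injective_iff_map_eq_zero]
      intro a ha
      have h1 : (ordSub p ρbar Lbar).mkQ (gordT p ρbar b a) = 0 :=
        congrArg Subtype.val ha
      rw [Submodule.mkQ_apply, Submodule.Quotient.mk_eq_zero] at h1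
      exact gordT_mem_iff p ρbar Lbar b hbL a h1
    exact LinearMap.finrank_le_finrank_of_injective
      (f := AddMonoidHom.toZModLinearMap p T) hT
  obtain ⟨hfin, -⟩ := hkum p hp2 _ hcyc
  have h1 := hord p hp2 _ _ _ _ _ hi hπ hex (hsm p k ρbar p) hcyc (hNk.trans hkB)
  have hle := gord_ordH1_le p ρbar Lbar hstab
  haveI : Module.Finite (ZMod p) (imH1 (towerLoc p)
      (Rep.subtype (locRep p (ad0Rep p ρbar)) (ordSub p ρbar Lbar) hstab)) := by
    unfold imH1
    exact Module.Finite.map _ _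
  haveI hfo : Module.Finite (ZMod p) (ordH1 p ρbar Lbar p) :=
    Module.Finite.of_injective (Submodule.inclusion hle) (Submodule.inclusion_injective hle)
  refine ⟨hfo, ?_⟩
  have h2 := Submodule.finrank_mono hle
  omega

end Fermat.Agent.TW.L

end
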