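/-
TW-L / G-unr (helper32): `ad⁰ ρ̄` is unramified at `q` if `ρ̄` is.

Main result: `stmtAdUnram : StmtAdUnram` (statement in `TW/L/Plan3.lean`), unconditional.

Proof: `inertiaQ q = r⁻¹(I_P)` for `P = padicPlace q`, which lies over `q`
(`lfrobex_liesOverPrime`); so `ρ̄(r τ) = 1` for `τ ∈ inertiaQ q` and conjugation by it is trivial.
-/
import Mathlib
import Fermat.Agent.TW.L.Plan3
import Fermat.Agent.TW.L.FrobExists

set_option autoImplicit false

namespace Fermat.Agent.TW.L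

open CategoryTheory
open Fermat.Agent.PT Fermat.Agent.PT.B Fermat.Agent.TW.S

/-- `ρ̄` is trivial on the image of `inertiaQ q` if it is unramified at `q`. -/
lemma gunr_rho_eq_one {k : Type} [Field k] (ρbar : ResidualGaloisRep k) (q : ℕ) [Fact q.Prime]
    (h : ρbar.IsUnramifiedAt q) (τ : GQq q) (hτ : τ ∈ inertiaQ q) :
    ρbar.ρ (localGaloisToGlobal q τ) = 1 :=
  h (padicPlace q) (lfrobex_liesOverPrime q) _ ((mem_inertiaQ q τ).mp hτ)

/-- **G-unr**: `StmtAdUnram`. -/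
theorem stmtAdUnram : StmtAdUnram := by
  intro p _ k _ _ ρbar q _ h τ hτ
  have h1 : ρbar.ρ (localGaloisToGlobal q τ) = 1 := gunr_rho_eq_one ρbar q h τ hτ
  have h2 : ρbar.ρ (localGaloisToGlobal q τ)⁻¹ = 1 := by
    rw [← map_inv]
    exact gunr_rho_eq_one ρbar q h τ⁻¹ (inv_mem hτ)
  apply LinearMap.ext
  intro x
  apply ad0Val_injective p ρbar
  change ad0Val p ρbar ((ad0Rep p ρbar).ρ (localGaloisToGlobal q τ) x) = ad0Val p ρbar x
  rw [ad0Val_ρ, h1, h2, one_mul, mul_one]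

end Fermat.Agent.TW.L
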