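/-
TW-L / L-tame, part A: the algebra of tame inertia at finite level.

`R` a Dedekind domain, `P` a nonzero prime, `G` a finite group acting faithfully on `R`.
* `ltame_wild_eq_one` : an element of order prime to the residue characteristic that acts
  trivially on all `P^M / P^(M+1)` acts trivially (Krull intersection);
* `ltame_exists_theta` : the tame character `θ : I_P → (R ⧸ P)ˣ`, `σ π ≡ θ(σ) π mod P²`;
* `ltame_abstract` : the abstract form of the tame-inertia statement.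
-/
import Mathlib

set_option autoImplicit false
set_option linter.style.haveILetI false

namespace Fermat.Agent.TW.L

section TameAlg

variable {R : Type*} [CommRing R] {G : Type*} [Group G] [MulSemiringAction G R] (P : Ideal R)

/-- `σ` acts trivially modulo `P`. -/
def LtameInert (σ : G) : Prop := ∀ x : R, σ • x - x ∈ P

/-- `σ` acts trivially on `P^M / P^(M+1)` for all `M`. -/
def LtameWild (σ : G) : Prop := ∀ M : ℕ, ∀ x ∈ P ^ M, σ • x - x ∈ P ^ (M + 1)

/-- `σ π ≡ π d` modulo `P²`. -/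
def LtameTheta (π : R) (σ : G) (d : R) : Prop := σ • π - π * d ∈ P ^ 2

variable {P}

theorem ltame_smul_mem_pow (σ : G) (h : ∀ x ∈ P, σ • x ∈ P) (M : ℕ) :
    ∀ x ∈ P ^ M, σ • x ∈ P ^ M := by
  induction M with
  | zero => intro x _; simp
  | succ M ih =>
    intro y hy
    rw [pow_succ] at hy ⊢
    refine Submodule.mul_induction_on hy ?_ ?_
    · intro a ha b hb
      rw [smul_mul']
      exact Ideal.mul_mem_mul (ih a ha) (h b hb)
    · intro x y hx hy
      rw [smul_add]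
      exact Ideal.add_mem _ hx hy

theorem ltame_inert_smul_mem {σ : G} (h : LtameInert P σ) : ∀ x ∈ P, σ • x ∈ P := by
  intro x hx
  have h2 : σ • x = (σ • x - x) + x := by ring
  rw [h2]
  exact Ideal.add_mem _ (h x) hx

theorem ltame_inert_one : LtameInert P (1 : G) := by
  intro x
  simp

theorem ltame_inert_mul {σ τ : G} (hσ : LtameInert P σ) (hτ : LtameInert P τ) :
    LtameInert P (σ * τ) := by
  intro x
  have e : (σ * τ) • x - x = (σ • (τ • x) - τ • x) + (τ • x - x) := by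
    rw [mul_smul]; ring
  rw [e]
  exact Ideal.add_mem _ (hσ _) (hτ _)

theorem ltame_inert_inv {σ : G} (hσ : LtameInert P σ) : LtameInert P σ⁻¹ := by
  intro x
  have h := hσ (σ⁻¹ • x)
  rw [smul_inv_smul] at h
  have e : σ⁻¹ • x - x = -(x - σ⁻¹ • x) := by ring
  rw [e]
  exact Ideal.neg_mem_iff _ |>.mpr h

theorem ltame_wild_of {σ : G} (h0 : LtameInert P σ) (h1 : ∀ a ∈ P, σ • a - a ∈ P ^ 2) :
    LtameWild P σ := by
  intro M
  induction M with
  | zero => intro x _; simpa using h0 x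
  | succ M ih =>
    intro y hy
    rw [pow_succ] at hy
    refine Submodule.mul_induction_on hy ?_ ?_
    · intro a ha b hb
      have e : σ • (a * b) - a * b = σ • a * (σ • b - b) + (σ • a - a) * b := by
        rw [smul_mul']; ring
      rw [e]
      have ha' : σ • a ∈ P ^ M := ltame_smul_mem_pow σ (ltame_inert_smul_mem h0) M a ha
      refine Ideal.add_mem _ ?_ ?_
      · have := Ideal.mul_mem_mul ha' (h1 b hb)
        rwa [← pow_add] at this
      · have := Ideal.mul_mem_mul (ih a ha) hb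
        rwa [← pow_succ] at this
    · intro x y hx hy
      have e : σ • (x + y) - (x + y) = (σ • x - x) + (σ • y - y) := by
        rw [smul_add]; ring
      rw [e]; exact Ideal.add_mem _ hx hy

theorem ltame_wild_inert {σ : G} (h : LtameWild P σ) : LtameInert P σ := by
  intro x
  have := h 0 x (by simp)
  simpa using this

theorem ltame_wild_smul_mem {σ : G} (h : LtameWild P σ) (M : ℕ) (x : R) (hx : x ∈ P ^ M) :
    σ • x ∈ P ^ M := by
  have h2 : σ • x = (σ • x - x) + x := by ring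
  rw [h2]
  exact Ideal.add_mem _ (Ideal.pow_le_pow_right (Nat.le_succ M) (h M x hx)) hx

theorem ltame_wild_one : LtameWild P (1 : G) := by
  intro M x _
  simp

theorem ltame_wild_mul {σ τ : G} (hσ : LtameWild P σ) (hτ : LtameWild P τ) :
    LtameWild P (σ * τ) := by
  intro M x hx
  have e : (σ * τ) • x - x = (σ • (τ • x) - τ • x) + (τ • x - x) := by
    rw [mul_smul]; ring
  rw [e]
  exact Ideal.add_mem _ (hσ M _ (ltame_wild_smul_mem hτ M x hx)) (hτ M x hx)

theorem ltame_wild_pow {σ : G} (hσ : LtameWild P σ) (k : ℕ) : LtameWild P (σ ^ k) := by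
  induction k with
  | zero => rw [pow_zero]; exact ltame_wild_one
  | succ k ih => rw [pow_succ]; exact ltame_wild_mul ih hσ

/-- an element invertible modulo `P` is a nonzerodivisor modulo every power of `P` -/
theorem ltame_mem_pow_of_mul_mem {n m : R} (hnm : n * m - 1 ∈ P) (N : ℕ) (d : R)
    (h : n * d ∈ P ^ N) : d ∈ P ^ N := by
  have key : ∀ j : ℕ, j ≤ N → d ∈ P ^ j := by
    intro j
    induction j with
    | zero => intro _; simp
    | succ j ih =>
      intro hj
      have hd : d ∈ P ^ j := ih (Nat.le_of_succ_le hj)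
      have e : d = (n * d) * m - d * (n * m - 1) := by ring
      rw [e]
      refine Ideal.sub_mem _ ?_ ?_
      · exact Ideal.mul_mem_right _ _ (Ideal.pow_le_pow_right hj h)
      · have := Ideal.mul_mem_mul hd hnm
        rwa [← pow_succ] at this
  exact key N le_rfl

/-- **A1.** A wild element of order invertible modulo `P` acts trivially. -/
theorem ltame_wild_eq_one [IsNoetherianRing R] [IsDomain R] (hP : P ≠ ⊤) {σ : G}
    (h : LtameWild P σ) (n : ℕ) (hσ : σ ^ n = 1) (hn : ∃ m : R, (n : R) * m - 1 ∈ P) :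
    ∀ x : R, σ • x = x := by
  obtain ⟨m, hm⟩ := hn
  have key : ∀ N : ℕ, ∀ x : R, σ • x - x ∈ P ^ N := by
    intro N
    induction N with
    | zero => intro x; simp
    | succ N ih =>
      intro x
      have hd := ih x
      have hk : ∀ k : ℕ, σ ^ k • x - x - (k : R) * (σ • x - x) ∈ P ^ (N + 1) := by
        intro k
        induction k with
        | zero => simp
        | succ k ihk =>
          have e : σ ^ (k + 1) • x - x - ((k + 1 : ℕ) : R) * (σ • x - x) =
              (σ ^ k • x - x - (k : R) * (σ • x - x)) +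
                (σ ^ k • (σ • x - x) - (σ • x - x)) := by
            rw [pow_succ, mul_smul, smul_sub]
            push_cast
            ring
          rw [e]
          exact Ideal.add_mem _ ihk (ltame_wild_pow h k N _ hd)
      have h1 := hk n
      rw [hσ, one_smul, sub_self, zero_sub, neg_mem_iff] at h1
      exact ltame_mem_pow_of_mul_mem hm (N + 1) _ h1
  intro x
  have h2 : σ • x - x ∈ ⨅ i : ℕ, P ^ i := by
    rw [Ideal.mem_iInf]
    exact fun i => key i x
  rw [Ideal.iInf_pow_eq_bot_of_isDomain P hP, Ideal.mem_bot] at h2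
  exact sub_eq_zero.mp h2

/-! ### The tame character -/

theorem ltame_theta_one (π : R) : LtameTheta P π (1 : G) 1 := by
  unfold LtameTheta
  simp

theorem ltame_theta_congr {π : R} (hπ : π ∈ P) {σ : G} {d d' : R}
    (h : LtameTheta P π σ d) (hd : d - d' ∈ P) : LtameTheta P π σ d' := by
  unfold LtameTheta at h ⊢
  have e : σ • π - π * d' = (σ • π - π * d) + π * (d - d') := by ring
  rw [e]
  refine Ideal.add_mem _ h ?_
  have := Ideal.mul_mem_mul hπ hd
  rwa [← pow_two] at this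

theorem ltame_theta_mul {π : R} (hπ : π ∈ P) {σ τ : G} {d d' : R} (hσ : LtameInert P σ)
    (h : LtameTheta P π σ d) (h' : LtameTheta P π τ d') : LtameTheta P π (σ * τ) (d * d') := by
  unfold LtameTheta at h h' ⊢
  have e : (σ * τ) • π - π * (d * d') =
      σ • (τ • π - π * d') + (σ • π - π * d) * (σ • d') + π * (σ • d' - d') * d := by
    rw [mul_smul, smul_sub, smul_mul']; ring
  rw [e]
  refine Ideal.add_mem _ (Ideal.add_mem _ ?_ ?_) ?_
  · exact ltame_smul_mem_pow σ (ltame_inert_smul_mem hσ) 2 _ h'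
  · exact Ideal.mul_mem_right _ _ h
  · refine Ideal.mul_mem_right _ _ ?_
    have := Ideal.mul_mem_mul hπ (hσ d')
    rwa [← pow_two] at this

theorem ltame_theta_exists [IsDedekindDomain R] [P.IsPrime] (hP : P ≠ ⊥) {π : R} (hπ : π ∈ P)
    (hπ2 : π ∉ P ^ 2) {c : R} (hc : c ∈ P) : ∃ d : R, c - π * d ∈ P ^ 2 := by
  obtain ⟨d, e, he, hde⟩ := Ideal.exists_mul_add_mem_pow_succ (i := 1) hP π c
    (by simpa using hπ) hπ2 (by simpa using hc)
  refine ⟨d, ?_⟩
  rw [← hde]
  simpa using he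

theorem ltame_theta_unique [IsDedekindDomain R] [P.IsPrime] (hP : P ≠ ⊥) {π : R}
    (hπ2 : π ∉ P ^ 2) {σ : G} {d d' : R}
    (h : LtameTheta P π σ d) (h' : LtameTheta P π σ d') : d - d' ∈ P := by
  unfold LtameTheta at h h'
  have h2 : π * (d - d') ∈ P ^ (1 + 1) := by
    have e : π * (d - d') = (σ • π - π * d') - (σ • π - π * d) := by ring
    rw [e]
    exact Ideal.sub_mem _ h' h
  exact Ideal.mem_prime_of_mul_mem_pow hP hπ2 h2

/-- if `σ π ≡ π` modulo `P²` then `σ` is wild -/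
theorem ltame_wild_of_theta_one [IsDedekindDomain R] [P.IsPrime] (hP : P ≠ ⊥) {π : R}
    (hπ : π ∈ P) (hπ2 : π ∉ P ^ 2) {σ : G} (hσ : LtameInert P σ) (h : LtameTheta P π σ 1) :
    LtameWild P σ := by
  refine ltame_wild_of hσ ?_
  intro a ha
  obtain ⟨c, hc⟩ := ltame_theta_exists hP hπ hπ2 ha
  unfold LtameTheta at h
  rw [mul_one] at h
  have e : σ • a - a = (σ • (a - π * c) - (a - π * c)) + (σ • π - π) * (σ • c)
      + π * (σ • c - c) := by
    rw [smul_sub, smul_mul']; ring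
  rw [e]
  refine Ideal.add_mem _ (Ideal.add_mem _ (Ideal.sub_mem _ ?_ hc) ?_) ?_
  · exact ltame_smul_mem_pow σ (ltame_inert_smul_mem hσ) 2 _ hc
  · exact Ideal.mul_mem_right _ _ h
  · have := Ideal.mul_mem_mul hπ (hσ c)
    rwa [← pow_two] at this

/-- conjugating by a Frobenius raises the tame character to the `q`-th power -/
theorem ltame_theta_frob [IsDedekindDomain R] [P.IsPrime] (hP : P ≠ ⊥) {π : R}
    (hπ : π ∈ P) (hπ2 : π ∉ P ^ 2) {σ : G} (hσ : LtameInert P σ) {d : R}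
    (h : LtameTheta P π σ d) (q : ℕ) (hq : q ≠ 0) (φ : G) (hφ : ∀ x : R, φ • x - x ^ q ∈ P) :
    LtameTheta P π (φ * σ * φ⁻¹) (d ^ q) := by
  have hφP : ∀ x ∈ P, φ • x ∈ P := by
    intro x hx
    have h2 : φ • x = (φ • x - x ^ q) + x ^ q := by ring
    rw [h2]
    exact Ideal.add_mem _ (hφ x) (Ideal.pow_mem_of_mem _ hx q (Nat.pos_of_ne_zero hq))
  have hπ' : φ⁻¹ • π ∈ P := by
    have h1 := hφ (φ⁻¹ • π)
    rw [smul_inv_smul] at h1
    have h2 : (φ⁻¹ • π) ^ q ∈ P := by
      have e : (φ⁻¹ • π) ^ q = π - (π - (φ⁻¹ • π) ^ q) := by ring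
      rw [e]
      exact Ideal.sub_mem _ hπ h1
    exact Ideal.IsPrime.mem_of_pow_mem inferInstance q h2
  obtain ⟨c, hc⟩ := ltame_theta_exists hP hπ hπ2 hπ'
  unfold LtameTheta at h ⊢
  -- `σ π' ≡ π' d`
  have h3 : σ • (φ⁻¹ • π) - (φ⁻¹ • π) * d ∈ P ^ 2 := by
    have e : σ • (φ⁻¹ • π) - (φ⁻¹ • π) * d =
        (σ • (φ⁻¹ • π - π * c) - (φ⁻¹ • π - π * c) * d) + (σ • π - π * d) * (σ • c)
          + π * (σ • c - c) * d := by
      rw [smul_sub, smul_mul']; ring
    rw [e]
    refine Ideal.add_mem _ (Ideal.add_mem _ (Ideal.sub_mem _ ?_ ?_) ?_) ?_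
    · exact ltame_smul_mem_pow σ (ltame_inert_smul_mem hσ) 2 _ hc
    · exact Ideal.mul_mem_right _ _ hc
    · exact Ideal.mul_mem_right _ _ h
    · refine Ideal.mul_mem_right _ _ ?_
      have := Ideal.mul_mem_mul hπ (hσ c)
      rwa [← pow_two] at this
  have e : (φ * σ * φ⁻¹) • π - π * d ^ q =
      φ • (σ • (φ⁻¹ • π) - (φ⁻¹ • π) * d) + π * (φ • d - d ^ q) := by
    rw [mul_smul, mul_smul, smul_sub, smul_mul', smul_inv_smul]; ring
  rw [e]
  refine Ideal.add_mem _ ?_ ?_
  · exact ltame_smul_mem_pow φ hφP 2 _ h3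
  · have := Ideal.mul_mem_mul hπ (hφ d)
    rwa [← pow_two] at this

variable (P) (G)

/-- the inertia subgroup at `P` -/
def ltameInertia : Subgroup G where
  carrier := {σ | LtameInert P σ}
  mul_mem' := fun ha hb => ltame_inert_mul ha hb
  one_mem' := ltame_inert_one
  inv_mem' := fun ha => ltame_inert_inv ha

variable {P} {G}

theorem ltame_mem_inertia {σ : G} : σ ∈ ltameInertia G P ↔ LtameInert P σ := Iff.rfl

/-- **A2.** The tame character. -/
theorem ltame_exists_theta [IsDedekindDomain R] [P.IsPrime] (hP : P ≠ ⊥) {π : R}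
    (hπ : π ∈ P) (hπ2 : π ∉ P ^ 2) :
    ∃ θ : ltameInertia G P →* (R ⧸ P)ˣ, ∀ σ : ltameInertia G P, ∃ d : R,
      LtameTheta P π (σ : G) d ∧ ((θ σ : (R ⧸ P)ˣ) : R ⧸ P) = Ideal.Quotient.mk P d := by
  classical
  have hex : ∀ σ : ltameInertia G P, ∃ d : R, LtameTheta P π (σ : G) d := by
    intro σ
    exact ltame_theta_exists hP hπ hπ2 (ltame_inert_smul_mem σ.2 π hπ)
  choose f hf using hex
  let θ₀ : ltameInertia G P →* R ⧸ P :=
    { toFun := fun σ => Ideal.Quotient.mk P (f σ)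
      map_one' := by
        rw [← map_one (Ideal.Quotient.mk P), Ideal.Quotient.eq]
        exact ltame_theta_unique hP hπ2 (hf 1) (ltame_theta_one π)
      map_mul' := by
        intro σ τ
        rw [← map_mul (Ideal.Quotient.mk P), Ideal.Quotient.eq]
        exact ltame_theta_unique hP hπ2 (hf (σ * τ)) (ltame_theta_mul hπ σ.2 (hf σ) (hf τ)) }
  refine ⟨θ₀.toHomUnits, fun σ => ⟨f σ, hf σ, ?_⟩⟩
  rfl

/-- an integer prime to `q ∈ P` is invertible modulo `P` -/
theorem ltame_exists_inv_of_coprime {q : ℕ} (hqP : (q : R) ∈ P) {n : ℕ} (hn : Nat.Coprime n q) :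
    ∃ m : R, (n : R) * m - 1 ∈ P := by
  have h1 : IsCoprime (n : ℤ) (q : ℤ) := Nat.isCoprime_iff_coprime.mpr hn
  obtain ⟨a, b, hab⟩ := h1
  refine ⟨(a : R), ?_⟩
  have h2 : ((a * n + b * q : ℤ) : R) = 1 := by rw [hab]; simp
  push_cast at h2
  have e : (n : R) * (a : R) - 1 = -((b : R) * (q : R)) := by
    rw [← h2]; ring
  rw [e]
  exact Ideal.neg_mem_iff _ |>.mpr (Ideal.mul_mem_left _ _ hqP)

/-- elements of the kernel of the tame character have `q`-power order -/
theorem ltame_wild_pow_eq_one [IsNoetherianRing R] [IsDomain R] [Finite G] (hP : P ≠ ⊤)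
    (hfaith : ∀ σ : G, (∀ x : R, σ • x = x) → σ = 1) {q : ℕ} (hq : q.Prime)
    (hqP : (q : R) ∈ P) {σ : G} (h : LtameWild P σ) : ∃ m : ℕ, σ ^ (q ^ m) = 1 := by
  have hN : orderOf σ ≠ 0 := (orderOf_pos σ).ne'
  obtain ⟨m, n', hn', hN'⟩ := Nat.exists_eq_pow_mul_and_not_dvd hN q hq.ne_one
  refine ⟨m, hfaith _ ?_⟩
  refine ltame_wild_eq_one hP (ltame_wild_pow h (q ^ m)) n' ?_ ?_
  · rw [← pow_mul, ← hN', pow_orderOf_eq_one]
  · exact ltame_exists_inv_of_coprime hqP ((Nat.Prime.coprime_iff_not_dvd hq).mpr hn').symm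

/-- **Abstract tame inertia.** -/
theorem ltame_abstract [IsDedekindDomain R] [P.IsPrime] (hP : P ≠ ⊥) [Finite G]
    (hfaith : ∀ σ : G, (∀ x : R, σ • x = x) → σ = 1) {q : ℕ} (hq : q.Prime)
    (hqP : (q : R) ∈ P) {J : Type*} [Group J] (ρ : J →* G) (hρ : ∀ y, LtameInert P (ρ y)) :
    ∃ t : J, ∀ (p : ℕ), p.Prime → q ≠ p → ∀ (A : Type) [Group A] (h : J →* A),
      (∀ a : A, a ^ p = 1) → (∀ y, ρ y = 1 → h y = 1) →
      (∀ x, ∃ n : ℕ, h x = h t ^ n) ∧
      ∀ (t' : J) (φ : G), (∀ x : R, φ • x - x ^ q ∈ P) → ρ t' = φ * ρ t * φ⁻¹ →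
        h t' = h t ^ q := by
  classical
  have hPtop : P ≠ ⊤ := Ideal.IsPrime.ne_top inferInstance
  -- a uniformiser
  obtain ⟨π, hπ1, hπ2⟩ := SetLike.exists_of_lt (Ideal.pow_succ_lt_pow hP 1)
  rw [pow_one] at hπ1
  have hπ2' : π ∉ P ^ 2 := hπ2
  obtain ⟨θ, hθ⟩ := ltame_exists_theta (G := G) hP hπ1 hπ2'
  let ρ' : J →* ltameInertia G P := ρ.codRestrict (ltameInertia G P) hρ
  let Θ : J →* (R ⧸ P)ˣ := θ.comp ρ'
  -- the kernel of `Θ` consists of wild elements
  have hker : ∀ y : J, Θ y = 1 → LtameWild P (ρ y) := by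
    intro y hy
    obtain ⟨d, hd, hd'⟩ := hθ (ρ' y)
    have h1 : Ideal.Quotient.mk P d = Ideal.Quotient.mk P 1 := by
      rw [← hd', map_one]
      have : θ (ρ' y) = 1 := hy
      rw [this]; rfl
    rw [Ideal.Quotient.eq] at h1
    exact ltame_wild_of_theta_one hP hπ1 hπ2' (hρ y) (ltame_theta_congr hπ1 hd h1)
  -- the range of `Θ` is finite cyclic
  haveI : Finite (ltameInertia G P) := inferInstance
  haveI : Finite θ.range := Set.finite_range θ
  have hle : Θ.range ≤ θ.range := by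
    rintro _ ⟨y, rfl⟩
    exact ⟨ρ' y, rfl⟩
  haveI : Finite Θ.range := Finite.of_injective (Subgroup.inclusion hle)
    (Subgroup.inclusion_injective hle)
  obtain ⟨⟨g, ⟨t, rfl⟩⟩, hg⟩ := (isCyclic_subgroup_units Θ.range).exists_generator
  have hgen : ∀ x : J, ∃ n : ℕ, Θ x = Θ t ^ n := by
    intro x
    have h1 := hg ⟨Θ x, ⟨x, rfl⟩⟩
    have h2 : IsOfFinOrder (⟨Θ t, ⟨t, rfl⟩⟩ : Θ.range) := isOfFinOrder_of_finite _
    rw [← h2.mem_powers_iff_mem_zpowers] at h1
    obtain ⟨n, hn⟩ := h1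
    refine ⟨n, ?_⟩
    have := congrArg (fun z : Θ.range => (z : (R ⧸ P)ˣ)) hn
    simpa using this.symm
  refine ⟨t, ?_⟩
  intro p hp hqp A _ h hA hh
  -- the key: `h` kills the kernel of `Θ`
  have hK : ∀ y : J, Θ y = 1 → h y = 1 := by
    intro y hy
    obtain ⟨m, hm⟩ := ltame_wild_pow_eq_one hPtop hfaith hq hqP (hker y hy)
    have h1 : h y ^ (q ^ m) = 1 := by
      rw [← map_pow]
      exact hh _ (by rw [map_pow, hm])
    have h2 := pow_gcd_eq_one.mpr ⟨h1, hA (h y)⟩
    have h3 : Nat.gcd (q ^ m) p = 1 :=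
      Nat.Coprime.pow_left m ((Nat.coprime_primes hq hp).mpr hqp)
    rwa [h3, pow_one] at h2
  have hK' : ∀ (x : J) (n : ℕ), Θ x = Θ t ^ n → h x = h t ^ n := by
    intro x n hx
    have h1 : h (x * (t ^ n)⁻¹) = 1 := by
      apply hK
      rw [map_mul, map_inv, map_pow, hx, mul_inv_cancel]
    rw [map_mul, map_inv, map_pow, mul_inv_eq_one] at h1
    exact h1
  refine ⟨fun x => ?_, fun t' φ hφ ht' => ?_⟩
  · obtain ⟨n, hn⟩ := hgen x
    exact ⟨n, hK' x n hn⟩
  · apply hK'
    obtain ⟨d, hd, hd'⟩ := hθ (ρ' t)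
    obtain ⟨d', hd2, hd2'⟩ := hθ (ρ' t')
    have h1 : LtameTheta P π (ρ t') (d ^ q) := by
      rw [ht']
      exact ltame_theta_frob hP hπ1 hπ2' (hρ t) hd q hq.ne_zero φ hφ
    have h2 : d' - d ^ q ∈ P := ltame_theta_unique hP hπ2' hd2 h1
    apply Units.ext
    rw [Units.val_pow_eq_pow_val]
    show ((θ (ρ' t') : (R ⧸ P)ˣ) : R ⧸ P) = ((θ (ρ' t) : (R ⧸ P)ˣ) : R ⧸ P) ^ q
    rw [hd', hd2', ← map_pow, Ideal.Quotient.eq]
    exact h2

end TameAlg

end Fermat.Agent.TW.L
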