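/-
TW-L / L-tame (helper48): tame inertia is pro-cyclic modulo every level, and Frobenius acts on it
through the `q`-th power.  `stmtTameGrp : StmtTameGrp`, `stmtTame : StmtTame`.

Proof.  Let `F'` be the normal closure of the field `F` defining the level, `P` the prime of
`𝓞 F'` below `padicPlace q`.  Restriction maps inertia into the inertia group of `P` in
`Gal(F'/ℚ)`; the tame character `θ : I_P → (𝓞 F'/P)ˣ` has cyclic image and a kernel made of
elements of `q`-power order (`TameAlg.lean`), which die in every group of exponent `p ≠ q`.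
-/
import Fermat.Agent.TW.L.Plan2
import Fermat.Agent.TW.L.TameAlg
import Fermat.Agent.TW.L.FrobExists
import Fermat.Agent.Cheb.Glue
import Fermat.Agent.PT.B.NormalClosure

set_option autoImplicit false
set_option linter.style.haveILetI false

open NumberField

namespace Fermat.Agent.TW.L

open Fermat.Agent.PT Fermat.Agent.PT.B Fermat.Agent.Cheb

section Finite

variable (F : IntermediateField ℚ (AlgebraicClosure ℚ))
  (A : ValuationSubring (AlgebraicClosure ℚ))

/-- the ring of integers of `F` maps to `A` -/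
noncomputable def ltameToA : 𝓞 F →+* A := (intEmb F).codRestrict A (intEmb_mem F A)

/-- the prime of `𝓞 F` below `A` -/
noncomputable def ltamePrime : Ideal (𝓞 F) :=
  Ideal.comap (ltameToA F A) (IsLocalRing.maximalIdeal A)

theorem ltame_mem_prime (x : 𝓞 F) : x ∈ ltamePrime F A ↔ intEmb F x ∈ A.nonunits := by
  unfold ltamePrime
  rw [Ideal.mem_comap, ← ValuationSubring.coe_mem_nonunits_iff]
  rfl

instance ltamePrime_isPrime : (ltamePrime F A).IsPrime := by
  unfold ltamePrime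
  exact Ideal.comap_isPrime _ _

theorem ltame_natCast_mem {q : ℕ} (hA : A.LiesOverPrime q) : ((q : ℕ) : 𝓞 F) ∈ ltamePrime F A := by
  rw [ltame_mem_prime, map_natCast]
  exact hA

theorem ltame_prime_ne_bot {q : ℕ} (hq : q.Prime) (hA : A.LiesOverPrime q) :
    ltamePrime F A ≠ ⊥ := by
  intro h
  have h1 := ltame_natCast_mem F A hA
  rw [h, Ideal.mem_bot] at h1
  exact hq.ne_zero (by exact_mod_cast h1)

end Finite

section Global

/-- **Tame inertia, global form.** -/
theorem ltame_global {q : ℕ} (hq : q.Prime) (A : ValuationSubring (AlgebraicClosure ℚ))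
    (hA : A.LiesOverPrime q) (F : IntermediateField ℚ (AlgebraicClosure ℚ))
    [FiniteDimensional ℚ F] {J : Type*} [Group J]
    (r : J →* (AlgebraicClosure ℚ ≃ₐ[ℚ] AlgebraicClosure ℚ))
    (hr : ∀ y, r y ∈ A.inertiaSubgroupIn ℚ) :
    ∃ t : J, ∀ (p : ℕ), p.Prime → q ≠ p → ∀ (B : Type) [Group B] (h : J →* B),
      (∀ a : B, a ^ p = 1) → (∀ y, r y ∈ F.fixingSubgroup → h y = 1) →
      (∀ x, ∃ n : ℕ, h x = h t ^ n) ∧
      ∀ (t' : J) (φ : AlgebraicClosure ℚ ≃ₐ[ℚ] AlgebraicClosure ℚ), A.IsFrobeniusAt φ q →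
        r t' = φ * r t * φ⁻¹ → h t' = h t ^ q := by
  classical
  haveI : IsAlgClosure ℚ (AlgebraicClosure ℚ) := ⟨inferInstance, AlgebraicClosure.isAlgebraic ℚ⟩
  haveI : Normal ℚ (AlgebraicClosure ℚ) := IsAlgClosure.normal ℚ (AlgebraicClosure ℚ)
  -- the normal closure
  let F' : IntermediateField ℚ (AlgebraicClosure ℚ) :=
    IntermediateField.normalClosure ℚ F (AlgebraicClosure ℚ)
  have hFF' : F ≤ F' := IntermediateField.le_normalClosure F
  haveI : Normal ℚ F' := normalClosure.normal ℚ F (AlgebraicClosure ℚ)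
  haveI : FiniteDimensional ℚ F' := normalClosure.is_finiteDimensional ℚ F (AlgebraicClosure ℚ)
  haveI : NumberField F' := ⟨⟩
  haveI : IsGalois ℚ F' := ⟨⟩
  haveI : Finite (F' ≃ₐ[ℚ] F') := inferInstance
  let P : Ideal (𝓞 F') := ltamePrime F' A
  have hP0 : P ≠ ⊥ := ltame_prime_ne_bot F' A hq hA
  have hqP : ((q : ℕ) : 𝓞 F') ∈ P := ltame_natCast_mem F' A hA
  have hfaith : ∀ σ : F' ≃ₐ[ℚ] F', (∀ x : 𝓞 F', σ • x = x) → σ = 1 := by
    intro σ hσ
    apply algEquiv_eq_of_toAlgHom_eq F'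
    ext x
    have := hσ x
    simpa using congrArg (fun z : 𝓞 F' => (z : F')) this
  let ρ : J →* (F' ≃ₐ[ℚ] F') := (AlgEquiv.restrictNormalHom F').comp r
  have hcomm : ∀ (g : AlgebraicClosure ℚ ≃ₐ[ℚ] AlgebraicClosure ℚ) (x : 𝓞 F'),
      intEmb F' ((AlgEquiv.restrictNormalHom F' g) • x) = g (intEmb F' x) := by
    intro g x
    exact AlgEquiv.restrictNormal_commutes g F' (x : F')
  have hρ : ∀ y, LtameInert P (ρ y) := by
    intro y x
    have e : intEmb F' (ρ y • x) = (r y) (intEmb F' x) := hcomm (r y) x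
    rw [ltame_mem_prime, map_sub, e]
    exact ((mem_inertiaSubgroupIn_iff A (r y)).mp (hr y)).2 _ (intEmb_mem F' A x)
  obtain ⟨t, ht⟩ := ltame_abstract (P := P) hP0 hfaith hq hqP ρ hρ
  refine ⟨t, fun p hp hqp B _ h hB hh => ?_⟩
  have hh' : ∀ y, ρ y = 1 → h y = 1 := by
    intro y hy
    apply hh
    rw [IntermediateField.mem_fixingSubgroup_iff]
    intro x hx
    have h1 := AlgEquiv.restrictNormal_commutes (r y) F' ⟨x, hFF' hx⟩
    have h2 : (r y).restrictNormal F' = 1 := hy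
    rw [h2] at h1
    exact h1.symm
  obtain ⟨h1, h2⟩ := ht p hp hqp B h hB hh'
  refine ⟨h1, fun t' φ hφ ht' => ?_⟩
  refine h2 t' (AlgEquiv.restrictNormalHom F' φ) ?_ ?_
  · intro x
    rw [ltame_mem_prime, map_sub, hcomm, map_pow]
    exact sub_pow_mem_nonunits_of_isFrobeniusAt A φ q hφ _ (intEmb_mem F' A x)
  · show AlgEquiv.restrictNormalHom F' (r t') = _
    rw [ht', map_mul, map_mul, map_inv]
    rfl

end Global

/-- **L-tame, group form.** -/
theorem stmtTameGrp : StmtTameGrp := by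
  intro q p hq hp hqp V hV
  obtain ⟨F, hF, rfl⟩ := hV
  haveI := hF
  let r : ↥(inertiaQ q) →* (AlgebraicClosure ℚ ≃ₐ[ℚ] AlgebraicClosure ℚ) :=
    (localGaloisToGlobal q).comp (inertiaQ q).subtype
  have hr : ∀ y, r y ∈ (padicPlace q).inertiaSubgroupIn ℚ := fun y => y.2
  obtain ⟨t, ht⟩ := ltame_global hq.out (padicPlace q) (lfrobex_liesOverPrime q) F r hr
  refine ⟨t, fun B _ h hB hh => ?_⟩
  obtain ⟨h1, h2⟩ := ht p hp.out hqp B h hB (fun y hy => hh y hy)
  refine ⟨h1, fun φ hφ hmem => ?_⟩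
  refine h2 ⟨φ * (t : GQq q) * φ⁻¹, hmem⟩ (localGaloisToGlobal q φ) hφ ?_
  show localGaloisToGlobal q (φ * (t : GQq q) * φ⁻¹) = _
  rw [map_mul, map_mul, map_inv]
  rfl

/-- **L-tame.** -/
theorem stmtTame : StmtTame := stmtTame_of_grp stmtTameGrp

end Fermat.Agent.TW.L
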