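/-
TW-L / G-tw (helper32): the local term at a Taylor–Wiles prime `q ≡ 1 mod p` (`ρ̄` unramified at
`q`, Frobenius with distinct eigenvalues):
`dim H¹_lev(G_q, ad⁰ ρ̄) ≤ h⁰(G_q, ad⁰ ρ̄) + f`, `f = [k : 𝔽_p]`.

Main results: `stmtAdTw_of : StmtLTw → StmtAdInvLe → StmtAdTw` and the unconditional
`stmtAdTw : StmtAdTw` (statements in `TW/L/Plan.lean`, `TW/L/Plan3.lean`).

Proof: L-tw gives `dim H¹_lev ≤ 2 h⁰` for the finite smooth unramified module `ad⁰ ρ̄`
(G-smooth, G-unr), and `h⁰ ≤ f` by G-h0.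
-/
import Mathlib
import Fermat.Agent.TW.L.Plan3
import Fermat.Agent.TW.L.AdSmooth
import Fermat.Agent.TW.L.AdUnram
import Fermat.Agent.TW.L.AdInvLe
import Fermat.Agent.TW.L.AdMin
import Fermat.Agent.TW.L.Tame
import Fermat.Agent.TW.L.LTw

set_option autoImplicit false

namespace Fermat.Agent.TW.L

open CategoryTheory
open Fermat.Agent.PT Fermat.Agent.PT.B Fermat.Agent.TW.S

/-- **G-tw** from L-tw and G-h0. -/
theorem stmtAdTw_of (htw : StmtLTw) (hh0 : StmtAdInvLe) : StmtAdTw := by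
  intro p _ k _ _ _ _ ρbar q _ hq1 hunr hdist
  have := gmin_finiteDimensional p ρbar q
  obtain ⟨h1, h2⟩ := htw q p hq1 (locRep q (ad0Rep p ρbar)) (stmtAdSmooth p k ρbar q)
    (stmtAdUnram p k ρbar q hunr)
  refine ⟨h1, h2.trans ?_⟩
  have h3 := hh0 p k ρbar q hdist
  omega

/-- **G-tw**: `StmtAdTw`, unconditional. -/
theorem stmtAdTw : StmtAdTw :=
  stmtAdTw_of
    (stmtLTw_of stmtTame
      (stmtUnrLe_of stmtFrobExists stmtFrobGen (stmtUnrFrob_of stmtFrobGen)) stmtFrobGen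
      stmtFrobExists)
    stmtAdInvLe

end Fermat.Agent.TW.L
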