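/-
TW-L / L-glob0 (helper44): `h⁰(G_ℚ, ad⁰ ρ̄) = 0` — a trace-zero endomorphism commuting with an
absolutely irreducible two-dimensional `ρ̄` vanishes when `2 ≠ 0` (Schur over `k̄`).
-/
import Fermat.Agent.TW.L.Plan
import Mathlib.LinearAlgebra.Eigenspace.Triangularizable
import Mathlib.RingTheory.Flat.FaithfullyFlat.Basic
import Mathlib.LinearAlgebra.Trace

set_option autoImplicit false

noncomputable section

namespace Fermat.Agent.TW.L

open TensorProduct

/-- Schur's lemma in the form we need: over an algebraically closed field, an endomorphism of a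
nonzero finite-dimensional space commuting with a family of endomorphisms having no nontrivial
common stable subspace is a scalar. -/
theorem lglob0_schur {K : Type*} [Field K] [IsAlgClosed K] {W : Type*} [AddCommGroup W]
    [Module K W] [FiniteDimensional K W] [Nontrivial W] {ι : Type*} (r : ι → Module.End K W)
    (hirr : ∀ U : Submodule K W, (∀ i, ∀ x ∈ U, r i x ∈ U) → U = ⊥ ∨ U = ⊤)
    (Y : Module.End K W) (hY : ∀ i, r i * Y = Y * r i) :
    ∃ c : K, Y = c • (1 : Module.End K W) := by
  obtain ⟨c, hc⟩ := Module.End.exists_eigenvalue Y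
  refine ⟨c, ?_⟩
  have hstab : ∀ i, ∀ x ∈ Module.End.eigenspace Y c, r i x ∈ Module.End.eigenspace Y c := by
    intro i x hx
    rw [Module.End.mem_eigenspace_iff] at hx ⊢
    have h1 : Y (r i x) = r i (Y x) := by
      have := congrArg (fun f : Module.End K W => f x) (hY i)
      simpa [Module.End.mul_apply] using this.symm
    rw [h1, hx, map_smul]
  rcases hirr _ hstab with h | h
  · exact absurd h hc
  · ext x
    have hx : x ∈ Module.End.eigenspace Y c := h ▸ Submodule.mem_top
    rw [Module.End.mem_eigenspace_iff] at hx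
    simp [hx]

/-- **L-glob0**. -/
theorem stmtGlobAd : StmtGlobAd := by
  intro k _ ρbar h2 hirr X hcomm htr
  let K := AlgebraicClosure k
  let W := (ρbar.baseChange K).V
  haveI : Nontrivial W := by
    apply Module.nontrivial_of_finrank_pos (R := K)
    rw [(ρbar.baseChange K).finrank_eq]; norm_num
  have hY : ∀ σ, (ρbar.baseChange K).ρ σ * X.baseChange K = X.baseChange K * (ρbar.baseChange K).ρ σ := by
    intro σ
    show (ρbar.ρ σ).baseChange K * X.baseChange K = X.baseChange K * (ρbar.ρ σ).baseChange K
    rw [← LinearMap.baseChange_mul, ← LinearMap.baseChange_mul, hcomm σ]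
  obtain ⟨c, hc⟩ := lglob0_schur (K := K) (W := W) (fun σ => (ρbar.baseChange K).ρ σ)
    (fun U hU => hirr U hU) (X.baseChange K) hY
  -- trace
  have htr' : LinearMap.trace K W (X.baseChange K) = 0 := by
    rw [LinearMap.trace_baseChange, htr, map_zero]
  have hc0 : c = 0 := by
    rw [hc, map_smul, LinearMap.trace_one, (ρbar.baseChange K).finrank_eq] at htr'
    have h2K : ((2 : ℕ) : K) ≠ 0 := by
      have : ((2 : ℕ) : K) = algebraMap k K 2 := by
        rw [map_ofNat]; norm_num
      rw [this]
      exact (map_ne_zero_iff _ (algebraMap k K).injective).mpr h2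
    rw [smul_eq_mul] at htr'
    rcases mul_eq_zero.mp htr' with h | h
    · exact h
    · exact absurd h h2K
  have hX0 : X.baseChange K = 0 := by rw [hc, hc0, zero_smul]
  ext v
  have h1 : (1 : K) ⊗ₜ[k] (X v) = 0 := by
    have := LinearMap.congr_fun hX0 ((1 : K) ⊗ₜ[k] v)
    rw [LinearMap.baseChange_tmul] at this
    exact this
  exact (Module.FaithfullyFlat.one_tmul_eq_zero_iff k (ρbar.V) (A := K) (X v)).mp h1

end Fermat.Agent.TW.L

end
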