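/-
TW-L, piece L-kum (helper30): Kummer theory for `G_{ℚ_p}`.

If `G_{ℚ_p}` acts on the finite `𝔽_p`-module `M` through the mod `p` cyclotomic character, then
`dim H¹_lev(G_p, M) ≤ 2 dim M`.

Route: in coordinates a level cocycle is a family of level functions `g : G_p → 𝔽_p` with
`g (σ τ) = g σ + χ̄(σ) g τ`; `σ ↦ z ^ g(σ)` is a multiplicative cocycle of a finite Galois level
`K'/ℚ_p`, Hilbert 90 gives `β` with `σ β = z ^ g(σ) β`, and `β ^ p ∈ ℚ_pˣ`; the class of `β ^ p`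
modulo `p`-th powers determines `g` up to a coboundary.
-/
import Fermat.Agent.TW.L.Plan
import Fermat.Agent.PT.B.LocLevelField
import Fermat.Agent.PT.B.CycloField

set_option autoImplicit false

noncomputable section

namespace Fermat.Agent.TW.L

open CategoryTheory groupCohomology
open Fermat.Agent.PT Fermat.Agent.PT.B ExtCitation

/-- the mod `p` cyclotomic character of `G_{ℚ_p}`, with values in `𝔽_p` -/
def lkumChi (p : ℕ) [Fact p.Prime] (τ : GQq p) : ZMod p :=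
  ((cycloChar p (localGaloisToGlobal p τ) : (ZMod p)ˣ) : ZMod p)

theorem lkumChi_mul (p : ℕ) [Fact p.Prime] (σ τ : GQq p) :
    lkumChi p (σ * τ) = lkumChi p σ * lkumChi p τ := by
  simp only [lkumChi, map_mul, Units.val_mul]

/-- a primitive `p`-th root of unity of `ℚ̄_p` on which `G_{ℚ_p}` acts through `χ̄` -/
theorem lkum_exists_root (p : ℕ) [Fact p.Prime] :
    ∃ z : PadicAlgCl p, IsPrimitiveRoot z p ∧
      ∀ τ : GQq p, τ z = z ^ (lkumChi p τ).val := by
  have : NeZero p := ⟨(Fact.out : p.Prime).ne_zero⟩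
  obtain ⟨ζ, hζ⟩ := cycloField_exists_primitiveRoot p
  refine ⟨padicEmbedding p ζ, hζ.map_of_injective (padicEmbedding p).toRingHom.injective,
    fun τ => ?_⟩
  rw [← padicEmbedding_localGaloisToGlobal, ← map_pow]
  congr 1
  have h := modularCyclotomicCharacter.spec (AlgebraicClosure ℚ) (card_rootsOfUnity_eq_self p)
    ((localGaloisToGlobal p τ : AlgebraicClosure ℚ ≃ₐ[ℚ] AlgebraicClosure ℚ) :
      AlgebraicClosure ℚ ≃+* AlgebraicClosure ℚ)
    (t := hζ.toRootsOfUnity) (SetLike.coe_mem hζ.toRootsOfUnity)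
  simpa [lkumChi, cycloChar] using h

/-- powers of a `p`-th root of unity only depend on the exponent in `𝔽_p` -/
theorem lkum_pow_congr {R : Type*} [Monoid R] (p : ℕ) {z : R} (hz : z ^ p = 1) {a b : ℕ}
    (h : (a : ZMod p) = (b : ZMod p)) : z ^ a = z ^ b :=
  pow_eq_pow_of_modEq ((ZMod.natCast_eq_natCast_iff a b p).1 h) hz

theorem lkum_pow_val {R : Type*} [Monoid R] (p : ℕ) [NeZero p] {z : R} (hz : z ^ p = 1)
    (x : ZMod p) {a : ℕ} (h : (a : ZMod p) = x) : z ^ a = z ^ x.val :=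
  lkum_pow_congr p hz (by rw [h, ZMod.natCast_zmod_val])

/-- Hilbert 90 for `μ_p`-valued cocycles, in exponent form. -/
theorem lkum_h90 {K L : Type*} [Field K] [Field L] [Algebra K L] [FiniteDimensional K L]
    (p : ℕ) [NeZero p] (z : L) (hz0 : z ≠ 0) (hzp : z ^ p = 1)
    (χ g : (L ≃ₐ[K] L) → ZMod p)
    (hact : ∀ γ : L ≃ₐ[K] L, γ z = z ^ (χ γ).val)
    (hcoc : ∀ γ δ : L ≃ₐ[K] L, g (γ * δ) = g γ + χ γ * g δ) :
    ∃ β : L, β ≠ 0 ∧ ∀ γ : L ≃ₐ[K] L, γ β = z ^ (g γ).val * β := by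
  let z' : Lˣ := Units.mk0 z hz0
  have hz'p : z' ^ p = 1 := by
    apply Units.ext
    simpa [z'] using hzp
  have hz'act : ∀ γ : L ≃ₐ[K] L, γ • z' = z' ^ (χ γ).val := by
    intro γ
    apply Units.ext
    simp only [AlgEquiv.smul_units_def, Units.coe_map, MonoidHom.coe_coe, Units.val_pow_eq_pow_val,
      z', Units.val_mk0]
    exact hact γ
  let f' : (L ≃ₐ[K] L) → Lˣ := fun γ => z' ^ (g γ).val
  have hf' : IsMulCocycle₁ f' := by
    intro γ δ
    show z' ^ (g (γ * δ)).val = γ • (z' ^ (g δ).val) * z' ^ (g γ).val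
    rw [smul_pow', hz'act γ, ← pow_mul, ← pow_add]
    refine (lkum_pow_val p hz'p _ ?_).symm
    rw [hcoc]
    push_cast
    rw [ZMod.natCast_zmod_val, ZMod.natCast_zmod_val, ZMod.natCast_zmod_val]
    ring
  obtain ⟨β', hβ'⟩ := isMulCoboundary₁_of_isMulCocycle₁_of_aut_to_units f' hf'
  refine ⟨(β' : L), β'.ne_zero, fun γ => ?_⟩
  have h1 := hβ' γ
  have h2 : γ • β' = f' γ * β' := by rw [← h1, div_mul_cancel]
  have := congrArg (fun u : Lˣ => (u : L)) h2
  simpa [AlgEquiv.smul_units_def, f', z'] using this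

/-- **Kummer generator** of a level `χ̄`-cocycle (Hilbert 90 at a finite level). -/
theorem lkum_exists_beta (p : ℕ) [Fact p.Prime] (z : PadicAlgCl p) (hz : IsPrimitiveRoot z p)
    (hact : ∀ τ : GQq p, τ z = z ^ (lkumChi p τ).val)
    (g : GQq p → ZMod p) (hcoc : ∀ σ τ, g (σ * τ) = g σ + lkumChi p σ * g τ)
    (hlev : IsLevel₁ (towerLoc p) g) :
    ∃ (β : PadicAlgCl p) (b : ℚ_[p]ˣ), β ≠ 0 ∧ (∀ σ : GQq p, σ β = z ^ (g σ).val * β) ∧
      algebraMap ℚ_[p] (PadicAlgCl p) b = β ^ p := by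
  have : NeZero p := ⟨(Fact.out : p.Prime).ne_zero⟩
  have hzp : z ^ p = 1 := hz.pow_eq_one
  obtain ⟨V₀, hV₀, hg⟩ := hlev
  have hV₁ : (cycloField p).fixingSubgroup.comap (localGaloisToGlobal p) ∈ (towerLoc p).lev :=
    ⟨cycloField p, inferInstance, rfl⟩
  obtain ⟨V, hV, hVle, hVn⟩ := (towerLoc p).exists_normal _ ((towerLoc p).inf_mem _ _ hV₀ hV₁)
  obtain ⟨K', hfin, hgal, hVK⟩ := cmLoc_exists_field p V hV
  -- `V` fixes `z` and `g` is right `V`-invariant
  have hχV : ∀ v ∈ V, lkumChi p v = 1 := by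
    intro v hv
    have h1 : localGaloisToGlobal p v ∈ (cycloField p).fixingSubgroup := (hVle hv).2
    have h2 := (cycloChar_eq_one_iff p _).2 h1
    simp only [lkumChi, h2, Units.val_one]
  have hgV : ∀ σ v, v ∈ V → g (σ * v) = g σ := fun σ v hv => hg σ v (hVle hv).1
  have hzV : ∀ v ∈ V, v z = z := by
    intro v hv
    have : Fact (1 < p) := ⟨(Fact.out : p.Prime).one_lt⟩
    rw [hact v, hχV v hv, ZMod.val_one, pow_one]
  have hzK : z ∈ K' := by
    rw [← InfiniteGalois.fixedField_fixingSubgroup K', IntermediateField.mem_fixedField_iff]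
    intro v hv
    exact hzV v (hVK ▸ hv)
  -- restriction to `K'`
  have hnorm : Normal ℚ_[p] K' := inferInstance
  let res : GQq p →* (K' ≃ₐ[ℚ_[p]] K') := AlgEquiv.restrictNormalHom K'
  have hres : ∀ (σ : GQq p) (x : K'), ((res σ x : K') : PadicAlgCl p) = σ x := fun σ x =>
    AlgEquiv.restrictNormal_commutes σ K' x
  have hsurj : Function.Surjective res := AlgEquiv.restrictNormalHom_surjective (PadicAlgCl p)
  let s : (K' ≃ₐ[ℚ_[p]] K') → GQq p := Function.surjInv hsurj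
  have hs : ∀ γ, res (s γ) = γ := Function.surjInv_eq hsurj
  have hkerV : ∀ v : GQq p, res v = 1 → v ∈ V := by
    intro v hv
    rw [hVK, IntermediateField.mem_fixingSubgroup_iff]
    intro x hx
    have := hres v ⟨x, hx⟩
    rw [hv] at this
    exact this.symm
  have hkey : ∀ σ τ : GQq p, res σ = res τ → g σ = g τ := by
    intro σ τ h
    have hv : τ⁻¹ * σ ∈ V := hkerV _ (by rw [map_mul, map_inv, h, inv_mul_cancel])
    have := hgV τ _ hv
    rwa [mul_inv_cancel_left] at this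
  have hkeyχ : ∀ σ τ : GQq p, res σ = res τ → lkumChi p σ = lkumChi p τ := by
    intro σ τ h
    have hv : τ⁻¹ * σ ∈ V := hkerV _ (by rw [map_mul, map_inv, h, inv_mul_cancel])
    have := hχV _ hv
    rw [lkumChi_mul] at this
    have h2 : lkumChi p τ * (lkumChi p τ⁻¹ * lkumChi p σ) = lkumChi p τ := by rw [this, mul_one]
    rwa [← mul_assoc, ← lkumChi_mul, mul_inv_cancel, show lkumChi p 1 = 1 by
      simp [lkumChi], one_mul] at h2
  -- Hilbert 90 at the level `K'`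
  have hz0 : (⟨z, hzK⟩ : K') ≠ 0 := by
    intro h
    have : z = 0 := congrArg Subtype.val h
    exact hz.ne_zero (Fact.out : p.Prime).ne_zero this
  have hzp' : (⟨z, hzK⟩ : K') ^ p = 1 := Subtype.ext (by simpa using hzp)
  obtain ⟨β', hβ'0, hβ'⟩ := lkum_h90 (K := ℚ_[p]) (L := K') p ⟨z, hzK⟩ hz0 hzp'
    (fun γ => lkumChi p (s γ)) (fun γ => g (s γ))
    (fun γ => by
      apply Subtype.ext
      have h1 := hres (s γ) ⟨z, hzK⟩
      rw [hs γ] at h1
      rw [h1]
      simpa using hact (s γ))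
    (fun γ δ => by
      show g (s (γ * δ)) = g (s γ) + lkumChi p (s γ) * g (s δ)
      rw [← hcoc]
      exact hkey _ _ (by rw [map_mul, hs, hs, hs]))
  -- the generator
  have hβact : ∀ σ : GQq p, σ ((β' : K') : PadicAlgCl p) =
      z ^ (g σ).val * ((β' : K') : PadicAlgCl p) := by
    intro σ
    have h3 := hβ' (res σ)
    have h4 := hres σ (β' : K')
    rw [← h4, h3]
    have h5 : g (s (res σ)) = g σ := hkey _ _ (hs _)
    simp only [h5, MulMemClass.coe_mul, SubmonoidClass.coe_pow]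
  have hβ0 : ((β' : K') : PadicAlgCl p) ≠ 0 := by
    intro h
    exact hβ'0 (Subtype.ext h)
  have hfix : ∀ σ : GQq p, σ (((β' : K') : PadicAlgCl p) ^ p) = ((β' : K') : PadicAlgCl p) ^ p := by
    intro σ
    rw [map_pow, hβact σ, mul_pow, ← pow_mul, mul_comm _ p, pow_mul, hzp, one_pow, one_mul]
  obtain ⟨b, hb⟩ := (InfiniteGalois.mem_range_algebraMap_iff_fixed
    (k := ℚ_[p]) (K := PadicAlgCl p) _).2 hfix
  have hb0 : b ≠ 0 := by
    rintro rfl
    rw [map_zero] at hb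
    exact hβ0 (pow_eq_zero_iff (Fact.out : p.Prime).ne_zero |>.1 hb.symm)
  exact ⟨_, Units.mk0 b hb0, hβ0, hβact, hb⟩

/-- **Uniqueness**: the class of `β ^ p` modulo `p`-th powers determines the `χ̄`-cocycle up to a
coboundary. -/
theorem lkum_unique (p : ℕ) [Fact p.Prime] (z : PadicAlgCl p) (hz : IsPrimitiveRoot z p)
    (hact : ∀ τ : GQq p, τ z = z ^ (lkumChi p τ).val)
    (g g' : GQq p → ZMod p) (β β' : PadicAlgCl p) (b b' : ℚ_[p]ˣ)
    (hβ0 : β ≠ 0)
    (hβ : ∀ σ : GQq p, σ β = z ^ (g σ).val * β)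
    (hβ' : ∀ σ : GQq p, σ β' = z ^ (g' σ).val * β')
    (hb : algebraMap ℚ_[p] (PadicAlgCl p) b = β ^ p)
    (hb' : algebraMap ℚ_[p] (PadicAlgCl p) b' = β' ^ p)
    (hbb : (QuotientGroup.mk b : ℚ_[p]ˣ ⧸ (powMonoidHom p : ℚ_[p]ˣ →* ℚ_[p]ˣ).range) =
      QuotientGroup.mk b') :
    ∃ m : ZMod p, ∀ σ : GQq p, g σ - g' σ = (lkumChi p σ - 1) * m := by
  have : NeZero p := ⟨(Fact.out : p.Prime).ne_zero⟩
  have hzp : z ^ p = 1 := hz.pow_eq_one
  have hz0 : z ≠ 0 := hz.ne_zero (Fact.out : p.Prime).ne_zero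
  obtain ⟨a, ha⟩ := QuotientGroup.eq.1 hbb
  have ha' : (b' : ℚ_[p]) = b * (a : ℚ_[p]) ^ p := by
    have h1 : b' = b * a ^ p := by
      have : a ^ p = b⁻¹ * b' := ha
      rw [this, mul_inv_cancel_left]
    rw [h1]
    push_cast
    rfl
  set A : PadicAlgCl p := algebraMap ℚ_[p] (PadicAlgCl p) a with hA
  have hA0 : A ≠ 0 := by
    rw [hA]
    exact (map_ne_zero _).2 a.ne_zero
  have hAfix : ∀ σ : GQq p, σ A = A := fun σ => σ.commutes _
  have hpow : (β' / (β * A)) ^ p = 1 := by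
    rw [div_pow, mul_pow, ← hb, ← hb', ha', map_mul, map_pow]
    exact div_self (mul_ne_zero ((map_ne_zero _).2 b.ne_zero) (pow_ne_zero _ hA0))
  obtain ⟨i, -, hi⟩ := hz.eq_pow_of_pow_eq_one hpow
  have hβ'eq : β' = z ^ i * (β * A) := by
    rw [hi, div_mul_cancel₀ _ (mul_ne_zero hβ0 hA0)]
  refine ⟨-(i : ZMod p), fun σ => ?_⟩
  have h1 : σ β' = z ^ ((g' σ).val + i) * (β * A) := by
    rw [hβ' σ, hβ'eq, ← mul_assoc, ← pow_add]
  have h2 : σ β' = z ^ ((lkumChi p σ).val * i + (g σ).val) * (β * A) := by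
    rw [hβ'eq, map_mul, map_pow, map_mul, hact σ, hβ σ, hAfix σ, ← pow_mul, pow_add]
    ring
  have h3 : z ^ ((g' σ).val + i) = z ^ ((lkumChi p σ).val * i + (g σ).val) :=
    mul_right_cancel₀ (mul_ne_zero hβ0 hA0) (h1.symm.trans h2)
  have hfo : IsOfFinOrder z :=
    isOfFinOrder_iff_pow_eq_one.2 ⟨p, (Fact.out : p.Prime).pos, hzp⟩
  have h4 := hfo.pow_eq_pow_iff_modEq.1 h3
  rw [← hz.eq_orderOf] at h4
  have h5 := (ZMod.natCast_eq_natCast_iff _ _ p).2 h4
  push_cast at h5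
  rw [ZMod.natCast_zmod_val, ZMod.natCast_zmod_val, ZMod.natCast_zmod_val] at h5
  linear_combination -h5

/-- **L-kum** from **L-cnt**. -/
theorem stmtLKum_of (hcnt : StmtPowCardQp) : StmtLKum := by
  intro p _ hp2 M _ hM
  have : NeZero p := ⟨(Fact.out : p.Prime).ne_zero⟩
  obtain ⟨hQfin, hQcard⟩ := hcnt p hp2
  obtain ⟨z, hz, hact⟩ := lkum_exists_root p
  set d := Module.finrank (ZMod p) M with hd
  let bas : Module.Basis (Fin d) (ZMod p) M := Module.finBasis (ZMod p) M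
  have hMχ : ∀ (τ : GQq p) (m : M), M.ρ τ m = lkumChi p τ • m := hM
  -- coordinates of a cocycle
  have hcoord : ∀ (c : cocycles₁ M) (i : Fin d) (σ τ : GQq p),
      bas.repr ((c : GQq p → M) (σ * τ)) i =
        bas.repr ((c : GQq p → M) σ) i + lkumChi p σ * bas.repr ((c : GQq p → M) τ) i := by
    intro c i σ τ
    rw [(mem_cocycles₁_iff (c : GQq p → M)).1 c.2 σ τ, hMχ, map_add, map_smul]
    simp only [Finsupp.coe_add, Finsupp.coe_smul, Pi.add_apply, Pi.smul_apply, smul_eq_mul]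
    ring
  have hex : ∀ x : levH1 (towerLoc p) M, ∃ (c : cocycles₁ M) (b : Fin d → ℚ_[p]ˣ),
      (H1π M).hom c = (x : H1 M) ∧ ∀ i, ∃ β : PadicAlgCl p, β ≠ 0 ∧
        (∀ σ : GQq p, σ β = z ^ (bas.repr ((c : GQq p → M) σ) i).val * β) ∧
        algebraMap ℚ_[p] (PadicAlgCl p) (b i) = β ^ p := by
    intro x
    obtain ⟨c, hc, hcx⟩ := (mem_levH1_iff (towerLoc p) M (x : H1 M)).1 x.2
    have hi : ∀ i : Fin d, ∃ (b : ℚ_[p]ˣ) (β : PadicAlgCl p), β ≠ 0 ∧
        (∀ σ : GQq p, σ β = z ^ (bas.repr ((c : GQq p → M) σ) i).val * β) ∧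
        algebraMap ℚ_[p] (PadicAlgCl p) b = β ^ p := by
      intro i
      obtain ⟨U, hU, hUc⟩ := hc
      obtain ⟨β, b, h0, h1, h2⟩ := lkum_exists_beta p z hz hact
        (fun σ => bas.repr ((c : GQq p → M) σ) i) (hcoord c i)
        ⟨U, hU, fun g s hs => by
          show bas.repr ((c : GQq p → M) (g * s)) i = bas.repr ((c : GQq p → M) g) i
          rw [hUc g s hs]⟩
      exact ⟨b, β, h0, h1, h2⟩
    choose b β h using hi
    exact ⟨c, b, hcx, fun i => ⟨β i, h i⟩⟩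
  choose cf bf hcf hbf using hex
  let Q := ℚ_[p]ˣ ⧸ (powMonoidHom p : ℚ_[p]ˣ →* ℚ_[p]ˣ).range
  let F : levH1 (towerLoc p) M → (Fin d → Q) := fun x i => QuotientGroup.mk (bf x i)
  have hinj : Function.Injective F := by
    intro x x' hxx
    have hm : ∀ i : Fin d, ∃ m : ZMod p, ∀ σ : GQq p,
        bas.repr ((cf x : GQq p → M) σ) i - bas.repr ((cf x' : GQq p → M) σ) i =
          (lkumChi p σ - 1) * m := by
      intro i
      obtain ⟨β, hβ0, hβ, hb⟩ := hbf x i
      obtain ⟨β', -, hβ', hb'⟩ := hbf x' i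
      exact lkum_unique p z hz hact _ _ β β' (bf x i) (bf x' i) hβ0 hβ hβ' hb hb'
        (congrFun hxx i)
    choose m hm using hm
    apply Subtype.ext
    rw [← hcf x, ← hcf x', H1π_eq_iff]
    refine ⟨∑ i, m i • bas i, ?_⟩
    funext σ
    apply bas.ext_elem
    intro i
    have hrepr : bas.repr (∑ j, m j • bas j) i = m i := by
      rw [bas.repr_sum_self]
    show bas.repr (M.ρ σ (∑ j, m j • bas j) - ∑ j, m j • bas j) i =
      bas.repr ((cf x : GQq p → M) σ - (cf x' : GQq p → M) σ) i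
    rw [hMχ, map_sub, map_smul, map_sub]
    simp only [Finsupp.coe_sub, Finsupp.coe_smul, Pi.sub_apply, Pi.smul_apply, smul_eq_mul,
      hrepr, hm i σ]
    ring
  have hfinL : Finite (levH1 (towerLoc p) M) := Finite.of_injective F hinj
  have hmodfin : Module.Finite (ZMod p) (levH1 (towerLoc p) M) := Module.Finite.of_finite
  refine ⟨hmodfin, ?_⟩
  have hcard1 : Nat.card (levH1 (towerLoc p) M) ≤ Nat.card (Fin d → Q) :=
    Nat.card_le_card_of_injective F hinj
  have hcard2 : Nat.card (Fin d → Q) = Nat.card Q ^ d := by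
    rw [Nat.card_fun, Nat.card_fin]
  have hcard3 : Nat.card (levH1 (towerLoc p) M) =
      p ^ Module.finrank (ZMod p) (levH1 (towerLoc p) M) := by
    rw [Module.natCard_eq_pow_finrank (K := ZMod p), Nat.card_zmod]
  have hcard4 : Nat.card Q ^ d ≤ p ^ (2 * d) := by
    rw [pow_mul]
    exact Nat.pow_le_pow_left hQcard d
  have hle : p ^ Module.finrank (ZMod p) (levH1 (towerLoc p) M) ≤ p ^ (2 * d) := by
    rw [← hcard3]
    exact hcard1.trans (hcard2 ▸ hcard4)
  exact (Nat.pow_le_pow_iff_right (Fact.out : p.Prime).one_lt).1 hle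

end Fermat.Agent.TW.L

end
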