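/-
TW-L / L-cnt (helper32): `[ℚ_pˣ : (ℚ_pˣ)^p] ≤ p²` for `p` odd.

Main result: `stmtPowCardQp : StmtPowCardQp` (statement in `TW/L/Plan.lean`).

Proof: the count of PT-L (`PT/L/PowCard.lean`, helper74) for `F = ℚ_p` gives
`[Fˣ : Fˣᵖ] = p · [U : Uᵖ]` and `[U : Uᵖ] ≤ [U₂ : U₃] · |U[p]| ≤ p · |U[p]|`; here the `p`-torsion
`U[p]` is trivial, because `ℚ_p` (`p` odd) contains no `p`-th root of unity except `1`
(`lcnt_padic_eq_one`: `Σ_{i<p} xⁱ = p + (x - 1) z` with `z ≡ p(p-1)/2 ≡ 0 mod p`).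
-/
import Mathlib
import Fermat.Agent.TW.L.Plan
import Fermat.Agent.PT.L.PowCard

set_option autoImplicit false

namespace Fermat.Agent.TW.L

open Fermat.Agent.PT.L Fermat.Agent.PT.X

/-- `x ^ i - 1 = (x - 1) * Σ_{j<i} x^j`. -/
lemma lcnt_pow_sub_one {R : Type*} [CommRing R] (x : R) (i : ℕ) :
    x ^ i - 1 = (x - 1) * ∑ j ∈ Finset.range i, x ^ j := by
  rw [mul_comm, geom_sum_mul]

/-- In `ℤ_p`, `p` odd, the only `p`-th root of unity is `1`. -/
lemma lcnt_padicInt_eq_one (p : ℕ) [hp : Fact p.Prime] (hp2 : p ≠ 2) (x : ℤ_[p])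
    (hx : x ^ p = 1) : x = 1 := by
  by_contra hne
  have ht : x - 1 ≠ 0 := sub_ne_zero.mpr hne
  -- reduction mod p
  have hx1 : PadicInt.toZMod x = 1 := by
    have h1 : (PadicInt.toZMod x) ^ p = 1 := by rw [← map_pow, hx, map_one]
    rwa [ZMod.pow_card] at h1
  -- the geometric sum vanishes
  have hS : ∑ i ∈ Finset.range p, x ^ i = 0 := by
    have h := lcnt_pow_sub_one x p
    rw [hx, sub_self] at h
    rcases mul_eq_zero.mp h.symm with h | h
    · exact absurd h ht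
    · exact h
  -- Σ x^i = p + (x - 1) * z
  set z : ℤ_[p] := ∑ i ∈ Finset.range p, ∑ j ∈ Finset.range i, x ^ j with hz
  have hSz : ∑ i ∈ Finset.range p, x ^ i = (p : ℤ_[p]) + (x - 1) * z := by
    have : ∑ i ∈ Finset.range p, x ^ i = ∑ i ∈ Finset.range p, (1 + (x ^ i - 1)) :=
      Finset.sum_congr rfl (fun i _ => by ring)
    rw [this, Finset.sum_add_distrib, hz, Finset.mul_sum]
    congr 1
    · simp
    · exact Finset.sum_congr rfl (fun i _ => lcnt_pow_sub_one x i)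
  -- z ≡ 0 mod p
  have hz0 : PadicInt.toZMod z = 0 := by
    have h1 : PadicInt.toZMod z = ∑ i ∈ Finset.range p, (i : ZMod p) := by
      rw [hz, map_sum]
      refine Finset.sum_congr rfl (fun i _ => ?_)
      rw [map_sum]
      simp [hx1]
    have h2 : (∑ i ∈ Finset.range p, (i : ZMod p)) * 2 = 0 := by
      have := congrArg (fun n : ℕ => (n : ZMod p)) (Finset.sum_range_id_mul_two p)
      simp only [Nat.cast_mul, Nat.cast_sum, Nat.cast_ofNat] at this
      rw [this]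
      simp
    have h3 : (2 : ZMod p) ≠ 0 := by
      intro h
      have : ((2 : ℕ) : ZMod p) = 0 := by exact_mod_cast h
      rw [ZMod.natCast_eq_zero_iff] at this
      have := (Nat.prime_dvd_prime_iff_eq hp.out Nat.prime_two).mp this
      exact hp2 this
    rw [h1]
    exact (mul_eq_zero.mp h2).resolve_right h3
  have hx0 : PadicInt.toZMod (x - 1) = 0 := by rw [map_sub, hx1, map_one, sub_self]
  -- divisibility by p
  have hdvd : ∀ y : ℤ_[p], PadicInt.toZMod y = 0 → ∃ w, y = (p : ℤ_[p]) * w := by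
    intro y hy
    have : y ∈ RingHom.ker (PadicInt.toZMod (p := p)) := hy
    rw [PadicInt.ker_toZMod, PadicInt.maximalIdeal_eq_span_p, Ideal.mem_span_singleton] at this
    exact this
  obtain ⟨a, ha⟩ := hdvd _ hx0
  obtain ⟨b, hb⟩ := hdvd _ hz0
  rw [hSz, ha, hb] at hS
  have hp0 : (p : ℤ_[p]) ≠ 0 := by exact_mod_cast hp.out.ne_zero
  have h4 : (p : ℤ_[p]) * (1 + (p : ℤ_[p]) * (a * b)) = 0 := by
    rw [← hS]; ring
  have h5 : (1 + (p : ℤ_[p]) * (a * b)) = 0 := (mul_eq_zero.mp h4).resolve_left hp0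
  have h6 := congrArg (PadicInt.toZMod (p := p)) h5
  simp at h6

/-- In `ℚ_p`, `p` odd, the only `p`-th root of unity is `1`. -/
lemma lcnt_padic_eq_one (p : ℕ) [hp : Fact p.Prime] (hp2 : p ≠ 2) (x : ℚ_[p])
    (hx : x ^ p = 1) : x = 1 := by
  have hn : ‖x‖ = 1 := by
    have h1 : ‖x‖ ^ p = 1 := by rw [← norm_pow, hx, norm_one]
    exact (pow_eq_one_iff_of_nonneg (norm_nonneg x) hp.out.ne_zero).mp h1
  have h2 := lcnt_padicInt_eq_one p hp2 ⟨x, hn.le⟩ (by
    apply Subtype.ext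
    simpa using hx)
  simpa using congrArg (fun y : ℤ_[p] => (y : ℚ_[p])) h2

/-- The `p`-torsion of the unit group of `ℚ_p` (`p` odd) is trivial. -/
lemma lcnt_card_torsion (p : ℕ) [hp : Fact p.Prime] (hp2 : p ≠ 2) :
    Nat.card (powMonoidHom p : l7U p ℚ_[p] →* l7U p ℚ_[p]).ker = 1 := by
  have hsub : Subsingleton (powMonoidHom p : l7U p ℚ_[p] →* l7U p ℚ_[p]).ker := by
    refine ⟨fun s t => ?_⟩
    have key : ∀ u : (powMonoidHom p : l7U p ℚ_[p] →* l7U p ℚ_[p]).ker, u = 1 := by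
      intro u
      have h := u.2
      rw [MonoidHom.mem_ker] at h
      have h2 := congrArg (fun z : l7U p ℚ_[p] => ((z : ℚ_[p]ˣ) : ℚ_[p])) h
      have h3 : (((u : l7U p ℚ_[p]) : ℚ_[p]ˣ) : ℚ_[p]) ^ p = 1 := by simpa using h2
      have h4 := lcnt_padic_eq_one p hp2 _ h3
      apply Subtype.ext
      apply Subtype.ext
      apply Units.ext
      simpa using h4
    rw [key s, key t]
  exact Nat.card_unique

/-- `[ℚ_pˣ : (ℚ_pˣ)^p]` is finite and at most `p²` (`p` odd). -/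
theorem lcnt_pow_index (p : ℕ) [hp : Fact p.Prime] (hp2 : p ≠ 2) :
    (powMonoidHom p : ℚ_[p]ˣ →* ℚ_[p]ˣ).range.index ≠ 0 ∧
      (powMonoidHom p : ℚ_[p]ˣ →* ℚ_[p]ˣ).range.index ≤ p ^ 2 := by
  have hw : L7Val (wv p (F := ℚ_[p])) := l7_val p ℚ_[p] stmtWAdd
  have hc : L7Complete (wv p (F := ℚ_[p])) := l7_complete p ℚ_[p] stmtWComplete
  have hp0 : ((p : ℕ) : ℚ_[p]) ≠ 0 := l7_natCast_ne_zero p ℚ_[p] p hp.out.ne_zero
  have he : wv p (((p : ℕ) : ℚ_[p])) = ((1 : ℕ) : ℤ) := by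
    rw [l7_wv_prime p ℚ_[p] p, if_pos rfl, Module.finrank_self]
  set A := l7Um hw (((1 + 1 : ℕ) : ℤ)) with hA
  set A' := l7Um hw (((1 + 1 : ℕ) : ℤ) + ((1 : ℕ) : ℤ)) with hA'
  have hAidx : A.index ≠ 0 := l7_Um_index_ne_zero hw stmtWFinite (1 + 1)
  have hle : A' ≤ A.map (powMonoidHom p : l7U p ℚ_[p] →* l7U p ℚ_[p]) :=
    l7_Um_le_map hw hc p hp0 he (by norm_num) (by norm_num)
  have hrel : A'.relIndex A ≠ 0 ∧ A'.relIndex A ≤ p ^ 1 := by
    have := l7_relIndex_le stmtWAdd hw (((1 + 1 : ℕ) : ℤ))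
    rw [Module.finrank_self] at this
    exact this
  have hAn : (A.map (powMonoidHom p : l7U p ℚ_[p] →* l7U p ℚ_[p])).relIndex A ≠ 0 := by
    intro h
    have := Subgroup.relIndex_dvd_of_le_left A hle
    rw [h, zero_dvd_iff] at this
    exact hrel.1 this
  have hAn' : (A.map (powMonoidHom p : l7U p ℚ_[p] →* l7U p ℚ_[p])).relIndex A ≤ p ^ 1 :=
    (Subgroup.relIndex_le_of_le_left hle hrel.1).trans hrel.2
  have hTcard := lcnt_card_torsion p hp2
  have hTfin : Finite (powMonoidHom p : l7U p ℚ_[p] →* l7U p ℚ_[p]).ker :=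
    Nat.finite_of_card_ne_zero (by rw [hTcard]; exact one_ne_zero)
  obtain ⟨hU0, hUle⟩ := l7_index_powRange_le A p hAidx hAn
  have htf : ∀ c : Multiplicative ℤ, c ^ p = 1 → c = 1 := by
    intro c hc
    have h1 : p • Multiplicative.toAdd c = 0 := by
      have := congrArg Multiplicative.toAdd hc
      simpa using this
    have h2 : Multiplicative.toAdd c = 0 := by
      rcases smul_eq_zero.mp h1 with h | h
      · exact absurd h hp.out.ne_zero
      · exact h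
    rw [← ofAdd_toAdd c, h2, ofAdd_zero]
  have hmain : (powMonoidHom p : ℚ_[p]ˣ →* ℚ_[p]ˣ).range.index =
      (powRange (l7U p ℚ_[p]) p).index * p := by
    have h := card_powQuot_eq_mul_range p (l7wHom p ℚ_[p]) htf
    rw [l7_card_range] at h
    exact h
  rw [hmain]
  refine ⟨mul_ne_zero hU0 hp.out.ne_zero, ?_⟩
  calc (powRange (l7U p ℚ_[p]) p).index * p
      ≤ ((A.map (powMonoidHom p : l7U p ℚ_[p] →* l7U p ℚ_[p])).relIndex A *
          Nat.card (powMonoidHom p : l7U p ℚ_[p] →* l7U p ℚ_[p]).ker) * p :=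
        Nat.mul_le_mul_right _ hUle
    _ ≤ (p ^ 1 * 1) * p :=
        Nat.mul_le_mul_right _ (Nat.mul_le_mul hAn' hTcard.le)
    _ = p ^ 2 := by ring

/-- **L-cnt**: `StmtPowCardQp`. -/
theorem stmtPowCardQp : StmtPowCardQp := by
  intro p _ hp2
  obtain ⟨h0, hle⟩ := lcnt_pow_index p hp2
  have hfi : (powMonoidHom p : ℚ_[p]ˣ →* ℚ_[p]ˣ).range.FiniteIndex := ⟨h0⟩
  exact ⟨Subgroup.finite_quotient_of_finiteIndex, hle⟩

end Fermat.Agent.TW.L
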