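/-
TW-L, piece L-kum, unconditional form (helper30): `stmtLKum : StmtLKum`
(= `stmtLKum_of` applied to helper32's `stmtPowCardQp`).
-/
import Fermat.Agent.TW.L.LKum
import Fermat.Agent.TW.L.PowCardQp

set_option autoImplicit false

namespace Fermat.Agent.TW.L

/-- **L-kum** (Kummer theory for `G_{ℚ_p}`), unconditional. -/
theorem stmtLKum : StmtLKum := stmtLKum_of stmtPowCardQp

end Fermat.Agent.TW.L
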