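/-
TW-L (local computations for S56; sub-captain helper11): UNCONDITIONAL finals of all fifteen
pieces of `TW/L/Plan.lean` (+ `StmtTameGrp` of Plan2).  Import this file to use TW-L.

  `stmtDecFull`, `stmtFrobExists`, `stmtFrobGen`, `stmtTame`, `stmtTameGrp`, `stmtPowCardQp`,
  `stmtLKum`, `stmtImLe`, `stmtCentralizer`, `stmtArch`, `stmtGlobAd`, `stmtGlobAdTwist`
  are landed in their own files; here:
  `stmtUnrFrob`, `stmtUnrLe`, `stmtLTw`, `stmtLOrd`.
-/
import Fermat.Agent.TW.L.DecFull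
import Fermat.Agent.TW.L.FrobExistsFinal
import Fermat.Agent.TW.L.FrobGen
import Fermat.Agent.TW.L.UnrFrob
import Fermat.Agent.TW.L.UnrLe
import Fermat.Agent.TW.L.Tame
import Fermat.Agent.TW.L.LTw
import Fermat.Agent.TW.L.LKumFinal
import Fermat.Agent.TW.L.ImLe
import Fermat.Agent.TW.L.LOrd
import Fermat.Agent.TW.L.Centralizer
import Fermat.Agent.TW.L.Arch
import Fermat.Agent.TW.L.GlobAd
import Fermat.Agent.TW.L.GlobAdTwist

set_option autoImplicit false

namespace Fermat.Agent.TW.L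

/-- **L-ev**, unconditional. -/
theorem stmtUnrFrob : StmtUnrFrob := stmtUnrFrob_of stmtFrobGen

/-- **L-min**, unconditional: `dim H¹_unr(G_q, M) ≤ h⁰(G_q, M)`. -/
theorem stmtUnrLe : StmtUnrLe := stmtUnrLe_of stmtFrobExists stmtFrobGen stmtUnrFrob

/-- **L-tw**, unconditional. -/
theorem stmtLTw : StmtLTw := stmtLTw_of stmtTame stmtUnrLe stmtFrobGen stmtFrobExists

/-- **L-ord**, unconditional. -/
theorem stmtLOrd : StmtLOrd := stmtLOrd_of stmtImLe stmtLKum

end Fermat.Agent.TW.L
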