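/-
TW-L / L-lb (helper30): **(Lb)** local existence mod `p`.

If the local field `F` (finite over `ℚ_q`) contains the `p`-th roots of unity, then there is a
finite Galois extension `E/F` all of whose norms are `p`-th powers.

`E` is the maximal abelian extension of exponent `p` (`PT.L.kummerMax`, degree `[Fˣ : Fˣᵖ]`);
`H²(Gal(E/F), Eˣ)` is cyclic of order `[E : F]` (`PT.L.la`) and `H¹ = 0` (Hilbert 90), so `Eˣ`
has a fundamental class; Tate's theorem in the forms (T1) `p • (Eˣ)^G ⊂ N Eˣ` and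
(T2) `|G| ≤ [(Eˣ)^G : N Eˣ]` (`PT.X.tateExp`, `PT.X.tateIdx`) gives
`Fˣᵖ ⊂ N Eˣ` and `[E : F] ≤ [Fˣ : N Eˣ] ≤ [Fˣ : Fˣᵖ] = [E : F]`, hence `N Eˣ = Fˣᵖ`.

  `stmtLb : Fermat.Agent.PT.L.StmtLb`
-/
import Fermat.Agent.PT.L.Final
import Fermat.Agent.PT.X.Tate
import Fermat.Agent.PT.A.Final
import Fermat.Agent.PT.A.NormZero

set_option autoImplicit false

namespace Fermat.Agent.TW.L

open groupCohomology Fermat.Agent.PT Fermat.Agent.PT.L

section abstract

variable (F E : Type) [Field F] [Field E] [Algebra F E]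

/-- The inclusion `Fˣ → Eˣ`. -/
noncomputable def llbIncl : Fˣ →* Eˣ := Units.map (algebraMap F E : F →* E)

/-- The norm `Eˣ → Fˣ`. -/
noncomputable def llbNorm : Eˣ →* Fˣ := Units.map (Algebra.norm F : E →* F)

lemma llbIncl_injective : Function.Injective (llbIncl F E) :=
  Units.map_injective (f := (algebraMap F E : F →* E)) (algebraMap F E).injective

lemma llbIncl_val (x : Fˣ) : ((llbIncl F E x : Eˣ) : E) = algebraMap F E x := rfl

lemma llbNorm_val (y : Eˣ) : ((llbNorm F E y : Fˣ) : F) = Algebra.norm F (y : E) := rfl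

variable [FiniteDimensional F E] [IsGalois F E]

/-- The invariants of `Eˣ` are the image of `Fˣ`. -/
lemma llb_inv_iff (c : Additive Eˣ) :
    c ∈ Subgroup.toAddSubgroup (llbIncl F E).range ↔
      ∀ g : E ≃ₐ[F] E, (Rep.ofAlgebraAutOnUnits F E).ρ g c = c := by
  constructor
  · rintro ⟨x, hx⟩ g
    have hx' : llbIncl F E x = c.toMul := hx
    change Additive.ofMul (g • c.toMul) = c
    have : g • c.toMul = c.toMul := by
      rw [← hx']
      ext
      change g (algebraMap F E x) = algebraMap F E x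
      exact g.commutes _
    rw [this]
    rfl
  · intro h
    have hfix : ∀ g : E ≃ₐ[F] E, g (c.toMul : E) = (c.toMul : E) := by
      intro g
      have := h g
      change Additive.ofMul (g • c.toMul) = c at this
      have h2 : g • c.toMul = c.toMul := this
      exact congrArg Units.val h2
    obtain ⟨x0, hx0⟩ := (IsGalois.mem_range_algebraMap_iff_fixed (F := F) (c.toMul : E)).2 hfix
    have hx0ne : x0 ≠ 0 := by
      rintro rfl
      rw [map_zero] at hx0
      exact c.toMul.ne_zero hx0.symm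
    refine ⟨Units.mk0 x0 hx0ne, ?_⟩
    ext
    exact hx0

/-- The norm of an element of `Eˣ`, computed in `Additive Eˣ`. -/
lemma llb_sum_eq (a : Additive Eˣ) :
    (∑ γ : E ≃ₐ[F] E, (Additive.ofMul (γ • a.toMul) : Additive Eˣ)) =
      Additive.ofMul (llbIncl F E (llbNorm F E a.toMul)) := by
  rw [← ofMul_prod]
  congr 1
  ext
  rw [Units.coe_prod, llbIncl_val, llbNorm_val, Algebra.norm_eq_prod_automorphisms]
  rfl

/-- The norm elements of `Eˣ` are the image of the norms. -/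
lemma llb_norm_iff (c : Additive Eˣ) :
    c ∈ Subgroup.toAddSubgroup ((llbNorm F E).range.map (llbIncl F E)) ↔
      IsNormElt (Rep.ofAlgebraAutOnUnits F E) c := by
  constructor
  · rintro ⟨x, ⟨a, rfl⟩, hx⟩
    refine ⟨Additive.ofMul a, ?_⟩
    have h := llb_sum_eq F E (Additive.ofMul a)
    have hx' : c = Additive.ofMul (llbIncl F E (llbNorm F E a)) :=
      congrArg Additive.ofMul hx.symm
    exact hx'.trans h.symm
  · rintro ⟨a, ha⟩
    let a' : Additive Eˣ := a
    have ha' : c = ∑ γ : E ≃ₐ[F] E, (Additive.ofMul (γ • Additive.toMul a') : Additive Eˣ) := ha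
    refine ⟨llbNorm F E (Additive.toMul a'), ⟨_, rfl⟩, ?_⟩
    exact ((llb_sum_eq F E a').symm.trans ha'.symm)

variable (p : ℕ) [Fact p.Prime]

/-- (T1) for `E/F`: `Fˣᵖ ⊂ N Eˣ`. -/
lemma llb_pow_le (hexp : ∀ g : E ≃ₐ[F] E, g ^ p = 1)
    (u : H2 (Rep.ofAlgebraAutOnUnits F E)) (hu : IsFundClass (Rep.ofAlgebraAutOnUnits F E) u) :
    (powMonoidHom p : Fˣ →* Fˣ).range ≤ (llbNorm F E).range := by
  rintro _ ⟨x, rfl⟩
  have hc := (llb_inv_iff F E (Additive.ofMul (llbIncl F E x))).1 ⟨x, rfl⟩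
  have hn := X.tateExp stmtTNp p (E ≃ₐ[F] E) hexp _ u hu _ hc
  obtain ⟨z, ⟨a, rfl⟩, hz⟩ := (llb_norm_iff F E _).2 hn
  refine ⟨a, llbIncl_injective F E ?_⟩
  rw [hz]
  change _ = llbIncl F E (x ^ p)
  rw [map_pow]
  rfl

/-- (T2) for `E/F`: `[E : F] ≤ [Fˣ : N Eˣ]`. -/
lemma llb_card_le (hcomm : ∀ g h : E ≃ₐ[F] E, g * h = h * g) (hexp : ∀ g : E ≃ₐ[F] E, g ^ p = 1)
    (u : H2 (Rep.ofAlgebraAutOnUnits F E)) (hu : IsFundClass (Rep.ofAlgebraAutOnUnits F E) u)
    (hfin : (llbNorm F E).range.index ≠ 0) :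
    Module.finrank F E ≤ (llbNorm F E).range.index := by
  have hrel : (Subgroup.toAddSubgroup ((llbNorm F E).range.map (llbIncl F E))).relIndex
      (Subgroup.toAddSubgroup (llbIncl F E).range) = (llbNorm F E).range.index := by
    rw [Subgroup.relIndex_toAddSubgroup, ← Subgroup.index_comap,
      Subgroup.comap_map_eq_self_of_injective (llbIncl_injective F E)]
  rw [← IsGalois.card_aut_eq_finrank, ← hrel]
  refine X.tateIdx stmtTNp stmtNormZero p (E ≃ₐ[F] E) hcomm hexp _ u hu _ _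
    (fun c => llb_inv_iff F E c) (fun c => llb_norm_iff F E c) ?_
  exact fun h => hfin (hrel.symm.trans h)

/-- Abstract core of (Lb). -/
theorem llb_core (hcomm : ∀ g h : E ≃ₐ[F] E, g * h = h * g) (hexp : ∀ g : E ≃ₐ[F] E, g ^ p = 1)
    (u : H2 (Rep.ofAlgebraAutOnUnits F E)) (hu : IsFundClass (Rep.ofAlgebraAutOnUnits F E) u)
    (hidx : Module.finrank F E = (powMonoidHom p : Fˣ →* Fˣ).range.index) :
    ∀ y : E, ∃ x : F, Algebra.norm F y = x ^ p := by
  have hp0 : p ≠ 0 := (Fact.out : p.Prime).ne_zero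
  have hPne : (powMonoidHom p : Fˣ →* Fˣ).range.index ≠ 0 := by
    rw [← hidx]
    exact Module.finrank_pos.ne'
  have hle := llb_pow_le F E p hexp u hu
  have hdvd := Subgroup.index_dvd_of_le hle
  have hNne : (llbNorm F E).range.index ≠ 0 := fun h0 => hPne (by
    rw [h0] at hdvd
    exact Nat.eq_zero_of_zero_dvd hdvd)
  have h1 := llb_card_le F E p hcomm hexp u hu hNne
  have h2 : (llbNorm F E).range.index ≤ (powMonoidHom p : Fˣ →* Fˣ).range.index :=
    Nat.le_of_dvd (Nat.pos_of_ne_zero hPne) hdvd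
  have heq : (llbNorm F E).range.index = (powMonoidHom p : Fˣ →* Fˣ).range.index :=
    le_antisymm h2 (hidx ▸ h1)
  have hrel : (powMonoidHom p : Fˣ →* Fˣ).range.relIndex (llbNorm F E).range = 1 := by
    have := Subgroup.relIndex_mul_index hle
    rw [heq] at this
    exact Nat.eq_of_mul_eq_mul_right (Nat.pos_of_ne_zero hPne) (by rw [this, one_mul])
  have hge : (llbNorm F E).range ≤ (powMonoidHom p : Fˣ →* Fˣ).range :=
    Subgroup.relIndex_eq_one.1 hrel
  intro y
  by_cases hy : y = 0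
  · refine ⟨0, ?_⟩
    rw [hy, zero_pow hp0]
    exact Algebra.norm_zero
  · obtain ⟨x, hx⟩ := hge ⟨Units.mk0 y hy, rfl⟩
    refine ⟨(x : F), ?_⟩
    have := congrArg Units.val hx
    change ((x ^ p : Fˣ) : F) = Algebra.norm F y at this
    rw [← this, Units.val_pow_eq_pow_val]

end abstract

/-- **(Lb)**, unconditional: local existence mod `p`. -/
theorem stmtLb : StmtLb := by
  intro q _ p _ F _ _ _ ζ hζ
  obtain ⟨E, hE, hA, hfd, hgal, hidx, hcomm, hexp⟩ := kummerMax q p F ζ hζ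
  refine ⟨E, hE, hA, hfd, hgal, ?_⟩
  have hpG : IsPGroup p (E ≃ₐ[F] E) := fun g => ⟨1, by simpa using hexp g⟩
  obtain ⟨k, hk⟩ := (IsPGroup.iff_card (p := p) (G := E ≃ₐ[F] E)).1 hpG
  have hdeg : Module.finrank F E = p ^ k := by
    rw [← IsGalois.card_aut_eq_finrank, hk]
  obtain ⟨hcyc, hcard⟩ := la q p k F E hdeg
  obtain ⟨u, hu⟩ := hcyc.exists_generator
  have hfund : IsFundClass (Rep.ofAlgebraAutOnUnits F E) u := by
    refine ⟨inferInstance, ?_, fun x => ?_⟩
    · rw [hcard, IsGalois.card_aut_eq_finrank]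
    · obtain ⟨n, hn⟩ := AddSubgroup.mem_zmultiples_iff.1 (hu x)
      exact ⟨n, hn⟩
  exact llb_core F E p hcomm hexp u hfund hidx

end Fermat.Agent.TW.L
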