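/-
TW-L, piece **L-pdepth** (helper11; asked by TW-F, helper68): `HasPDepthBig D` (the big-local-tower
version of p-depth) for the concrete datum.
Every level `V = G_K` (`K = ℚ_q·ι(F)`) of the local tower has a sublevel `W = G_{K'}` with
`p ∣ [V : W]`: take the unramified extension `K₃/ℚ_q` of degree `p·[K:ℚ_q]` (PT-L `stmtUnramExists`)
inside `ℚ̄_q`, and `K' = ℚ_q·ι(F') ⊇ K·K₃` by Krasner (`stmtKrasner`); `[V:W]·[K:ℚ_q] = [K':ℚ_q]`
(`IntermediateField.finrank_eq_fixingSubgroup_index`) is divisible by `p·[K:ℚ_q]`.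
-/
import Fermat.Agent.TW.F.PlanH2
import Fermat.Agent.PT.B.LocalLevel
import Fermat.Agent.PT.B.Krasner
import Fermat.Agent.PT.B.Towers
import Fermat.Agent.PT.L.UnramExistsFinal
import Fermat.Agent.PT.B.Plan2

set_option autoImplicit false
set_option linter.style.haveILetI false

noncomputable section

namespace Fermat.Agent.TW.L

open Fermat.Agent.PT Fermat.Agent.PT.B Fermat.Agent.TW.F

/-- **L-pdepth**: every level of the local tower has a sublevel of relative index divisible by
`p`. -/
def StmtPDepthQ : Prop :=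
  ∀ (p : ℕ) [Fact p.Prime] (q : ℕ) [Fact q.Prime], ∀ V ∈ (towerLoc q).lev,
    ∃ W ∈ (towerLoc q).lev, W ≤ V ∧ p ∣ (W.subgroupOf V).index

/-- a finite extension of `ℚ_q` of every degree `n > 0` inside `ℚ̄_q` (the unramified one) -/
theorem lpd_exists_ext (q : ℕ) [Fact q.Prime] (n : ℕ) (hn : 0 < n) :
    ∃ K : IntermediateField ℚ_[q] (PadicAlgCl q), FiniteDimensional ℚ_[q] K ∧
      Module.finrank ℚ_[q] K = n := by
  obtain ⟨E, hE, hA, hA', hT, hfd, hgal, hrk, -, -⟩ :=
    Fermat.Agent.PT.L.stmtUnramExists q ℚ_[q] n hn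
  letI := hE
  letI := hA
  haveI := hfd
  haveI : Algebra.IsAlgebraic ℚ_[q] E := Algebra.IsAlgebraic.of_finite ℚ_[q] E
  let φ : E →ₐ[ℚ_[q]] PadicAlgCl q := IsAlgClosed.lift
  let e : E ≃ₐ[ℚ_[q]] φ.fieldRange := AlgEquiv.ofInjectiveField φ
  refine ⟨φ.fieldRange, ?_, ?_⟩
  · exact Module.Finite.equiv e.toLinearEquiv
  · rw [← e.toLinearEquiv.finrank_eq, hrk]

theorem stmtPDepthQ : StmtPDepthQ := by
  intro p _ q _ V hV
  obtain ⟨F, hF, rfl⟩ := hV
  haveI := hF
  have hVK : F.fixingSubgroup.comap (localGaloisToGlobal q) =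
      (localField q F).fixingSubgroup := by
    ext τ
    rw [Subgroup.mem_comap]
    exact stmtLocalLevel q F τ
  haveI hfin : FiniteDimensional ℚ_[q] (localField q F) := stmtLocalFinite q F hF
  set n := Module.finrank ℚ_[q] (localField q F) with hn
  have hnpos : 0 < n := Module.finrank_pos
  obtain ⟨K₃, hK₃fin, hK₃⟩ := lpd_exists_ext q (p * n) (Nat.mul_pos (Fact.out : p.Prime).pos hnpos)
  haveI := hK₃fin
  haveI : FiniteDimensional ℚ_[q] ↥(localField q F ⊔ K₃) :=
    IntermediateField.finiteDimensional_sup _ _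
  obtain ⟨F', hF', hF'gal, hle⟩ := stmtKrasner q (localField q F ⊔ K₃) inferInstance
  have hWK : F'.fixingSubgroup.comap (localGaloisToGlobal q) =
      (localField q F').fixingSubgroup := by
    ext τ
    rw [Subgroup.mem_comap]
    exact stmtLocalLevel q F' τ
  haveI hfin' : FiniteDimensional ℚ_[q] (localField q F') := stmtLocalFinite q F' hF'
  have hle1 : localField q F ≤ localField q F' := le_sup_left.trans hle
  have hle3 : K₃ ≤ localField q F' := le_sup_right.trans hle
  refine ⟨_, ⟨F', hF', rfl⟩, ?_, ?_⟩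
  · rw [hVK, hWK]
    exact IntermediateField.fixingSubgroup_antitone hle1
  · rw [hVK, hWK]
    have h1 := Subgroup.relIndex_mul_index
      (IntermediateField.fixingSubgroup_antitone hle1 :
        (localField q F').fixingSubgroup ≤ (localField q F).fixingSubgroup)
    rw [← IntermediateField.finrank_eq_fixingSubgroup_index,
      ← IntermediateField.finrank_eq_fixingSubgroup_index] at h1
    have h3 : p * n ∣ Module.finrank ℚ_[q] (localField q F') := by
      rw [← hK₃]
      exact IntermediateField.finrank_dvd_of_le_right hle3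
    rw [← h1, ← hn, mul_comm p n] at h3
    have h4 : (localField q F').fixingSubgroup.relIndex (localField q F).fixingSubgroup * n =
        n * (localField q F').fixingSubgroup.relIndex (localField q F).fixingSubgroup :=
      mul_comm _ _
    rw [h4] at h3
    exact (Nat.mul_dvd_mul_iff_left hnpos).1 h3

/-- **L-pdepth, wired**: `HasPDepthBig D` for every concrete datum. -/
theorem hasPDepth_of_isConcrete (p : ℕ) [Fact p.Prime] (S : Finset Nat.Primes)
    (D : PTDatum p GQ ↥S (GlocS S)) (hD : IsConcreteDatum p S D) : HasPDepthBig D := by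
  intro v V hV
  rw [hD.towerLoc v] at hV ⊢
  exact @stmtPDepthQ p _ ((v : Nat.Primes) : ℕ) ⟨(v : Nat.Primes).2⟩ V hV

end Fermat.Agent.TW.L

end
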