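/-
TW-L (local computations for S56; sub-captain helper11): UNCONDITIONAL finals, part 2.
`import Fermat.Agent.TW.L.Final2` gives ALL of TW-L:

* the fifteen local pieces of Plan.lean/Plan2.lean (via `TW/L/Final.lean`);
* the nine glue pieces of Plan3.lean for `A = ad0Rep p ρbar`:
  `stmtAdSmooth`, `stmtAdUnram`, `stmtAdInvLe`, `stmtAdTw`, `stmtAdMin`, `stmtAdArch` (landed in
  their files) and here `stmtAdOrd`, `stmtAdGlob0`, `stmtAdGlob1`;
* the two new datum inputs of TW-F for the concrete datum: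
  `locExist_concreteDatum : LocExist (concreteDatum …)` (local existence theorem mod `p`) and
  `hasPDepth_of_isConcrete : IsConcreteDatum p S D → HasPDepth D` (TW/L/PDepth.lean).
-/
import Fermat.Agent.TW.L.Final
import Fermat.Agent.TW.L.AdSmooth
import Fermat.Agent.TW.L.AdUnram
import Fermat.Agent.TW.L.AdInvLe
import Fermat.Agent.TW.L.AdTw
import Fermat.Agent.TW.L.AdMin
import Fermat.Agent.TW.L.AdOrd
import Fermat.Agent.TW.L.AdArch
import Fermat.Agent.TW.L.AdGlob0
import Fermat.Agent.TW.L.AdGlob1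
import Fermat.Agent.TW.L.Lb
import Fermat.Agent.TW.L.LocExist
import Fermat.Agent.TW.L.PDepth

set_option autoImplicit false

namespace Fermat.Agent.TW.L

open Fermat.Agent.PT Fermat.Agent.PT.B Fermat.Agent.TW.F ExtCitation

/-- **G-ord**, unconditional. -/
theorem stmtAdOrd : StmtAdOrd := stmtAdOrd_of stmtLOrd stmtLKum stmtAdSmooth

/-- **G-glob0**, unconditional. -/
theorem stmtAdGlob0 : StmtAdGlob0 := stmtAdGlob0_of stmtGlobAd

/-- **G-glob1**, unconditional. -/
theorem stmtAdGlob1 : StmtAdGlob1 := stmtAdGlob1_of stmtGlobAdTwist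

/-- **L-exist**, unconditional: the local existence theorem mod `p` in tower form. -/
theorem stmtLocExistQ : StmtLocExistQ := stmtLocExistQ_of stmtLb

/-- **L-exwire**, unconditional: `LocExist` for the concrete datum. -/
theorem locExist_concreteDatum (p : ℕ) [Fact p.Prime]
    (hp2 : p ≠ 2) (S : Finset Nat.Primes) (hpS : pPrime p ∈ S) (hcg : StmtCmGlob)
    (hcl : StmtCmLoc) (hh : StmtH90Loc) (hex : StmtExistC) (hsv : StmtSurvC) :
    LocExist (concreteDatum p hp2 S hpS hcg hcl hh hex hsv) :=
  locExist_concreteDatum_of stmtLb p hp2 S hpS hcg hcl hh hex hsv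

end Fermat.Agent.TW.L
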