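import Fermat.Agent.TW.L.Plan3
import Fermat.Agent.TW.L.AdGlob0

/-!
# TW-L / G-glob1: `H⁰(G_ℚ, ad⁰ ρ̄(1)) = 0`

`stmtAdGlob1_of : StmtGlobAdTwist → StmtAdGlob1`.

The pairing `(X, a) ↦ Tr_{k/𝔽_p} tr(X a)` on `ad⁰` is perfect for `p` odd; an invariant functional
of the dual twist is `a ↦ Tr tr(X a)` with `ρ̄(σ) X = χ̄(σ)⁻¹ X ρ̄(σ)`, so `X = 0` by L-glob1.
-/

set_option autoImplicit false
set_option linter.unusedSectionVars false

noncomputable section

namespace Fermat.Agent.TW.L

open CategoryTheory Fermat.Agent.TW.S ExtCitation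

section TraceForm

variable {k : Type} [Field k] {V : Type} [AddCommGroup V] [Module k V] [Module.Finite k V]

/-- nondegeneracy of the trace form on `End V` -/
theorem gglob1_trace_nondeg (X : Module.End k V)
    (h : ∀ b : Module.End k V, LinearMap.trace k V (X * b) = 0) : X = 0 := by
  apply LinearMap.ext
  intro w
  rw [LinearMap.zero_apply, ← Module.forall_dual_apply_eq_zero_iff k]
  intro φ
  have h1 := h (φ.smulRight w)
  have e : X * (φ.smulRight w) = φ.smulRight (X w) := by
    apply LinearMap.ext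
    intro v
    rw [Module.End.mul_apply, LinearMap.smulRight_apply, LinearMap.smulRight_apply, map_smul]
  rw [e, LinearMap.trace_smulRight] at h1
  exact h1

/-- nondegeneracy of the trace form on the trace-zero endomorphisms, `dim V = 2`, `2 ≠ 0` -/
theorem gglob1_trace_nondeg0 (h2 : (2 : k) ≠ 0) (hdim : Module.finrank k V = 2)
    (X : Module.End k V) (hX : LinearMap.trace k V X = 0)
    (h : ∀ a : Module.End k V, LinearMap.trace k V a = 0 → LinearMap.trace k V (X * a) = 0) :
    X = 0 := by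
  apply gglob1_trace_nondeg
  intro b
  have ha : LinearMap.trace k V (b - (LinearMap.trace k V b / 2) • (1 : Module.End k V)) = 0 := by
    rw [map_sub, map_smul, LinearMap.trace_one, hdim, smul_eq_mul]
    push_cast
    field_simp
    ring
  have h1 := h _ ha
  rw [mul_sub, mul_smul_comm, mul_one, map_sub, map_smul, hX, smul_zero, sub_zero] at h1
  exact h1

end TraceForm

section Pairing

variable (p : ℕ) [Fact p.Prime] {k : Type} [Field k] [CharP k p] [Algebra (ZMod p) k] [Finite k]
  (ρbar : ResidualGaloisRep k)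

/-- the pairing `Tr_{k/𝔽_p} tr(X a)` -/
def gglob1Pair (X : Module.End k ρbar.V) (a : (ad0Rep p ρbar).V) : ZMod p :=
  Algebra.trace (ZMod p) k (LinearMap.trace k ρbar.V (X * ad0Val p ρbar a))

theorem gglob1Pair_add_right (X : Module.End k ρbar.V) (a b : (ad0Rep p ρbar).V) :
    gglob1Pair p ρbar X (a + b) = gglob1Pair p ρbar X a + gglob1Pair p ρbar X b := by
  unfold gglob1Pair
  rw [map_add, mul_add, map_add, map_add]

theorem gglob1Pair_add_left (X Y : Module.End k ρbar.V) (a : (ad0Rep p ρbar).V) :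
    gglob1Pair p ρbar (X + Y) a = gglob1Pair p ρbar X a + gglob1Pair p ρbar Y a := by
  unfold gglob1Pair
  rw [add_mul, map_add, map_add]

/-- the pairing is nondegenerate on the left -/
theorem gglob1_inj (hp : p ≠ 2) (X : Module.End k ρbar.V) (hX : LinearMap.trace k ρbar.V X = 0)
    (h : ∀ a : (ad0Rep p ρbar).V, gglob1Pair p ρbar X a = 0) : X = 0 := by
  have hfin : FiniteDimensional (ZMod p) k := Module.Finite.of_finite
  apply gglob1_trace_nondeg0 (gglob0_two_ne_zero p hp k) ρbar.finrank_eq X hX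
  intro a ha
  apply (traceForm_nondegenerate (ZMod p) k).1
  intro c
  rw [Algebra.traceForm_apply]
  have hca : LinearMap.trace k ρbar.V (c • a) = 0 := by rw [map_smul, ha, smul_zero]
  obtain ⟨a', ha'⟩ := exists_ad0Val_eq p ρbar (c • a) hca
  have h1 := h a'
  unfold gglob1Pair at h1
  rw [ha', mul_smul_comm, map_smul, smul_eq_mul, mul_comm] at h1
  exact h1

/-- the functional `a ↦ Tr tr(X a)` -/
def gglob1Fun (X : Module.End k ρbar.V) : Module.Dual (ZMod p) (ad0Rep p ρbar).V :=
  AddMonoidHom.toZModLinearMap p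
    (AddMonoidHom.mk' (fun a => gglob1Pair p ρbar X a) (gglob1Pair_add_right p ρbar X))

theorem gglob1Fun_apply (X : Module.End k ρbar.V) (a : (ad0Rep p ρbar).V) :
    gglob1Fun p ρbar X a = gglob1Pair p ρbar X a := rfl

/-- the map `x ↦ (a ↦ Tr tr(x a))` -/
def gglob1Map : (ad0Rep p ρbar).V →ₗ[ZMod p] Module.Dual (ZMod p) (ad0Rep p ρbar).V :=
  AddMonoidHom.toZModLinearMap p
    (AddMonoidHom.mk' (fun x => gglob1Fun p ρbar (ad0Val p ρbar x)) (by
      intro x y
      apply LinearMap.ext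
      intro a
      rw [LinearMap.add_apply, gglob1Fun_apply, gglob1Fun_apply, gglob1Fun_apply, map_add,
        gglob1Pair_add_left]))

theorem gglob1Map_apply (x a : (ad0Rep p ρbar).V) :
    gglob1Map p ρbar x a = gglob1Pair p ρbar (ad0Val p ρbar x) a := rfl

theorem gglob1_finite : Finite (ad0Rep p ρbar).V := by
  have : Finite ρbar.V := Module.finite_of_finite k
  have : Finite (Module.End k ρbar.V) := DFunLike.finite _
  exact Finite.of_injective _ (ad0Val_injective p ρbar)

theorem gglob1Map_injective (hp : p ≠ 2) : Function.Injective (gglob1Map p ρbar) := by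
  rw [injective_iff_map_eq_zero]
  intro x hx
  apply ad0Val_injective p ρbar
  rw [map_zero]
  apply gglob1_inj p ρbar hp _ (trace_ad0Val p ρbar x)
  intro a
  rw [← gglob1Map_apply, hx, LinearMap.zero_apply]

theorem gglob1Map_surjective (hp : p ≠ 2) : Function.Surjective (gglob1Map p ρbar) := by
  have := gglob1_finite p ρbar
  have : FiniteDimensional (ZMod p) (ad0Rep p ρbar).V := Module.Finite.of_finite
  have hfr : Module.finrank (ZMod p) (ad0Rep p ρbar).V =
      Module.finrank (ZMod p) (Module.Dual (ZMod p) (ad0Rep p ρbar).V) :=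
    Subspace.dual_finrank_eq.symm
  exact (LinearMap.injective_iff_surjective_of_finrank_eq_finrank hfr).1
    (gglob1Map_injective p ρbar hp)

/-- invariance of `a ↦ Tr tr(X a)` under the dual twist gives the twisted commutation relation -/
theorem gglob1_twist (hp : p ≠ 2) (x : (ad0Rep p ρbar).V)
    (hinv : ∀ σ : GQ', ((ad0Rep p ρbar).dualTwist (cycloChar p)).ρ σ (gglob1Map p ρbar x) =
      gglob1Map p ρbar x) (σ : GQ') :
    ρbar.ρ σ * ad0Val p ρbar x =
      algebraMap (ZMod p) k ((((cycloChar p σ) ^ (-1 : ℤ) : (ZMod p)ˣ)) : ZMod p) •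
        (ad0Val p ρbar x * ρbar.ρ σ) := by
  obtain ⟨X, hXdef⟩ : ∃ X : Module.End k ρbar.V, X = ad0Val p ρbar x := ⟨_, rfl⟩
  obtain ⟨u, hu⟩ : ∃ u : (ZMod p)ˣ, u = cycloChar p σ := ⟨_, rfl⟩
  rw [← hXdef, ← hu]
  have hX : LinearMap.trace k ρbar.V X = 0 := by rw [hXdef]; exact trace_ad0Val p ρbar x
  have hkey : algebraMap (ZMod p) k (u : ZMod p) • (ρbar.ρ σ * X * ρbar.ρ σ⁻¹) - X = 0 := by
    apply gglob1_inj p ρbar hp
    · rw [map_sub, map_smul, trace_conj, hX, smul_zero, sub_zero]
    · intro a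
      have h1 := congrArg (fun f : Module.Dual (ZMod p) (ad0Rep p ρbar).V => f a) (hinv σ)
      simp only [] at h1
      rw [Rep.dualTwist_ρ_apply, LinearMap.smul_apply, LinearMap.comp_apply, gglob1Map_apply,
        gglob1Map_apply, ← hXdef, ← hu] at h1
      unfold gglob1Pair at h1 ⊢
      rw [ad0Val_ρ, inv_inv] at h1
      rw [sub_mul, map_sub, map_sub, smul_mul_assoc, map_smul, Algebra.algebraMap_eq_smul_one,
        smul_assoc, one_smul, map_smul, sub_eq_zero, ← h1]
      congr 2
      calc LinearMap.trace k ρbar.V (ρbar.ρ σ * X * ρbar.ρ σ⁻¹ * ad0Val p ρbar a)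
          = LinearMap.trace k ρbar.V (ρbar.ρ σ * (X * ρbar.ρ σ⁻¹ * ad0Val p ρbar a)) := by
            simp only [mul_assoc]
        _ = LinearMap.trace k ρbar.V ((X * ρbar.ρ σ⁻¹ * ad0Val p ρbar a) * ρbar.ρ σ) :=
            LinearMap.trace_mul_comm k _ _
        _ = LinearMap.trace k ρbar.V (X * (ρbar.ρ σ⁻¹ * ad0Val p ρbar a * ρbar.ρ σ)) := by
            simp only [mul_assoc]
  have hc : algebraMap (ZMod p) k (((u ^ (-1 : ℤ) : (ZMod p)ˣ)) : ZMod p) *
      algebraMap (ZMod p) k (u : ZMod p) = 1 := by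
    rw [← map_mul, zpow_neg_one, ← Units.val_mul, inv_mul_cancel, Units.val_one, map_one]
  have h2 : algebraMap (ZMod p) k (u : ZMod p) • (ρbar.ρ σ * X * ρbar.ρ σ⁻¹) = X :=
    sub_eq_zero.1 hkey
  have h3 : X * ρbar.ρ σ = algebraMap (ZMod p) k (u : ZMod p) • (ρbar.ρ σ * X) := by
    conv_lhs => rw [← h2]
    rw [smul_mul_assoc, mul_assoc, rho_inv_mul, mul_one]
  rw [h3, smul_smul, hc, one_smul]

/-- **G-glob1** from **L-glob1**. -/
theorem stmtAdGlob1_of (h1 : StmtGlobAdTwist) : StmtAdGlob1 := by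
  intro p _ hp k _ _ _ _ ρbar hirr hidx
  rw [eq_bot_iff]
  intro f hf
  rw [Representation.mem_invariants] at hf
  rw [Submodule.mem_bot]
  obtain ⟨x, rfl⟩ := gglob1Map_surjective p ρbar hp f
  have hX0 : ad0Val p ρbar x = 0 :=
    h1 p hp k ρbar hirr hidx (-1) (Or.inr rfl) (ad0Val p ρbar x)
      (fun σ => gglob1_twist p ρbar hp x hf σ)
  have hx0 : x = 0 := by
    apply ad0Val_injective p ρbar
    rw [hX0, map_zero]
  rw [hx0, map_zero]

end Pairing

end Fermat.Agent.TW.L
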